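import Fermat.Prelude.Def_ModularCurve_LaurentCoeff
import Mathlib.RingTheory.Valuation.ValuationSubring
import Mathlib.FieldTheory.IntermediateField.Adjoin.Basic

/-!
# Laurent series bounded along a valuation ring

Integral series reduce coefficientwise; a series with coefficients in a subfield on which the
valuation is discrete has a content.
-/

set_option autoImplicit false

noncomputable section

open ModularCurve

namespace Fermat.Agent.KummerReduction

variable {K k : Type} [Field K] [Field k]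

/-- A residue map of a valuation ring. -/
structure ResidueData (K k : Type) [Field K] [Field k] where
  A : ValuationSubring K
  π : A →+* k
  π_surjective : Function.Surjective π
  π_eq_zero : ∀ c : A, π c = 0 ↔ (c : K) ∈ A.nonunits

namespace ResidueData

variable (R : ResidueData K k)

/-- Series with coefficients in `A`. -/
def intSeries : Subring (LaurentSeries K) := (coeffMap R.A.subtype).range

theorem coeffMap_subtype_injective : Function.Injective (coeffMap R.A.subtype) := by
  intro x y h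
  ext n
  exact congrArg (fun z : LaurentSeries K => z.coeff n) h

/-- A series is integral when its coefficients are. -/
theorem mem_intSeries {x : LaurentSeries K} : x ∈ R.intSeries ↔ ∀ n, x.coeff n ∈ R.A := by
  constructor
  · rintro ⟨y, rfl⟩ n
    exact (y.coeff n).2
  · intro h
    refine ⟨⟨fun n => ⟨x.coeff n, h n⟩, ?_⟩, ?_⟩
    · refine x.isPWO_support.mono fun n hn => ?_
      simpa [Function.mem_support, Subtype.ext_iff] using hn
    · ext n; rfl

/-- Coefficientwise reduction. -/
def redSeries : R.intSeries →+* LaurentSeries k :=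
  (coeffMap R.π).comp
    (RingEquiv.ofBijective (coeffMap R.A.subtype).rangeRestrict
      ⟨fun _ _ h => R.coeffMap_subtype_injective (congrArg Subtype.val h),
        (coeffMap R.A.subtype).rangeRestrict_surjective⟩).symm.toRingHom

/-- Reduction is coefficientwise. -/
theorem redSeries_coeff (x : R.intSeries) (n : ℤ) :
    (R.redSeries x).coeff n = R.π ⟨(x : LaurentSeries K).coeff n, R.mem_intSeries.mp x.2 n⟩ := by
  set e := RingEquiv.ofBijective (coeffMap R.A.subtype).rangeRestrict
      ⟨fun _ _ h => R.coeffMap_subtype_injective (congrArg Subtype.val h),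
        (coeffMap R.A.subtype).rangeRestrict_surjective⟩
  have h : ((e (e.symm x) : R.intSeries) : LaurentSeries K).coeff n =
      (x : LaurentSeries K).coeff n :=
    congrArg (fun y : R.intSeries => (y : LaurentSeries K).coeff n) (e.apply_symm_apply x)
  show R.π ((e.symm x).coeff n) = _
  exact congrArg R.π (Subtype.ext h)

/-- The reduction of a constant. -/
theorem redSeries_C (c : R.A) (h : HahnSeries.C (c : K) ∈ R.intSeries) :
    R.redSeries ⟨_, h⟩ = HahnSeries.C (R.π c) := by
  ext n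
  rw [redSeries_coeff]
  by_cases hn : n = 0
  · subst hn; simp [HahnSeries.C_apply]
  · simp [HahnSeries.C_apply, HahnSeries.coeff_single_of_ne hn, show (⟨0, zero_mem R.A⟩ : R.A) = 0 from rfl]

/-- Integral constants are integral series. -/
theorem C_mem_intSeries {c : K} (hc : c ∈ R.A) : HahnSeries.C c ∈ R.intSeries :=
  ⟨HahnSeries.C ⟨c, hc⟩, by
    ext n
    by_cases hn : n = 0 <;> simp [hn, HahnSeries.C_apply, HahnSeries.coeff_single_of_ne]⟩

/-- `x` is integral with nonzero reduction. -/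
def IsUnitSeries (x : LaurentSeries K) : Prop := ∃ h : x ∈ R.intSeries, R.redSeries ⟨x, h⟩ ≠ 0

variable {R}

/-- A unit series is integral. -/
theorem IsUnitSeries.mem {x : LaurentSeries K} (h : R.IsUnitSeries x) : x ∈ R.intSeries := h.1

/-- A unit series is nonzero. -/
theorem IsUnitSeries.ne_zero {x : LaurentSeries K} (h : R.IsUnitSeries x) : x ≠ 0 := by
  rintro rfl
  exact h.2 (map_zero R.redSeries)

/-- Products of unit series are unit series. -/
theorem IsUnitSeries.mul {x y : LaurentSeries K} (hx : R.IsUnitSeries x) (hy : R.IsUnitSeries y) :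
    R.IsUnitSeries (x * y) := by
  refine ⟨mul_mem hx.1 hy.1, ?_⟩
  rw [show (⟨x * y, mul_mem hx.1 hy.1⟩ : R.intSeries) = ⟨x, hx.1⟩ * ⟨y, hy.1⟩ from rfl, map_mul]
  exact mul_ne_zero hx.2 hy.2

variable (R)

/-- `1` is a unit series. -/
theorem isUnitSeries_one : R.IsUnitSeries 1 :=
  ⟨one_mem _, by rw [show (⟨1, one_mem _⟩ : R.intSeries) = 1 from rfl, map_one]; exact one_ne_zero⟩

/-- The valuation is discrete on the subfield `L`, with uniformiser `ϖ`. -/
structure Discrete (L : Subfield K) (ϖ : K) : Prop where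
  mem : ϖ ∈ L
  ne_zero : ϖ ≠ 0
  nonunit : ϖ ∈ R.A.nonunits
  exists_zpow : ∀ x ∈ L, x ≠ 0 → ∃ j : ℤ, R.A.valuation x = R.A.valuation ϖ ^ j
  archimedean : ∀ c : K, ∃ j : ℕ, c * ϖ ^ j ∈ R.A

/-- Series with coefficients in `L`. -/
def overSubfield (L : Subfield K) : Subfield (LaurentSeries K) := (coeffMap L.subtype).fieldRange

/-- A series is over `L` when its coefficients are in `L`. -/
theorem mem_overSubfield {L : Subfield K} {x : LaurentSeries K} :
    x ∈ overSubfield L ↔ ∀ n, x.coeff n ∈ L := by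
  constructor
  · rintro ⟨y, rfl⟩ n
    exact (y.coeff n).2
  · intro h
    refine ⟨⟨fun n => ⟨x.coeff n, h n⟩, ?_⟩, ?_⟩
    · refine x.isPWO_support.mono fun n hn => ?_
      simpa [Function.mem_support, Subtype.ext_iff] using hn
    · ext n; rfl

/-- `overSubfield` is monotone. -/
theorem overSubfield_mono {L L' : Subfield K} (h : L ≤ L') : overSubfield L ≤ overSubfield L' :=
  fun _ hx => mem_overSubfield.mpr fun n => h (mem_overSubfield.mp hx n)

/-- Coefficients of a scalar multiple. -/
theorem coeff_C_mul (c : K) (x : LaurentSeries K) (n : ℤ) :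
    (HahnSeries.C c * x).coeff n = c * x.coeff n := by
  rw [HahnSeries.C_mul_eq_smul, HahnSeries.coeff_smul, smul_eq_mul]

variable {R}

/-- `L` contains the powers of `ϖ`. -/
theorem Discrete.zpow_mem {L : Subfield K} {ϖ : K} (hd : R.Discrete L ϖ) (z : ℤ) : ϖ ^ z ∈ L :=
  _root_.zpow_mem hd.mem z

/-- `ϖ` is a nonunit. -/
theorem Discrete.val_lt_one {L : Subfield K} {ϖ : K} (hd : R.Discrete L ϖ) :
    R.A.valuation ϖ < 1 :=
  R.A.mem_nonunits_iff.mp hd.nonunit

/-- `ϖ^i` is integral exactly when `0 ≤ i`. -/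
theorem Discrete.val_le_zpow_iff {L : Subfield K} {ϖ : K} (hd : R.Discrete L ϖ) (i : ℤ) :
    R.A.valuation ϖ ^ i ≤ 1 ↔ 0 ≤ i := by
  have h0 : 0 < R.A.valuation ϖ :=
    zero_lt_iff.mpr ((Valuation.ne_zero_iff _).mpr hd.ne_zero)
  rw [← zpow_zero (R.A.valuation ϖ), zpow_le_zpow_iff_right_of_lt_one₀ h0 hd.val_lt_one]

/-- A bounded nonzero series over `L` becomes integral with nonzero reduction after scaling by a
power of the uniformiser. -/
theorem Discrete.exists_content {L : Subfield K} {ϖ : K} (hd : R.Discrete L ϖ)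
    {x : LaurentSeries K} (hx0 : x ≠ 0) (hL : x ∈ overSubfield L) {c : K} (hc : c ≠ 0)
    (hb : HahnSeries.C c * x ∈ R.intSeries) :
    ∃ z : ℤ, R.IsUnitSeries (HahnSeries.C (ϖ ^ z) * x) := by
  classical
  obtain ⟨j, hj⟩ := hd.archimedean c⁻¹
  have hint : ∀ n, ϖ ^ j * x.coeff n ∈ R.A := fun n => by
    have h := mul_mem hj ((R.mem_intSeries.mp hb) n)
    rw [coeff_C_mul] at h
    convert h using 1
    field_simp
  have hv : ∀ n, x.coeff n ≠ 0 → ∃ i : ℕ,
      R.A.valuation (ϖ ^ j * x.coeff n) = R.A.valuation ϖ ^ (i : ℤ) := by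
    intro n hn
    obtain ⟨i, hi⟩ := hd.exists_zpow _ (mul_mem (pow_mem hd.mem j) (mem_overSubfield.mp hL n))
      (mul_ne_zero (pow_ne_zero _ hd.ne_zero) hn)
    have hle := (R.A.valuation_le_one_iff _).mpr (hint n)
    rw [hi, hd.val_le_zpow_iff] at hle
    exact ⟨i.toNat, by rw [Int.toNat_of_nonneg hle]; exact hi⟩
  obtain ⟨n₀, hn₀⟩ : ∃ n, x.coeff n ≠ 0 := by
    by_contra h
    push Not at h
    exact hx0 (HahnSeries.ext (funext h))
  have hex : ∃ i : ℕ, ∃ n, x.coeff n ≠ 0 ∧
      R.A.valuation (ϖ ^ j * x.coeff n) = R.A.valuation ϖ ^ (i : ℤ) :=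
    ⟨(hv n₀ hn₀).choose, n₀, hn₀, (hv n₀ hn₀).choose_spec⟩
  obtain ⟨n₁, hn₁, hv₁⟩ := Nat.find_spec hex
  set J : ℕ := Nat.find hex
  set z : ℤ := (j : ℤ) - J with hz
  have hscale : ∀ n, R.A.valuation (ϖ ^ z * x.coeff n) =
      R.A.valuation ϖ ^ (-(J : ℤ)) * R.A.valuation (ϖ ^ j * x.coeff n) := by
    intro n
    rw [hz, zpow_sub₀ hd.ne_zero, zpow_natCast, zpow_natCast]
    simp only [map_mul, map_pow, zpow_neg, zpow_natCast, div_eq_mul_inv, map_inv₀]
    rw [mul_comm (R.A.valuation ϖ ^ j), mul_assoc]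
  have hmem : HahnSeries.C (ϖ ^ z) * x ∈ R.intSeries := by
    refine R.mem_intSeries.mpr fun n => ?_
    rw [coeff_C_mul]
    rcases eq_or_ne (x.coeff n) 0 with h | h
    · rw [h, mul_zero]; exact zero_mem _
    obtain ⟨i, hi⟩ := hv n h
    have hJ : J ≤ i := Nat.find_min' hex ⟨n, h, hi⟩
    rw [← R.A.valuation_le_one_iff, hscale, hi,
      ← zpow_add₀ ((Valuation.ne_zero_iff _).mpr hd.ne_zero), hd.val_le_zpow_iff]
    omega
  refine ⟨z, hmem, fun h0 => ?_⟩
  have h := congrArg (fun y : LaurentSeries k => y.coeff n₁) h0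
  simp only [HahnSeries.coeff_zero, redSeries_coeff, R.π_eq_zero, coeff_C_mul] at h
  rw [R.A.mem_nonunits_iff, hscale, hv₁,
    ← zpow_add₀ ((Valuation.ne_zero_iff _).mpr hd.ne_zero), neg_add_cancel, zpow_zero] at h
  exact lt_irrefl _ h

/-- A bounded series over `L` times a unit series is integral only if it is integral. -/
theorem Discrete.mem_of_mul_mem {L : Subfield K} {ϖ : K} (hd : R.Discrete L ϖ)
    {x b : LaurentSeries K} (hL : x ∈ overSubfield L) {c : K} (hc : c ≠ 0)
    (hx : HahnSeries.C c * x ∈ R.intSeries) (hb : R.IsUnitSeries b)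
    (h : x * b ∈ R.intSeries) : x ∈ R.intSeries := by
  rcases eq_or_ne x 0 with rfl | hx0
  · exact zero_mem _
  obtain ⟨z, hz⟩ := hd.exists_content hx0 hL hc hx
  rcases le_or_gt z 0 with hz0 | hz0
  · have hc' : ϖ ^ (-z) ∈ R.A := by
      rw [← Int.toNat_of_nonneg (show 0 ≤ -z by omega), zpow_natCast]
      exact pow_mem (show ϖ ∈ R.A from R.A.nonunits_le hd.nonunit) _
    have := mul_mem (R.C_mem_intSeries hc') hz.mem
    rw [← mul_assoc, ← map_mul, ← zpow_add₀ hd.ne_zero, neg_add_cancel, zpow_zero, map_one,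
      one_mul] at this
    exact this
  · exfalso
    have hcA : ϖ ^ z ∈ R.A := by
      rw [← Int.toNat_of_nonneg hz0.le, zpow_natCast]
      exact pow_mem (show ϖ ∈ R.A from R.A.nonunits_le hd.nonunit) _
    have hnu : R.π ⟨ϖ ^ z, hcA⟩ = 0 := by
      rw [R.π_eq_zero, R.A.mem_nonunits_iff, map_zpow₀]
      rw [← Int.toNat_of_nonneg hz0.le, zpow_natCast]
      exact pow_lt_one₀ zero_le hd.val_lt_one (by omega)
    obtain ⟨hm, hne⟩ := hz.mul hb
    apply hne
    rw [show (⟨_, hm⟩ : R.intSeries) =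
        ⟨_, R.C_mem_intSeries hcA⟩ * ⟨x * b, h⟩ from Subtype.ext (mul_assoc _ _ _),
      map_mul, R.redSeries_C ⟨_, hcA⟩, hnu, map_zero, zero_mul]

end ResidueData

end Fermat.Agent.KummerReduction
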