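import Fermat.Agent.KummerReduction.Gauss
import Mathlib.LinearAlgebra.Dual.Lemmas

/-!
# Reduction bases and descent for Gauss models

Over a subfield with discrete valuation, the lattice of a finite dimensional space has a basis
with independent reductions.
-/

set_option autoImplicit false

noncomputable section

open ModularCurve

namespace Fermat.Agent.KummerReduction

theorem exists_finset_functional {K X : Type} [Field K] (P : Submodule K (X → K))
    [FiniteDimensional K P] {u : X → K} (hu : u ∉ P) :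
    ∃ (s : Finset X) (c : X → K), (∀ p ∈ P, ∑ x ∈ s, c x * p x = 0) ∧
      ∑ x ∈ s, c x * u x = 1 := by
  classical
  set U : Submodule K (X → K) := P ⊔ Submodule.span K {u} with hU
  let res : (s : Finset X) → U →ₗ[K] (s → K) := fun s =>
    (LinearMap.funLeft K K (Subtype.val : s → X)).comp U.subtype
  obtain ⟨s, hs⟩ : ∃ s, ∀ t, Module.finrank K (LinearMap.ker (res s)) ≤
      Module.finrank K (LinearMap.ker (res t)) :=
    ⟨Function.argmin (fun t => Module.finrank K (LinearMap.ker (res t))),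
      fun t => Function.argmin_le (f := fun t => Module.finrank K (LinearMap.ker (res t))) t⟩
  have hinj : ∀ w : U, res s w = 0 → w = 0 := by
    intro w hw
    by_contra hne
    obtain ⟨a, ha⟩ : ∃ a, (w : X → K) a ≠ 0 := by
      by_contra h
      push Not at h
      exact hne (Subtype.ext (funext h))
    have hlt : LinearMap.ker (res (insert a s)) < LinearMap.ker (res s) := by
      refine SetLike.lt_iff_le_and_exists.mpr ⟨fun z hz => ?_, w, hw, fun hz => ha ?_⟩
      · rw [LinearMap.mem_ker] at hz ⊢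
        funext x
        exact congrFun hz ⟨x, Finset.mem_insert_of_mem x.2⟩
      · exact congrFun (LinearMap.mem_ker.mp hz) ⟨a, Finset.mem_insert_self a s⟩
    exact absurd (hs (insert a s)) (not_le.mpr (Submodule.finrank_lt_finrank_of_lt hlt))
  have hnot : res s ⟨u, le_sup_right (a := P) (Submodule.subset_span rfl)⟩ ∉
      (P.comap U.subtype).map (res s) := by
    rintro ⟨w, hw, heq⟩
    have h0 := hinj (w - ⟨u, le_sup_right (a := P) (Submodule.subset_span rfl)⟩)
      (by rw [map_sub, heq, sub_self])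
    have h1 : (w : X → K) = u := congrArg Subtype.val (sub_eq_zero.mp h0)
    exact hu (h1 ▸ hw)
  obtain ⟨f, hf1, hf0⟩ := Submodule.exists_dual_map_eq_bot_of_notMem hnot inferInstance
  set fu := f (res s ⟨u, le_sup_right (a := P) (Submodule.subset_span rfl)⟩) with hfu
  refine ⟨s, fun x => if h : x ∈ s then fu⁻¹ * f (Pi.single ⟨x, h⟩ 1) else 0, ?_⟩
  have key : ∀ w : U, ∑ x ∈ s, (if h : x ∈ s then fu⁻¹ * f (Pi.single ⟨x, h⟩ 1) else 0) *
      (w : X → K) x = fu⁻¹ * f (res s w) := by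
    intro w
    have h : res s w = ∑ x : s, (w : X → K) x • Pi.single x (1 : K) := by
      conv_lhs => rw [pi_eq_sum_univ' (res s w)]
      refine Finset.sum_congr rfl fun x _ => ?_
      rfl
    rw [h, map_sum, Finset.mul_sum, ← Finset.sum_coe_sort s]
    refine Finset.sum_congr rfl fun x _ => ?_
    rw [dif_pos x.2, map_smul, smul_eq_mul]
    ring
  refine ⟨fun p hp => ?_, ?_⟩
  · rw [key ⟨p, le_sup_left (b := Submodule.span K {u}) hp⟩]
    have : f (res s ⟨p, le_sup_left (b := Submodule.span K {u}) hp⟩) ∈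
        ((P.comap U.subtype).map (res s)).map f :=
      Submodule.mem_map_of_mem (Submodule.mem_map_of_mem hp)
    rw [hf0, Submodule.mem_bot] at this
    rw [this, mul_zero]
  · rw [key ⟨u, le_sup_right (a := P) (Submodule.subset_span rfl)⟩]
    exact inv_mul_cancel₀ hf1

namespace GaussData

variable {K F k G ι : Type} [Field K] [Field F] [Field k] [Field G] [Algebra K F] [Algebra k G]
variable (D : GaussData K F k G ι)

/-- Elements whose expansions are quotients of bounded series over `L`. -/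
def subF (L : Subfield K) (ϖ : K) (hϖ : ϖ ∈ D.R.A) : Subfield F :=
  ⨅ i, (D.R.fracOver L ϖ hϖ).comap (D.emb i)

theorem mem_subF {L : Subfield K} {ϖ : K} {hϖ : ϖ ∈ D.R.A} {φ : F} :
    φ ∈ D.subF L ϖ hϖ ↔ ∀ i, D.emb i φ ∈ D.R.fracOver L ϖ hϖ := by
  rw [subF, Subfield.mem_iInf]
  rfl

theorem fracOver_le {L : Subfield K} {ϖ : K} {hϖ : ϖ ∈ D.R.A} :
    D.R.fracOver L ϖ hϖ ≤ ResidueData.overSubfield L :=
  Subfield.closure_le.mpr fun _ hx => hx.1

/-- The residue field of `L`. -/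
def resField (L : Subfield K) : Subfield k where
  carrier := {y | ∃ c : D.R.A, (c : K) ∈ L ∧ D.R.π c = y}
  zero_mem' := ⟨0, zero_mem L, map_zero _⟩
  one_mem' := ⟨1, one_mem L, map_one _⟩
  neg_mem' := by
    rintro _ ⟨c, hc, rfl⟩
    exact ⟨-c, neg_mem hc, map_neg _ _⟩
  add_mem' := by
    rintro _ _ ⟨c, hc, rfl⟩ ⟨d, hd, rfl⟩
    exact ⟨c + d, add_mem hc hd, map_add _ _ _⟩
  mul_mem' := by
    rintro _ _ ⟨c, hc, rfl⟩ ⟨d, hd, rfl⟩
    exact ⟨c * d, mul_mem hc hd, map_mul _ _ _⟩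
  inv_mem' := by
    rintro _ ⟨c, hc, rfl⟩
    by_cases h0 : D.R.π c = 0
    · exact ⟨0, zero_mem L, by rw [h0, inv_zero, map_zero]⟩
    have hnu : (c : K) ∉ D.R.A.nonunits := fun h => h0 ((D.R.π_eq_zero c).mpr h)
    rw [D.R.A.mem_nonunits_iff_or] at hnu
    push Not at hnu
    refine ⟨⟨(c : K)⁻¹, hnu.2⟩, inv_mem hc, eq_inv_of_mul_eq_one_left ?_⟩
    rw [← map_mul, show (⟨(c : K)⁻¹, hnu.2⟩ : D.R.A) * c = 1 from
      Subtype.ext (inv_mul_cancel₀ hnu.1), map_one]

variable {D} {L : Subfield K} {ϖ : K} (hd : D.R.Discrete L ϖ)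

theorem redSeries_mem_resField {a : D.R.intSeries}
    (ha : (a : LaurentSeries K) ∈ ResidueData.overSubfield L) :
    D.R.redSeries a ∈ ResidueData.overSubfield (D.resField L) :=
  ResidueData.mem_overSubfield.mpr fun n => by
    rw [D.R.redSeries_coeff]
    exact ⟨⟨_, D.R.mem_intSeries.mp a.2 n⟩, ResidueData.mem_overSubfield.mp ha n, rfl⟩

include hd in
theorem algebraMap_uniformiser_mem :
    algebraMap K F ϖ ∈ D.subF L ϖ (D.R.A.nonunits_le hd.nonunit) := by
  refine D.mem_subF.mpr fun i => Subfield.subset_closure ⟨?_, 0, ?_⟩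
  · rw [D.emb_algebraMap]
    refine ResidueData.mem_overSubfield.mpr fun n => ?_
    by_cases hn : n = 0
    · subst hn; simpa [HahnSeries.C_apply] using hd.mem
    · simp [HahnSeries.C_apply, HahnSeries.coeff_single_of_ne hn]
  · rw [pow_zero, map_one, one_mul, D.emb_algebraMap]
    exact D.R.C_mem_intSeries (D.R.A.nonunits_le hd.nonunit)

include hd in
/-- An integral element of `subF L ϖ` is a power of `ϖ` times a quotient of unit series over `L`. -/
theorem exists_rep {φ : F} (hφ : φ ∈ D.subF L ϖ (D.R.A.nonunits_le hd.nonunit)) (i : ι)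
    (hW : φ ∈ D.model.W i) :
    φ = 0 ∨ ∃ (z : ℕ) (a b : LaurentSeries K), D.R.IsUnitSeries a ∧ D.R.IsUnitSeries b ∧
      a ∈ ResidueData.overSubfield L ∧ b ∈ ResidueData.overSubfield L ∧
      D.emb i φ * b = HahnSeries.C (ϖ ^ z) * a := by
  refine or_iff_not_imp_left.mpr fun hφ0 => ?_
  obtain ⟨z, a, b, ha, hb, haL, hbL, heq⟩ :=
    hd.exists_normal_form (by simpa using hφ0) (D.mem_subF.mp hφ i)
  by_cases hz : 0 ≤ z
  · lift z to ℕ using hz
    rw [zpow_natCast] at heq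
    exact ⟨z, a, b, ha, hb, haL, hbL, heq⟩
  exfalso
  obtain ⟨a', b', hb', heq'⟩ := hW
  have hc : ϖ ^ (-z) ∈ D.R.A := by
    rw [← Int.toNat_of_nonneg (show 0 ≤ -z by omega), zpow_natCast]
    exact pow_mem (show ϖ ∈ D.R.A from D.R.A.nonunits_le hd.nonunit) _
  have hπ : D.R.π ⟨_, hc⟩ = 0 := by
    rw [D.R.π_eq_zero, D.R.A.mem_nonunits_iff]
    show D.R.A.valuation (ϖ ^ (-z)) < 1
    rw [← Int.toNat_of_nonneg (show 0 ≤ -z by omega), zpow_natCast, map_pow]
    exact pow_lt_one₀ zero_le hd.val_lt_one (by omega)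
  have key : a * (b' : LaurentSeries K) = HahnSeries.C (ϖ ^ (-z)) * ((a' : LaurentSeries K) * b) := by
    have h2 : a = HahnSeries.C (ϖ ^ (-z)) * (D.emb i φ * b) := by
      rw [heq, ← mul_assoc, ← map_mul, ← zpow_add₀ hd.ne_zero, neg_add_cancel, zpow_zero, map_one,
        one_mul]
    rw [h2, ← heq']
    ring
  have h1 : (⟨a, ha.mem⟩ * b' : D.R.intSeries) =
      ⟨_, D.R.C_mem_intSeries hc⟩ * (a' * ⟨b, hb.mem⟩) := Subtype.ext key
  have h2 := congrArg D.R.redSeries h1
  rw [map_mul, map_mul, D.R.redSeries_C ⟨_, hc⟩, hπ, map_zero, zero_mul] at h2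
  exact mul_ne_zero ha.2 hb' h2

include hd in
theorem rd_mem_resField {φ : F} (hφ : φ ∈ D.subF L ϖ (D.R.A.nonunits_le hd.nonunit)) (i : ι)
    (hW : φ ∈ D.model.W i) :
    D.ρ (D.model.rd i φ) ∈ ResidueData.overSubfield (D.resField L) := by
  rcases exists_rep hd hφ i hW with rfl | ⟨z, a, b, ha, hb, haL, hbL, heq⟩
  · rw [D.model.rd_zero, map_zero]; exact zero_mem _
  have hc : ϖ ^ z ∈ D.R.A := pow_mem (show ϖ ∈ D.R.A from D.R.A.nonunits_le hd.nonunit) z
  have hCL : HahnSeries.C (ϖ ^ z) ∈ ResidueData.overSubfield L :=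
    ResidueData.mem_overSubfield.mpr fun n => by
      by_cases hn : n = 0
      · subst hn; simpa [HahnSeries.C_apply, -map_pow] using pow_mem hd.mem z
      · simp [HahnSeries.C_apply, HahnSeries.coeff_single_of_ne hn, -map_pow]
  rw [D.ρ_rd hW (a := ⟨_, mul_mem (D.R.C_mem_intSeries hc) ha.mem⟩) (b := ⟨b, hb.mem⟩) hb.2 heq]
  exact div_mem (redSeries_mem_resField (mul_mem hCL haL)) (redSeries_mem_resField hbL)

include hd in
theorem div_uniformiser_mem {φ : F} (hφ : φ ∈ D.subF L ϖ (D.R.A.nonunits_le hd.nonunit)) (i : ι)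
    (hnu : φ ∈ (D.model.W i).nonunits) : φ * (algebraMap K F ϖ)⁻¹ ∈ D.model.W i := by
  have hW : φ ∈ D.model.W i := (D.model.W i).nonunits_le hnu
  rcases exists_rep hd hφ i hW with rfl | ⟨z, a, b, ha, hb, -, -, heq⟩
  · rw [zero_mul]; exact zero_mem _
  rcases z with _ | z
  · exfalso
    rw [pow_zero, map_one, one_mul] at heq
    have h := D.ρ_rd hW (a := ⟨a, ha.mem⟩) (b := ⟨b, hb.mem⟩) hb.2 heq
    rw [D.model.rd_eq_zero_of_nonunit hnu, map_zero] at h
    exact div_ne_zero ha.2 hb.2 h.symm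
  · refine D.isInt_of_zpow hd (z := (z : ℤ)) (Int.natCast_nonneg z) ha.mem hb ?_
    have hC : (HahnSeries.C ϖ : LaurentSeries K) ≠ 0 := by simpa using hd.ne_zero
    rw [map_mul, map_inv₀, D.emb_algebraMap, mul_right_comm, heq, pow_succ, map_mul, zpow_natCast]
    field_simp

/-- Combinations with coefficients in `k` of vectors defined over the residue field of `L`. -/
theorem exists_coeff_resField {d : ℕ} {v : Fin d → ι → G} {t : ι → G}
    (hv : ∀ l i, D.ρ (v l i) ∈ ResidueData.overSubfield (D.resField L))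
    (ht : ∀ i, D.ρ (t i) ∈ ResidueData.overSubfield (D.resField L))
    {c : Fin d → k} (h : t = ∑ l, c l • v l) :
    ∃ c' : Fin d → D.resField L, t = ∑ l, (c' l : k) • v l := by
  obtain ⟨r, hr⟩ := LinearMap.exists_leftInverse_of_injective
    (Algebra.linearMap (D.resField L) k) (LinearMap.ker_eq_bot.mpr Subtype.val_injective)
  refine ⟨fun l => r (c l), funext fun i => D.ρ.injective (HahnSeries.ext (funext fun n => ?_))⟩
  have hsum : ∀ c : Fin d → k, (D.ρ ((∑ l, c l • v l) i)).coeff n =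
      ∑ l, c l * (D.ρ (v l i)).coeff n := fun c => by
    rw [Finset.sum_apply]
    simp only [Pi.smul_apply]
    simp only [map_sum, Algebra.smul_def, map_mul, D.ρ_algebraMap, HahnSeries.coeff_sum,
      ResidueData.coeff_C_mul]
  have h1 := hsum c
  rw [← h] at h1
  have htn := ResidueData.mem_overSubfield.mp (ht i) n
  have h2 : (⟨_, htn⟩ : D.resField L) = ∑ l, r (c l) * ⟨_, ResidueData.mem_overSubfield.mp (hv l i) n⟩ := by
    have hr' : ∀ y : D.resField L, r (y : k) = y := fun y => LinearMap.congr_fun hr y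
    rw [← hr' ⟨_, htn⟩]
    show r ((D.ρ (t i)).coeff n) = _
    rw [h1, map_sum]
    refine Finset.sum_congr rfl fun l _ => ?_
    rw [mul_comm, mul_comm (r (c l))]
    exact r.map_smul (⟨_, ResidueData.mem_overSubfield.mp (hv l i) n⟩ : D.resField L) (c l)
  rw [hsum]
  have h3 := congrArg (fun y : D.resField L => (y : k)) h2
  push_cast at h3
  exact h3

/-- Independent reductions force independence over `K`. -/
theorem linearIndependent_of_rd {γ : ι → K} {d : ℕ} {b : Fin d → F}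
    (hb : ∀ l i, b l * (algebraMap K F (γ i))⁻¹ ∈ D.model.W i)
    (hli : LinearIndependent k fun l i => D.model.rd i (b l * (algebraMap K F (γ i))⁻¹)) :
    LinearIndependent K b := by
  rw [Fintype.linearIndependent_iff]
  intro c hc l
  by_contra hl
  obtain ⟨l₀, -, hmax⟩ := Finset.exists_max_image Finset.univ
    (fun l => D.R.A.valuation (c l)) ⟨l, Finset.mem_univ l⟩
  have h0 : c l₀ ≠ 0 := fun h => hl ((Valuation.zero_iff _).mp (le_antisymm
    ((hmax l (Finset.mem_univ l)).trans (by rw [h, map_zero])) zero_le))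
  have hmem : ∀ l, c l * (c l₀)⁻¹ ∈ D.model.A := fun l => by
    show _ ∈ D.R.A
    rw [← D.R.A.valuation_le_one_iff, map_mul, map_inv₀]
    exact mul_inv_le_one_of_le₀ (hmax l (Finset.mem_univ l)) zero_le
  have hzero : ∑ l, D.model.π ⟨_, hmem l⟩ •
      (fun i => D.model.rd i (b l * (algebraMap K F (γ i))⁻¹)) = 0 := by
    funext i
    have hs : ∑ l, (c l * (c l₀)⁻¹) • (b l * (algebraMap K F (γ i))⁻¹) = 0 := by
      have h' : ∀ l, (c l * (c l₀)⁻¹) • (b l * (algebraMap K F (γ i))⁻¹) =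
          (c l₀)⁻¹ • ((c l • b l) * (algebraMap K F (γ i))⁻¹) := fun l => by
        rw [smul_mul_assoc, smul_smul, mul_comm]
      rw [Finset.sum_congr rfl fun l _ => h' l, ← Finset.smul_sum, ← Finset.sum_mul, hc, zero_mul,
        smul_zero]
    have h := congrArg (D.model.rd i) hs
    rw [D.model.rd_sum _ fun l _ => D.model.smul_mem_W (hmem l) (hb l i), D.model.rd_zero] at h
    simp only [Finset.sum_apply, Pi.smul_apply, Pi.zero_apply]
    rw [← h]
    exact Finset.sum_congr rfl fun l _ => (D.model.rd_smul ⟨_, hmem l⟩ (hb l i)).symm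
  have h := Fintype.linearIndependent_iff.mp hli _ hzero l₀
  rw [show (⟨_, hmem l₀⟩ : D.model.A) = 1 from Subtype.ext (mul_inv_cancel₀ h0), map_one] at h
  exact one_ne_zero h

include hd in
/-- A family in the lattice with independent reductions which cannot be enlarged: every lattice
element reduces into the span of the reductions of the family. -/
theorem exists_maximal_orth {B : Finset F} {γ : ι → K} :
    ∃ (d : ℕ) (b : Fin d → F),
      (∀ l, b l ∈ Submodule.span K (B : Set F) ∧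
        b l ∈ D.subF L ϖ (D.R.A.nonunits_le hd.nonunit)) ∧
      (∀ l i, b l * (algebraMap K F (γ i))⁻¹ ∈ D.model.W i) ∧
      LinearIndependent k (fun l i => D.model.rd i (b l * (algebraMap K F (γ i))⁻¹)) ∧
      ∀ v ∈ Submodule.span K (B : Set F), v ∈ D.subF L ϖ (D.R.A.nonunits_le hd.nonunit) →
        (∀ i, v * (algebraMap K F (γ i))⁻¹ ∈ D.model.W i) →
        ∃ c : Fin d → k, (fun i => D.model.rd i (v * (algebraMap K F (γ i))⁻¹)) =
          ∑ l, c l • fun i => D.model.rd i (b l * (algebraMap K F (γ i))⁻¹) := by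
  classical
  set F₀ := D.subF L ϖ (D.R.A.nonunits_le hd.nonunit) with hF₀
  set V := Submodule.span K (B : Set F) with hV
  let P : ℕ → Prop := fun d => ∃ b : Fin d → F, (∀ l, b l ∈ V ∧ b l ∈ F₀) ∧
      (∀ l i, b l * (algebraMap K F (γ i))⁻¹ ∈ D.model.W i) ∧
      LinearIndependent k (fun l i => D.model.rd i (b l * (algebraMap K F (γ i))⁻¹))
  have hbound : ∀ d, P d → d ≤ Module.finrank K V := by
    rintro d ⟨b, hbV, hb, hli⟩
    have h := linearIndependent_of_rd hb hli
    have h' : LinearIndependent K (fun l => (⟨b l, (hbV l).1⟩ : V)) :=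
      LinearIndependent.of_comp V.subtype h
    simpa using h'.fintype_card_le_finrank
  set d := Nat.findGreatest P (Module.finrank K V) with hd'
  have hP0 : P 0 := ⟨Fin.elim0, fun l => l.elim0, fun l => l.elim0, linearIndependent_empty_type⟩
  have hPd : P d := Nat.findGreatest_spec (P := P) (Nat.zero_le _) hP0
  obtain ⟨b, hbV, hb, hli⟩ := hPd
  refine ⟨d, b, hbV, hb, hli, fun v hvV hvF hvW => ?_⟩
  by_contra hno
  have hli' : LinearIndependent k
      (fun l i => D.model.rd i ((Fin.snoc b v : Fin (d + 1) → F) l * (algebraMap K F (γ i))⁻¹)) := by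
    have hsn : (fun l i => D.model.rd i
        ((Fin.snoc b v : Fin (d + 1) → F) l * (algebraMap K F (γ i))⁻¹)) =
        Fin.snoc (fun l i => D.model.rd i (b l * (algebraMap K F (γ i))⁻¹))
          (fun i => D.model.rd i (v * (algebraMap K F (γ i))⁻¹)) := by
      funext l
      refine Fin.lastCases ?_ (fun j => ?_) l <;> simp
    rw [hsn, linearIndependent_finSnoc]
    refine ⟨hli, fun hmem => hno ?_⟩
    obtain ⟨c, hc⟩ := (Submodule.mem_span_range_iff_exists_fun k).mp hmem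
    exact ⟨c, hc.symm⟩
  have hP1 : P (d + 1) := ⟨Fin.snoc b v, fun l => Fin.lastCases (by simpa using ⟨hvV, hvF⟩)
    (fun j => by simpa using hbV j) l, fun l => Fin.lastCases (by simpa using hvW)
    (fun j => by simpa using hb j) l, hli'⟩
  exact absurd (Nat.le_findGreatest (hbound _ hP1) hP1) (not_le.mpr (Nat.lt_succ_self d))

include hd in
/-- A lattice element over `L` whose reduction lies in the span of the reductions of a family over
`L` becomes, after subtracting a combination of the family, a multiple of `ϖ` in the lattice. -/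
theorem exists_sub_div_uniformiser {γ : ι → K}
    (hγ : ∀ i, algebraMap K F (γ i) ∈ D.subF L ϖ (D.R.A.nonunits_le hd.nonunit))
    {d : ℕ} {b : Fin d → F} (hbF : ∀ l, b l ∈ D.subF L ϖ (D.R.A.nonunits_le hd.nonunit))
    (hb : ∀ l i, b l * (algebraMap K F (γ i))⁻¹ ∈ D.model.W i) {v : F}
    (hvF : v ∈ D.subF L ϖ (D.R.A.nonunits_le hd.nonunit))
    (hvW : ∀ i, v * (algebraMap K F (γ i))⁻¹ ∈ D.model.W i) {c : Fin d → k}
    (hc : (fun i => D.model.rd i (v * (algebraMap K F (γ i))⁻¹)) =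
      ∑ l, c l • fun i => D.model.rd i (b l * (algebraMap K F (γ i))⁻¹)) :
    ∃ w ∈ Submodule.span K (Set.range b),
      (v - w) * (algebraMap K F ϖ)⁻¹ ∈ D.subF L ϖ (D.R.A.nonunits_le hd.nonunit) ∧
      ∀ i, (v - w) * (algebraMap K F ϖ)⁻¹ * (algebraMap K F (γ i))⁻¹ ∈ D.model.W i := by
  set F₀ := D.subF L ϖ (D.R.A.nonunits_le hd.nonunit) with hF₀
  obtain ⟨c', hc'⟩ := exists_coeff_resField
    (fun l i => rd_mem_resField hd (mul_mem (hbF l) (inv_mem (hγ i))) i (hb l i))
    (fun i => rd_mem_resField hd (mul_mem hvF (inv_mem (hγ i))) i (hvW i)) hc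
  choose a haL haπ using fun l => (c' l).2
  have haF : ∀ l, algebraMap K F (a l : K) ∈ F₀ := fun l => by
    refine D.mem_subF.mpr fun i => Subfield.subset_closure ⟨?_, 0, ?_⟩
    · rw [D.emb_algebraMap]
      refine ResidueData.mem_overSubfield.mpr fun n => ?_
      by_cases hn : n = 0
      · subst hn; simpa [HahnSeries.C_apply] using haL l
      · simp [HahnSeries.C_apply, HahnSeries.coeff_single_of_ne hn]
    · rw [pow_zero, map_one, one_mul, D.emb_algebraMap]
      exact D.R.C_mem_intSeries (a l).2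
  refine ⟨∑ l, (a l : K) • b l, Submodule.sum_mem _ fun l _ =>
    Submodule.smul_mem _ _ (Submodule.subset_span ⟨l, rfl⟩), ?_, fun i => ?_⟩
  · refine mul_mem (sub_mem hvF (sum_mem fun l _ => ?_)) (inv_mem (algebraMap_uniformiser_mem hd))
    rw [Algebra.smul_def]
    exact mul_mem (haF l) (hbF l)
  · rw [mul_right_comm]
    have hsum : (∑ l, (a l : K) • b l) * (algebraMap K F (γ i))⁻¹ =
        ∑ l, (a l : K) • (b l * (algebraMap K F (γ i))⁻¹) := by
      rw [Finset.sum_mul]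
      exact Finset.sum_congr rfl fun l _ => smul_mul_assoc _ _ _
    have hmem : ∀ l ∈ Finset.univ, (a l : K) • (b l * (algebraMap K F (γ i))⁻¹) ∈ D.model.W i :=
      fun l _ => D.model.smul_mem_W (a l).2 (hb l i)
    have hW' : (v - ∑ l, (a l : K) • b l) * (algebraMap K F (γ i))⁻¹ ∈ D.model.W i := by
      rw [sub_mul, hsum]
      exact sub_mem (hvW i) (Subring.sum_mem (D.model.W i).toSubring hmem)
    refine div_uniformiser_mem hd (mul_mem (sub_mem hvF (sum_mem fun l _ => ?_))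
      (inv_mem (hγ i))) i ((D.model.mem_nonunits_iff_rd hW').mpr ?_)
    · rw [Algebra.smul_def]
      exact mul_mem (haF l) (hbF l)
    · rw [sub_mul, hsum, D.model.rd_sub (hvW i) (Subring.sum_mem (D.model.W i).toSubring hmem),
        D.model.rd_sum _ hmem, sub_eq_zero]
      refine (congrFun hc' i).trans ?_
      rw [Finset.sum_apply]
      refine Finset.sum_congr rfl fun l _ => ?_
      rw [D.model.rd_smul (a l) (hb l i), Pi.smul_apply, ← haπ l]
      rfl

include hd in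
/-- The expansions at one component of a finitely spanned space have a common denominator `Q`. -/
theorem exists_common_denominator {B : Finset F}
    (hB : (B : Set F) ⊆ D.subF L ϖ (D.R.A.nonunits_le hd.nonunit)) (i₀ : ι) :
    ∃ (Q : LaurentSeries K) (jQ : ℕ), Q ≠ 0 ∧ Q ∈ ResidueData.overSubfield L ∧
      HahnSeries.C (ϖ ^ jQ) * Q ∈ D.R.intSeries ∧
      ∀ v ∈ Submodule.span K (B : Set F),
        ∃ c, c ≠ 0 ∧ HahnSeries.C c * (Q * D.emb i₀ v) ∈ D.R.intSeries := by
  classical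
  have hden : ∀ β ∈ B, ∃ q ∈ D.R.boundedOver L ϖ (D.R.A.nonunits_le hd.nonunit), q ≠ 0 ∧
      q * D.emb i₀ β ∈ D.R.boundedOver L ϖ (D.R.A.nonunits_le hd.nonunit) := fun β hβ => by
    obtain ⟨a, ha, q, hq, hq0, heq⟩ := ResidueData.exists_frac (D.mem_subF.mp (hB hβ) i₀)
    exact ⟨q, hq, hq0, by rw [mul_comm, heq]; exact ha⟩
  choose! q hq hq0 hqβ using hden
  set Q := ∏ β ∈ B, q β with hQ
  have hQb : Q ∈ D.R.boundedOver L ϖ (D.R.A.nonunits_le hd.nonunit) := Subring.prod_mem _ hq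
  have hQ0 : Q ≠ 0 := Finset.prod_ne_zero_iff.mpr hq0
  obtain ⟨hQL, jQ, hjQ⟩ := hQb
  refine ⟨Q, jQ, hQ0, hQL, hjQ, fun v hv => ?_⟩
  obtain ⟨cv, hcv⟩ := Submodule.mem_span_finset.mp hv
  obtain ⟨c₀, hc₀, -, hc₀m⟩ := exists_mul_mem D.R.A (B.image cv)
  have hqj : ∀ β ∈ B, ∃ jβ : ℕ,
      HahnSeries.C (ϖ ^ jβ) * (Q * D.emb i₀ β) ∈ D.R.intSeries := by
    intro β hβ
    have h : Q * D.emb i₀ β ∈ D.R.boundedOver L ϖ (D.R.A.nonunits_le hd.nonunit) := by
      rw [hQ, ← Finset.prod_erase_mul B q hβ, mul_assoc]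
      exact mul_mem (Subring.prod_mem _ fun x hx => hq x (Finset.mem_of_mem_erase hx))
        (hqβ β hβ)
    exact h.2
  choose! jβ hjβ using hqj
  refine ⟨c₀ * ϖ ^ B.sup jβ, mul_ne_zero hc₀ (pow_ne_zero _ hd.ne_zero), ?_⟩
  rw [← hcv.2, map_sum, Finset.mul_sum, Finset.mul_sum]
  refine Subring.sum_mem _ fun β hβ => ?_
  have hterm : HahnSeries.C (c₀ * ϖ ^ B.sup jβ) * (Q * D.emb i₀ (cv β • β)) =
      HahnSeries.C (c₀ * cv β) * (HahnSeries.C (ϖ ^ (B.sup jβ - jβ β)) *
        (HahnSeries.C (ϖ ^ jβ β) * (Q * D.emb i₀ β))) := by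
    rw [Algebra.smul_def, map_mul (D.emb i₀), D.emb_algebraMap,
      show ϖ ^ B.sup jβ = ϖ ^ (B.sup jβ - jβ β) * ϖ ^ jβ β from by
        rw [← pow_add, Nat.sub_add_cancel (Finset.le_sup (f := jβ) hβ)]]
    simp only [map_mul]
    ring
  rw [hterm]
  exact mul_mem (D.R.C_mem_intSeries (hc₀m _ (Finset.mem_image_of_mem _ hβ)))
    (mul_mem (D.R.C_mem_intSeries
      (pow_mem (show ϖ ∈ D.R.A from D.R.A.nonunits_le hd.nonunit) _)) (hjβ β hβ))

include hd in
/-- The coefficients of `Q v` are bounded on the lattice. -/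
theorem coeff_mul_emb_mem {γ : ι → K} {i₀ : ι} (hγ0 : γ i₀ ≠ 0)
    (hγ : algebraMap K F (γ i₀) ∈ D.subF L ϖ (D.R.A.nonunits_le hd.nonunit))
    {Q : LaurentSeries K} {jQ : ℕ} (hQL : Q ∈ ResidueData.overSubfield L)
    (hjQ : HahnSeries.C (ϖ ^ jQ) * Q ∈ D.R.intSeries) {v : F}
    (hvF : v ∈ D.subF L ϖ (D.R.A.nonunits_le hd.nonunit))
    (hvW : v * (algebraMap K F (γ i₀))⁻¹ ∈ D.model.W i₀)
    (hint : ∃ c, c ≠ 0 ∧ HahnSeries.C c * (Q * D.emb i₀ v) ∈ D.R.intSeries) (n : ℤ) :
    (γ i₀ * (ϖ ^ jQ)⁻¹)⁻¹ * (Q * D.emb i₀ v).coeff n ∈ D.R.A := by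
  set bd : K := γ i₀ * (ϖ ^ jQ)⁻¹ with hbd
  have hbd0 : bd ≠ 0 := mul_ne_zero hγ0 (inv_ne_zero (pow_ne_zero _ hd.ne_zero))
  set X := Q * D.emb i₀ v with hX
  obtain ⟨a, b', hb', heq⟩ := hvW
  set X₁ := HahnSeries.C (bd⁻¹) * X with hX₁
  have hγL : γ i₀ ∈ L := by
    have h := D.fracOver_le (D.mem_subF.mp hγ i₀)
    rw [D.emb_algebraMap] at h
    simpa [HahnSeries.C_apply] using ResidueData.mem_overSubfield.mp h 0
  have hX₁L : X₁ ∈ ResidueData.overSubfield L := by
    refine mul_mem (ResidueData.mem_overSubfield.mpr fun n => ?_)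
      (mul_mem hQL (D.fracOver_le (D.mem_subF.mp hvF i₀)))
    by_cases hn : n = 0
    · subst hn
      simpa [HahnSeries.C_apply, hbd] using
        inv_mem (mul_mem hγL (inv_mem (pow_mem hd.mem jQ)))
    · simp [HahnSeries.C_apply, HahnSeries.coeff_single_of_ne hn]
  have hprod : X₁ * (b' : LaurentSeries K) = HahnSeries.C (ϖ ^ jQ) * Q * (a : LaurentSeries K) := by
    rw [← heq, hX₁, hX, hbd, map_mul (D.emb i₀), map_inv₀ (D.emb i₀), D.emb_algebraMap,
      mul_inv, inv_inv, map_mul, map_inv₀]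
    ring
  obtain ⟨c, hc, hcX⟩ := hint
  have hX₁int : X₁ ∈ D.R.intSeries := hd.mem_of_mul_mem hX₁L (mul_ne_zero hc hbd0)
    (by rw [hX₁, ← mul_assoc, ← map_mul, mul_assoc, mul_inv_cancel₀ hbd0, mul_one]; exact hcX)
    ⟨b'.2, hb'⟩ (hprod ▸ mul_mem hjQ a.2)
  have h1 : X₁.coeff n ∈ D.R.A := D.R.mem_intSeries.mp hX₁int n
  rwa [hX₁, ResidueData.coeff_C_mul] at h1

include hd in
/-- A functional vanishing on a finite dimensional space not containing `v₀` which takes the value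
`1` at `v₀` and is bounded on the lattice. -/
theorem exists_bounded_functional [Nonempty ι] {B : Finset F}
    (hB : (B : Set F) ⊆ D.subF L ϖ (D.R.A.nonunits_le hd.nonunit)) {γ : ι → K}
    (hγ0 : ∀ i, γ i ≠ 0)
    (hγ : ∀ i, algebraMap K F (γ i) ∈ D.subF L ϖ (D.R.A.nonunits_le hd.nonunit))
    {U : Submodule K F} [FiniteDimensional K U] {v₀ : F} (hv₀ : v₀ ∉ U) :
    ∃ (Φ : F →ₗ[K] K) (C : K), C ≠ 0 ∧ (∀ u ∈ U, Φ u = 0) ∧ Φ v₀ = 1 ∧
      ∀ v ∈ Submodule.span K (B : Set F), v ∈ D.subF L ϖ (D.R.A.nonunits_le hd.nonunit) →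
        (∀ i, v * (algebraMap K F (γ i))⁻¹ ∈ D.model.W i) → C * Φ v ∈ D.R.A := by
  classical
  obtain ⟨i₀⟩ := ‹Nonempty ι›
  obtain ⟨Q, jQ, hQ0, hQL, hjQ, hint⟩ := exists_common_denominator hd hB i₀
  let T : F →ₗ[K] (ℤ → K) :=
    { toFun := fun v n => (Q * D.emb i₀ v).coeff n
      map_add' := fun v w => by funext n; rw [map_add, mul_add, HahnSeries.coeff_add]; rfl
      map_smul' := fun c v => by
        funext n
        rw [Algebra.smul_def, map_mul, D.emb_algebraMap, mul_left_comm,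
          ResidueData.coeff_C_mul, RingHom.id_apply, Pi.smul_apply, smul_eq_mul] }
  have hTinj : ∀ v, T v = 0 → v = 0 := fun v hv => by
    have h : Q * D.emb i₀ v = 0 := HahnSeries.ext hv
    simpa [hQ0] using h
  have hT0 : T v₀ ∉ U.map T := by
    rintro ⟨w, hw, heq⟩
    exact hv₀ (sub_eq_zero.mp (hTinj (w - v₀) (by rw [map_sub, heq, sub_self])) ▸ hw)
  obtain ⟨s, cf, hcf0, hcf1⟩ := exists_finset_functional _ hT0
  obtain ⟨C, hC, -, hCmul⟩ := exists_mul_mem D.R.A (s.image cf)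
  refine ⟨(∑ n ∈ s, cf n • LinearMap.proj n).comp T, C * (γ i₀ * (ϖ ^ jQ)⁻¹)⁻¹,
    mul_ne_zero hC (inv_ne_zero (mul_ne_zero (hγ0 i₀) (inv_ne_zero (pow_ne_zero _ hd.ne_zero)))),
    fun u hu => ?_, ?_, fun v hvV hvF hvW => ?_⟩
  · simpa using hcf0 _ (Submodule.mem_map_of_mem hu)
  · simpa using hcf1
  · rw [LinearMap.comp_apply, LinearMap.sum_apply, Finset.mul_sum]
    refine Subring.sum_mem D.R.A.toSubring fun n hn => ?_
    rw [LinearMap.smul_apply, LinearMap.proj_apply, smul_eq_mul,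
      show C * (γ i₀ * (ϖ ^ jQ)⁻¹)⁻¹ * (cf n * T v n) =
        C * cf n * ((γ i₀ * (ϖ ^ jQ)⁻¹)⁻¹ * T v n) by ring]
    exact mul_mem (hCmul _ (Finset.mem_image_of_mem _ hn))
      (coeff_mul_emb_mem hd (hγ0 i₀) (hγ i₀) hQL hjQ hvF (hvW i₀) (hint v hvV) n)

variable [Finite ι]

include hd in
/-- A power of `ϖ` brings any element over `L` into the lattice. -/
theorem exists_pow_smul_mem_lattice {γ : ι → K} (hγ0 : ∀ i, γ i ≠ 0)
    (hγ : ∀ i, algebraMap K F (γ i) ∈ D.subF L ϖ (D.R.A.nonunits_le hd.nonunit)) {v₀ : F}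
    (hv₀ : v₀ ∈ D.subF L ϖ (D.R.A.nonunits_le hd.nonunit)) :
    ∃ t : ℕ, ∀ i, ϖ ^ t • v₀ * (algebraMap K F (γ i))⁻¹ ∈ D.model.W i := by
  choose c hc using fun i : ι => show ∃ t : ℕ,
      ϖ ^ t • v₀ * (algebraMap K F (γ i))⁻¹ ∈ D.model.W i by
    rcases eq_or_ne v₀ 0 with h | h
    · exact ⟨0, by rw [h, smul_zero, zero_mul]; exact zero_mem _⟩
    obtain ⟨z, a, b', ha, hb', -, -, heq⟩ := hd.exists_normal_form
      (x := D.emb i (v₀ * (algebraMap K F (γ i))⁻¹))
      ((map_ne_zero _).mpr (mul_ne_zero h (inv_ne_zero ((map_ne_zero _).mpr (hγ0 i)))))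
      (D.mem_subF.mp (mul_mem hv₀ (inv_mem (hγ i))) i)
    refine ⟨(-z).toNat, D.isInt_of_zpow hd (z := z + ((-z).toNat : ℤ)) (by omega) ha.mem hb' ?_⟩
    rw [smul_mul_assoc, Algebra.smul_def, map_mul, D.emb_algebraMap, mul_assoc, heq,
      zpow_add₀ hd.ne_zero, zpow_natCast, mul_comm (ϖ ^ z), map_mul _ (ϖ ^ _), mul_assoc]
  have := Fintype.ofFinite ι
  refine ⟨Finset.univ.sup c, fun i => ?_⟩
  rw [← Nat.sub_add_cancel (Finset.le_sup (f := c) (Finset.mem_univ i)), pow_add, mul_smul,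
    smul_mul_assoc]
  exact D.model.smul_mem_W
    (pow_mem (show ϖ ∈ D.R.A from D.R.A.nonunits_le hd.nonunit) _) (hc i)

include hd in
/-- A reduction basis defined over `L`. -/
theorem exists_orth [Nonempty ι] {B : Finset F}
    (hB : (B : Set F) ⊆ D.subF L ϖ (D.R.A.nonunits_le hd.nonunit)) {γ : ι → K}
    (hγ0 : ∀ i, γ i ≠ 0)
    (hγ : ∀ i, algebraMap K F (γ i) ∈ D.subF L ϖ (D.R.A.nonunits_le hd.nonunit)) :
    ∃ (d : ℕ) (b : Fin d → F),
      (∀ l, b l ∈ Submodule.span K (B : Set F) ∧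
        b l ∈ D.subF L ϖ (D.R.A.nonunits_le hd.nonunit)) ∧
      (∀ l i, b l * (algebraMap K F (γ i))⁻¹ ∈ D.model.W i) ∧
      LinearIndependent k (fun l i => D.model.rd i (b l * (algebraMap K F (γ i))⁻¹)) ∧
      Submodule.span K (Set.range b) = Submodule.span K (B : Set F) := by
  classical
  set F₀ := D.subF L ϖ (D.R.A.nonunits_le hd.nonunit) with hF₀
  set V := Submodule.span K (B : Set F) with hV
  obtain ⟨d, b, hbV, hb, hli, hmax⟩ := exists_maximal_orth hd (B := B) (γ := γ)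
  have hle : Submodule.span K (Set.range b) ≤ V :=
    Submodule.span_le.mpr fun x ⟨l, hl⟩ => hl ▸ (hbV l).1
  refine ⟨d, b, hbV, hb, hli, le_antisymm hle (Submodule.span_le.mpr fun v₀ hv₀ => ?_)⟩
  by_contra hnot
  have : FiniteDimensional K (Submodule.span K (Set.range b)) :=
    FiniteDimensional.span_of_finite K (Set.finite_range b)
  obtain ⟨t, ht⟩ := exists_pow_smul_mem_lattice hd hγ0 hγ (hB hv₀)
  -- `ϖ ^ t • v₀` is congruent to lattice multiples of every power of `ϖ`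
  have hseq : ∀ j : ℕ, ∃ v, v ∈ V ∧ v ∈ F₀ ∧
      (∀ i, v * (algebraMap K F (γ i))⁻¹ ∈ D.model.W i) ∧
      ϖ ^ t • v₀ - ϖ ^ j • v ∈ Submodule.span K (Set.range b) := by
    intro j
    induction j with
    | zero =>
      refine ⟨ϖ ^ t • v₀, Submodule.smul_mem _ _ (Submodule.subset_span hv₀), ?_, ht, by simp⟩
      rw [Algebra.smul_def, map_pow]
      exact mul_mem (pow_mem (algebraMap_uniformiser_mem hd) t) (hB hv₀)
    | succ j ih =>
      obtain ⟨v, hvV, hvF, hvW, hvs⟩ := ih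
      obtain ⟨c, hc⟩ := hmax v hvV hvF hvW
      obtain ⟨w, hw, hF', hW'⟩ :=
        exists_sub_div_uniformiser hd hγ (fun l => (hbV l).2) hb hvF hvW hc
      have hsm : ϖ⁻¹ • (v - w) = (v - w) * (algebraMap K F ϖ)⁻¹ := by
        rw [Algebra.smul_def, map_inv₀, mul_comm]
      refine ⟨ϖ⁻¹ • (v - w), Submodule.smul_mem _ _ (sub_mem hvV (hle hw)), hsm ▸ hF',
        fun i => hsm ▸ hW' i, ?_⟩
      rw [smul_smul, pow_succ, mul_assoc, mul_inv_cancel₀ hd.ne_zero, mul_one, smul_sub, ← sub_add]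
      exact add_mem hvs (Submodule.smul_mem _ _ hw)
  obtain ⟨Φ, C, hC, hΦ0, hΦ1, hΦA⟩ := exists_bounded_functional hd hB hγ0 hγ hnot
  obtain ⟨j, hj⟩ := hd.archimedean (C * ϖ ^ t)⁻¹
  obtain ⟨v, hvV, hvF, hvW, hvs⟩ := hseq (j + 1)
  have hdiff : ϖ ^ t = ϖ ^ (j + 1) * Φ v := by
    have h := hΦ0 _ hvs
    rwa [map_sub, map_smul, map_smul, hΦ1, smul_eq_mul, smul_eq_mul, mul_one, sub_eq_zero] at h
  have hone : (1 : K) = ϖ * ((C * ϖ ^ t)⁻¹ * ϖ ^ j * (C * Φ v)) := by
    have hne : C * ϖ ^ t ≠ 0 := mul_ne_zero hC (pow_ne_zero _ hd.ne_zero)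
    calc (1 : K) = (C * ϖ ^ t)⁻¹ * (C * ϖ ^ t) := (inv_mul_cancel₀ hne).symm
      _ = _ := by rw [hdiff]; ring
  have hnu : (1 : K) ∈ D.R.A.nonunits := by
    rw [hone, D.R.A.mem_nonunits_iff, map_mul]
    exact mul_lt_one_of_lt_of_le hd.val_lt_one
      ((D.R.A.valuation_le_one_iff _).mpr (mul_mem hj (hΦA v hvV hvF hvW)))
  rw [D.R.A.mem_nonunits_iff, map_one] at hnu
  exact lt_irrefl _ hnu

variable (D)

/-- Every finite dimensional space has a reduction basis in the Gauss model. -/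
theorem hasOrth [Nonempty ι] : D.model.HasOrth := by
  classical
  intro V hV γ hγ
  have := Fintype.ofFinite ι
  obtain ⟨B, hB⟩ := Module.Finite.iff_fg.mp hV
  obtain ⟨L, ϖ, hd, h⟩ := D.bounded (B ∪ Finset.univ.image fun i => algebraMap K F (γ i))
  obtain ⟨d, b, -, hb, hli, hspan⟩ := exists_orth hd (B := B)
    (fun x hx => D.mem_subF.mpr fun i => h x (Finset.mem_union_left _ hx) i) hγ
    (fun j => D.mem_subF.mpr fun i => h _ (Finset.mem_union_right _
      (Finset.mem_image_of_mem _ (Finset.mem_univ j))) i)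
  have hliK := linearIndependent_of_rd hb hli
  have hbV : ∀ l, b l ∈ V := fun l => by
    rw [← hB, ← hspan]; exact Submodule.subset_span ⟨l, rfl⟩
  have hsp : ⊤ ≤ Submodule.span K (Set.range fun l => (⟨b l, hbV l⟩ : V)) := by
    rintro ⟨x, hx⟩ -
    rw [← Submodule.apply_mem_span_image_iff_mem_span V.injective_subtype, ← Set.range_comp]
    show x ∈ Submodule.span K (Set.range b)
    rw [hspan, hB]
    exact hx
  have hliV : LinearIndependent K (fun l => (⟨b l, hbV l⟩ : V)) :=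
    LinearIndependent.of_comp V.subtype hliK
  refine ⟨d, Module.Basis.mk hliV hsp, fun l i => ?_, ?_⟩
  · rw [Module.Basis.mk_apply]; exact hb l i
  · simpa only [Module.Basis.mk_apply] using hli

/-- The Gauss model has descent to a subfield with discrete valuation. -/
theorem hasDescent [Nonempty ι] : D.model.HasDescent := by
  intro S
  obtain ⟨L, ϖ, hd, h⟩ := D.bounded S
  refine ⟨D.subF L ϖ (D.R.A.nonunits_le hd.nonunit), ϖ, hd.ne_zero, hd.nonunit,
    algebraMap_uniformiser_mem hd, fun x hx => D.mem_subF.mpr fun i => h x hx i, hd.archimedean,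
    fun i φ hφ hnu => div_uniformiser_mem hd hφ i hnu, ?_⟩
  intro B hB γ hγ0 hγ φ hφ hφW e he
  obtain ⟨d, b, hbV, hb, hli, hspan⟩ := exists_orth hd hB hγ0 hγ
  rw [← hspan, Submodule.mem_span_range_iff_exists_fun] at hφ
  obtain ⟨c, hc⟩ := hφ
  set v := fun l i => D.model.rd i (b l * (algebraMap K F (γ i))⁻¹) with hv
  set t := fun i => D.model.rd i (e i) with ht
  have hbmem : ∀ l, b l ∈ Submodule.span K (Set.range b) := fun l =>
    Submodule.subset_span ⟨l, rfl⟩
  -- the coefficients of `φ` are integral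
  have hcA : ∀ l, c l ∈ D.model.A := by
    by_contra hno
    push Not at hno
    obtain ⟨l, hl⟩ := hno
    obtain ⟨l₀, -, hmax⟩ := Finset.exists_max_image Finset.univ
      (fun l => D.R.A.valuation (c l)) ⟨l, Finset.mem_univ l⟩
    have h0 : ¬ c l₀ ∈ D.R.A := fun hm => hl ((D.R.A.valuation_le_one_iff _).mp
      ((hmax l (Finset.mem_univ l)).trans ((D.R.A.valuation_le_one_iff _).mpr hm)))
    have hmem : ∀ l, c l * (c l₀)⁻¹ ∈ D.model.A := fun l => by
      show _ ∈ D.R.A
      rw [← D.R.A.valuation_le_one_iff, map_mul, map_inv₀]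
      exact mul_inv_le_one_of_le₀ (hmax l (Finset.mem_univ l)) zero_le
    have hsmall : (c l₀)⁻¹ ∈ D.model.A.nonunits := D.R.A.inv_mem_nonunits_iff.mpr (Or.inr h0)
    have hπ : D.model.π ⟨_, D.model.A.nonunits_le hsmall⟩ = 0 :=
      (D.model.π_eq_zero _).mpr hsmall
    have hzero : ∑ l, D.model.π ⟨_, hmem l⟩ • v l = 0 := by
      funext i
      have hs : (c l₀)⁻¹ • (φ * (algebraMap K F (γ i))⁻¹) =
          ∑ l, (c l * (c l₀)⁻¹) • (b l * (algebraMap K F (γ i))⁻¹) := by
        rw [← hc, Finset.sum_mul, Finset.smul_sum]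
        exact Finset.sum_congr rfl fun l _ => by rw [smul_mul_assoc, smul_smul, mul_comm]
      have h1 := congrArg (D.model.rd i) hs
      rw [D.model.rd_smul ⟨_, D.model.A.nonunits_le hsmall⟩ (hφW i), hπ, zero_smul,
        D.model.rd_sum _ fun l _ => D.model.smul_mem_W (hmem l) (hb l i)] at h1
      simp only [Finset.sum_apply, Pi.smul_apply, Pi.zero_apply]
      rw [h1]
      exact Finset.sum_congr rfl fun l _ => (D.model.rd_smul ⟨_, hmem l⟩ (hb l i)).symm
    have h2 := Fintype.linearIndependent_iff.mp hli _ hzero l₀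
    have hne : c l₀ ≠ 0 := fun hz => h0 (hz ▸ zero_mem _)
    rw [show (⟨_, hmem l₀⟩ : D.model.A) = 1 from Subtype.ext (mul_inv_cancel₀ hne), map_one] at h2
    exact one_ne_zero h2
  have hcomb : ∀ (a : Fin d → D.model.A) (i : ι),
      (∑ l, (a l : K) • b l) * (algebraMap K F (γ i))⁻¹ ∈ D.model.W i ∧
        D.model.rd i ((∑ l, (a l : K) • b l) * (algebraMap K F (γ i))⁻¹) =
          ∑ l, D.model.π (a l) • v l i := by
    intro a i
    have hsum : (∑ l, (a l : K) • b l) * (algebraMap K F (γ i))⁻¹ =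
        ∑ l, (a l : K) • (b l * (algebraMap K F (γ i))⁻¹) := by
      rw [Finset.sum_mul]
      exact Finset.sum_congr rfl fun l _ => smul_mul_assoc _ _ _
    have hmem : ∀ l ∈ Finset.univ,
        (a l : K) • (b l * (algebraMap K F (γ i))⁻¹) ∈ D.model.W i :=
      fun l _ => D.model.smul_mem_W (a l).2 (hb l i)
    rw [hsum, D.model.rd_sum _ hmem]
    exact ⟨Subring.sum_mem (D.model.W i).toSubring hmem,
      Finset.sum_congr rfl fun l _ => D.model.rd_smul (a l) (hb l i)⟩
  have hteq : t = ∑ l, D.model.π ⟨c l, hcA l⟩ • v l := by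
    funext i
    rw [ht]
    show D.model.rd i (e i) = _
    rw [← (he i).2.2, ← hc]
    refine ((hcomb (fun l => ⟨c l, hcA l⟩) i).2).trans ?_
    rw [Finset.sum_apply]
    rfl
  obtain ⟨c', hc'⟩ := exists_coeff_resField
    (fun l i => rd_mem_resField hd (mul_mem (hbV l).2 (inv_mem (hγ i))) i (hb l i))
    (fun i => rd_mem_resField hd (he i).1 i (he i).2.1) hteq
  choose a haL haπ using fun l => (c' l).2
  refine ⟨∑ l, (a l : K) • b l, hspan ▸ Submodule.sum_mem _ fun l _ =>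
    Submodule.smul_mem _ _ (hbmem l), sum_mem fun l _ => ?_, fun i => ⟨(hcomb a i).1, ?_⟩⟩
  · rw [Algebra.smul_def]
    refine mul_mem (D.mem_subF.mpr fun i => Subfield.subset_closure ⟨?_, 0, ?_⟩) (hbV l).2
    · rw [D.emb_algebraMap]
      refine ResidueData.mem_overSubfield.mpr fun n => ?_
      by_cases hn : n = 0
      · subst hn; simpa [HahnSeries.C_apply] using haL l
      · simp [HahnSeries.C_apply, HahnSeries.coeff_single_of_ne hn]
    · rw [pow_zero, map_one, one_mul, D.emb_algebraMap]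
      exact D.R.C_mem_intSeries (a l).2
  · rw [(hcomb a i).2]
    refine Eq.symm ((congrFun hc' i).trans ?_)
    rw [Finset.sum_apply]
    exact Finset.sum_congr rfl fun l _ => by rw [Pi.smul_apply, ← haπ l]; rfl

end GaussData

end Fermat.Agent.KummerReduction
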