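import Fermat.Agent.KummerReduction.Glue

/-!
# Functoriality of the gluing invariant

The gluing invariant of Kummer data is multiplicative, and is carried along by semilinear
symmetries of the model fixing each node and the divisor of poles.
-/

set_option autoImplicit false

noncomputable section

open AlgebraicCurve

namespace Fermat.Agent.KummerReduction

variable {K F k G ι N : Type} [Field K] [Field F] [Field k] [Field G] [Algebra K F] [Algebra k G]
variable {M : Model K F k G ι} {Nd : Nodes k G ι N} {n : ℕ}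

namespace Datum

variable (M n) in
/-- The trivial datum. -/
def one : Datum M n where
  f := 1
  γ _ := 1
  γ_ne _ := one_ne_zero
  a _ := 1
  a_ne _ := one_ne_zero
  mem i := by simp [one_mem]
  red_eq i := by simp [M.rd_one]

/-- The product of two data. -/
def mul (x y : Datum M n) : Datum M n where
  f := x.f * y.f
  γ i := x.γ i * y.γ i
  γ_ne i := mul_ne_zero (x.γ_ne i) (y.γ_ne i)
  a i := x.a i * y.a i
  a_ne i := mul_ne_zero (x.a_ne i) (y.a_ne i)
  mem i := by
    rw [map_mul, mul_pow, mul_mul_mul_comm]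
    exact mul_mem (x.mem i) (y.mem i)
  red_eq i := by
    rw [map_mul, mul_pow, mul_mul_mul_comm, M.rd_mul (x.mem i) (y.mem i), x.red_eq, y.red_eq,
      mul_pow]

/-- Natural powers. -/
def npow (x : Datum M n) : ℕ → Datum M n
  | 0 => one M n
  | e + 1 => mul (npow x e) x

/-- The function of a power of a datum. -/
theorem npow_f (x : Datum M n) (e : ℕ) : (x.npow e).f = x.f ^ e := by
  induction e with
  | zero => rw [pow_zero]; rfl
  | succ e ih => show (x.npow e).f * x.f = _; rw [ih, pow_succ]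

theorem psi_mul (x y : Datum M n) {V V' : Submodule K F} {φ ψ : F} (hφ : x.InLattice V φ)
    (hψ : y.InLattice V' ψ) : (mul x y).psi (φ * ψ) = x.psi φ * y.psi ψ := by
  funext i
  show M.rd i (φ * ψ * (algebraMap K F (x.γ i * y.γ i))⁻¹) * (x.a i * y.a i) = _
  rw [map_mul, mul_inv, mul_mul_mul_comm, ← scaled, ← scaled, M.rd_mul (hφ.2 i) (hψ.2 i),
    mul_mul_mul_comm]
  rfl

theorem inLattice_mul [NeZero n] (x y : Datum M n) {E E' : Divisor K F} {φ ψ : F}
    (hφ : x.InLattice (kummerSpace x.f n E) φ) (hψ : y.InLattice (kummerSpace y.f n E') ψ) :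
    (mul x y).InLattice (kummerSpace (mul x y).f n (E + E')) (φ * ψ) :=
  ⟨mul_mem_kummerSpace hφ.1 hψ.1, fun i => by
    show φ * ψ * (algebraMap K F (x.γ i * y.γ i))⁻¹ ∈ M.W i
    rw [map_mul, mul_inv, mul_mul_mul_comm]
    exact mul_mem (hφ.2 i) (hψ.2 i)⟩

end Datum

namespace PoleData

variable [NeZero n] [Finite ι] {P : PoleData M Nd}

omit [Finite ι] in
/-- The trivial datum has trivial gluing. -/
theorem IsGlue.one {ζ : N → k}
    (hζ : P.IsGlue (Datum.one M n) ζ) (s : N) : ζ s = 1 := by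
  have hmem : (Datum.one M n).InLattice (P.sections (Datum.one M n).f n 0) 1 :=
    ⟨one_mem_kummerSpace (by rw [zero_smul]), fun i => by
      simp [Datum.scaled, Datum.one, one_mem]⟩
  have h := (hζ 0 ⟨1, hmem, rfl⟩).2 s
  simp only [Datum.psi, Datum.scaled, Datum.one, map_one, inv_one, mul_one, M.rd_one,
    Nd.val_one] at h
  exact h.symm

/-- Gluing is multiplicative. -/
theorem IsGlue.mul (horth : M.HasOrth) {x y : Datum M n} (hcx : P.Count x.f n)
    (hcy : P.Count y.f n) {ζ ξ η : N → k} (hζ : P.IsGlue x ζ) (hξ : P.IsGlue y ξ)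
    (hη : P.IsGlue (Datum.mul x y) η) : η = ζ * ξ := by
  obtain ⟨η₁, hη₁, m₁, hm₁⟩ := P.exists_isGlue horth x hcx
  obtain ⟨η₂, hη₂, m₂, hm₂⟩ := P.exists_isGlue horth y hcy
  obtain rfl := IsGlue.eq horth hcx hη₁ hζ
  obtain rfl := IsGlue.eq horth hcy hη₂ hξ
  funext s
  obtain ⟨ψ, hψ, hne⟩ := (hm₁ m₁ le_rfl).2 s
  obtain ⟨χ, hχ, hne'⟩ := (hm₂ m₂ le_rfl).2 s
  rw [← (hm₁ m₁ le_rfl).1] at hψ
  rw [← (hm₂ m₂ le_rfl).1] at hχ
  have hr := fun (e : Fin 2) => P.regular_of_mem_rr ((P.val_img x hψ).1 (Nd.comp s e))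
  have hr' := fun (e : Fin 2) => P.regular_of_mem_rr ((P.val_img y hχ).1 (Nd.comp s e))
  have hu := (hζ m₁ hψ).2 s
  have hv := (hξ m₂ hχ).2 s
  obtain ⟨φ, hφ, rfl⟩ := hψ
  obtain ⟨φ', hφ', rfl⟩ := hχ
  have hprod := Datum.inLattice_mul x y hφ hφ'
  rw [← add_nsmul] at hprod
  have h := (hη (m₁ + m₂) ⟨_, hprod, rfl⟩).2 s
  rw [x.psi_mul y hφ hφ'] at h
  simp only [Pi.mul_apply] at h ⊢
  rw [Nd.val_mul (hr 1) (hr' 1), Nd.val_mul (hr 0) (hr' 0), hu, hv] at h
  exact mul_right_cancel₀ (mul_ne_zero hne hne') (by linear_combination -h)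

/-- Gluing of powers. -/
theorem IsGlue.npow (horth : M.HasOrth) {x : Datum M n}
    (hc : ∀ e : ℕ, P.Count (x.f ^ e) n) {ζ : N → k} (hζ : P.IsGlue x ζ) :
    ∀ (e : ℕ) {η : N → k}, P.IsGlue (x.npow e) η → η = ζ ^ e := by
  intro e
  induction e with
  | zero =>
    intro η hη
    funext s
    rw [Pi.pow_apply, pow_zero]
    exact IsGlue.one hη s
  | succ e ih =>
    intro η hη
    have hce : P.Count (x.npow e).f n := by rw [Datum.npow_f]; exact hc e
    obtain ⟨η', hη', -⟩ := P.exists_isGlue horth (x.npow e) hce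
    rw [pow_succ, ← ih hη']
    exact IsGlue.mul horth hce (by simpa using hc 1) hη' hζ hη

end PoleData

/-- A semilinear symmetry of the model fixing each node. -/
structure Symm (M : Model K F k G ι) (Nd : Nodes k G ι N) where
  σK : K ≃+* K
  σF : F ≃+* F
  φk : k →+* k
  φG : G →+* G
  commF : ∀ c, σF (algebraMap K F c) = algebraMap K F (σK c)
  commG : ∀ c, φG (algebraMap k G c) = algebraMap k G (φk c)
  mem_W : ∀ i φ, φ ∈ M.W i → σF φ ∈ M.W i
  rd_comm : ∀ i φ, φ ∈ M.W i → M.rd i (σF φ) = φG (M.rd i φ)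
  node_mem : ∀ s e ψ, ψ ∈ (Nd.place s e).toValuationSubring →
    φG ψ ∈ (Nd.place s e).toValuationSubring
  node_val : ∀ s e ψ, ψ ∈ (Nd.place s e).toValuationSubring →
    Nd.val s e (φG ψ) = φk (Nd.val s e ψ)

namespace Symm

variable (S : Symm M Nd)

/-- The divisor of poles is stable under the symmetry. -/
def Fixes (P : PoleData M Nd) : Prop :=
  ∀ (m : ℕ) (φ : F), φ ∈ riemannRochSpace (m • P.H) → S.σF φ ∈ riemannRochSpace (m • P.H)

/-- The conjugate datum. -/
def conj (x : Datum M n) : Datum M n where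
  f := S.σF x.f
  γ i := S.σK (x.γ i)
  γ_ne i := by simpa using x.γ_ne i
  a i := S.φG (x.a i)
  a_ne i := by simpa using x.a_ne i
  mem i := by
    rw [← S.commF, ← map_pow, ← map_mul]
    exact S.mem_W i _ (x.mem i)
  red_eq i := by
    rw [← S.commF, ← map_pow, ← map_mul, S.rd_comm i _ (x.mem i), x.red_eq, map_pow]

/-- Gluing of the conjugate datum. -/
theorem isGlue_conj [NeZero n] [Finite ι] (horth : M.HasOrth) {P : PoleData M Nd}
    (hP : S.Fixes P) {x : Datum M n} (hc : P.Count x.f n) {ζ η : N → k}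
    (hζ : P.IsGlue x ζ) (hη : P.IsGlue (S.conj x) η) (s : N) : η s = S.φk (ζ s) := by
  obtain ⟨η₁, hη₁, m₁, hm₁⟩ := P.exists_isGlue horth x hc
  obtain rfl := PoleData.IsGlue.eq horth hc hη₁ hζ
  obtain ⟨ψ, hψ, hne⟩ := (hm₁ m₁ le_rfl).2 s
  rw [← (hm₁ m₁ le_rfl).1] at hψ
  have hr := fun (e : Fin 2) => P.regular_of_mem_rr ((P.val_img x hψ).1 (Nd.comp s e))
  have hu := (hζ m₁ hψ).2 s
  obtain ⟨φ, hφ, rfl⟩ := hψ
  have hsc : ∀ i, (S.conj x).scaled i (S.σF φ) = S.σF (x.scaled i φ) := fun i => by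
    simp only [Datum.scaled, conj, map_mul, map_inv₀, S.commF]
  have hlat : (S.conj x).InLattice (P.sections (S.conj x).f n m₁) (S.σF φ) := by
    refine ⟨?_, fun i => ?_⟩
    · show S.σF φ ^ n * S.σF x.f ∈ riemannRochSpace (n • m₁ • P.H)
      rw [← map_pow, ← map_mul, ← mul_nsmul']
      exact hP _ _ (by rw [mul_nsmul']; exact hφ.1)
    · rw [hsc]
      exact S.mem_W i _ (hφ.2 i)
  have hpsi : ∀ i, (S.conj x).psi (S.σF φ) i = S.φG (x.psi φ i) := fun i => by
    show M.rd i ((S.conj x).scaled i (S.σF φ)) * S.φG (x.a i) = _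
    rw [hsc, S.rd_comm i _ (hφ.2 i), ← map_mul]
    rfl
  have h := (hη m₁ ⟨_, hlat, rfl⟩).2 s
  rw [hpsi, hpsi, S.node_val s 1 _ (hr 1), S.node_val s 0 _ (hr 0), hu, map_mul] at h
  exact (mul_right_cancel₀ (by simpa using hne) h).symm

end Symm

end Fermat.Agent.KummerReduction
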