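import Fermat.Agent.KummerReduction.Glue
import Fermat.Agent.FunctionField.PlaceBasics

/-!
# Pole data moved by a function

If `u` has poles at most `k₀ • H` and equal nonzero values at the branches of each node, then
multiplication by powers of `u` transports pole data, gluing and count to `k₀ • H + div u`.
-/

set_option autoImplicit false

noncomputable section

open AlgebraicCurve WithZero

namespace Fermat.Agent.KummerReduction

/-- Multiplication by a power shifts the divisor. -/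
theorem mem_rr_shift {K F : Type} [Field K] [Field F] [Algebra K F] {u φ : F} (hu : u ≠ 0)
    {Du : Divisor K F} (hDu : ∀ v, Du v = v.ord u) (E : Divisor K F) (m : ℕ) :
    φ ∈ riemannRochSpace (E + m • Du) ↔ φ * u ^ m ∈ riemannRochSpace E := by
  rcases eq_or_ne φ 0 with rfl | hφ
  · simp
  rw [mem_riemannRochSpace_iff, mem_riemannRochSpace_iff]
  refine forall_congr' fun v => ?_
  simp only [hφ, mul_ne_zero hφ (pow_ne_zero m hu), false_or]
  rw [v.ord_mul hφ (pow_ne_zero m hu), FunctionField.ord_pow, Finsupp.add_apply,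
    Finsupp.smul_apply, hDu, nsmul_eq_mul]
  omega

variable {K F k G ι N : Type} [Field K] [Field F] [Field k] [Field G] [Algebra K F] [Algebra k G]

theorem Nodes.val_eq_zero_of_lt (Nd : Nodes k G ι N) {s : N} {e : Fin 2} {x : G}
    (hx : (Nd.place s e).adicValuation x < 1) : Nd.val s e x = 0 := by
  have hmem : x ∈ (Nd.place s e).toValuationSubring :=
    (FunctionField.mem_iff_adicValuation_le_one _).mpr hx.le
  rw [Nd.val_of_mem hmem]
  have hker : RingHom.ker (Nd.ev s e) = IsLocalRing.maximalIdeal _ :=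
    IsLocalRing.eq_maximalIdeal (RingHom.ker_isMaximal_of_surjective _
      fun c => ⟨_, Nd.ev_algebraMap s e c⟩)
  rw [← RingHom.mem_ker, hker, IsLocalRing.mem_maximalIdeal, mem_nonunits_iff]
  intro hu
  exact hx.ne ((Nd.place s e).adicValuation_coe_eq_one_iff ⟨x, hmem⟩ |>.mpr hu)

variable {M : Model K F k G ι} {Nd : Nodes k G ι N}

namespace PoleData

/-- A function along which pole data may be moved. -/
structure Shift (P : PoleData M Nd) (k₀ : ℕ) where
  u : F
  ne_zero : u ≠ 0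
  mem : u ∈ riemannRochSpace (k₀ • P.H)
  integral : ∀ i, u ∈ M.W i
  rd_ne : ∀ i, M.rd i u ≠ 0
  val_eq : ∀ s, Nd.val s 0 (M.rd (Nd.comp s 0) u) = Nd.val s 1 (M.rd (Nd.comp s 1) u)
  val_ne : ∀ s e, Nd.val s e (M.rd (Nd.comp s e) u) ≠ 0
  Du : Divisor K F
  Du_eq : ∀ v, Du v = v.ord u
  Dr : ι → Divisor k G
  Dr_eq : ∀ i v, Dr i v = v.ord (M.rd i u)

variable {P : PoleData M Nd} {k₀ : ℕ} (S : P.Shift k₀)

theorem Shift.node_eq_zero (s : N) (e : Fin 2) : S.Dr (Nd.comp s e) (Nd.place s e) = 0 := by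
  have hreg := P.regular_of_mem_rr (P.reg k₀ S.u S.mem S.integral (Nd.comp s e))
  rw [S.Dr_eq]
  have h0 : (Nd.place s e).adicValuation (M.rd (Nd.comp s e) S.u) = 1 :=
    le_antisymm ((FunctionField.mem_iff_adicValuation_le_one _).mp hreg)
      (not_lt.mp fun h => S.val_ne s e (Nd.val_eq_zero_of_lt h))
  exact (FunctionField.adicValuation_eq_one_iff _ (S.rd_ne _)).mp h0

theorem Shift.mem_sections_iff {m : ℕ} {φ : F} :
    φ ∈ riemannRochSpace (m • (k₀ • P.H + S.Du)) ↔
      φ * S.u ^ m ∈ riemannRochSpace ((m * k₀) • P.H) := by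
  rw [nsmul_add, mem_rr_shift S.ne_zero S.Du_eq, mul_smul]

theorem Shift.mem_HY_iff {m : ℕ} {i : ι} {ψ : G} :
    ψ ∈ riemannRochSpace (m • (k₀ • P.HY i + S.Dr i)) ↔
      ψ * M.rd i S.u ^ m ∈ riemannRochSpace ((m * k₀) • P.HY i) := by
  rw [nsmul_add, mem_rr_shift (S.rd_ne i) (S.Dr_eq i), mul_smul]

theorem Shift.rd_mul_pow {m : ℕ} {φ : F} {i : ι} (hW : φ ∈ M.W i) :
    M.rd i (φ * S.u ^ m) = M.rd i φ * M.rd i S.u ^ m := by
  rw [M.rd_mul hW (pow_mem (S.integral i) m), M.rd_pow (S.integral i)]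

/-- The moved pole data. -/
def shift : PoleData M Nd where
  H := k₀ • P.H + S.Du
  HY i := k₀ • P.HY i + S.Dr i
  H_nonneg := Finsupp.le_def.mpr fun v => by
    have h := (mem_riemannRochSpace_iff.mp S.mem v).resolve_left S.ne_zero
    rw [Finsupp.add_apply, S.Du_eq, Finsupp.zero_apply]
    omega
  HY_node s e := by
    rw [Finsupp.add_apply, Finsupp.smul_apply, P.HY_node, S.node_eq_zero, smul_zero, add_zero]
  reg m φ hφ hW i := by
    rw [S.mem_HY_iff, ← S.rd_mul_pow (hW i)]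
    exact P.reg _ _ (S.mem_sections_iff.mp hφ) (fun j => mul_mem (hW j) (pow_mem (S.integral j) m)) i
  glue m φ hφ hW s := by
    have hW' : ∀ j, φ * S.u ^ m ∈ M.W j := fun j => mul_mem (hW j) (pow_mem (S.integral j) m)
    have h := P.glue _ _ (S.mem_sections_iff.mp hφ) hW' s
    have hr : ∀ e : Fin 2, M.rd (Nd.comp s e) φ ∈ (Nd.place s e).toValuationSubring := by
      intro e
      have h0 : M.rd (Nd.comp s e) φ ∈
          riemannRochSpace (m • (k₀ • P.HY (Nd.comp s e) + S.Dr (Nd.comp s e))) := by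
        rw [S.mem_HY_iff, ← S.rd_mul_pow (hW _)]
        exact P.reg _ _ (S.mem_sections_iff.mp hφ) hW' _
      have h1 := h0 (Nd.place s e)
      rw [Finsupp.smul_apply, Finsupp.add_apply, Finsupp.smul_apply, P.HY_node, S.node_eq_zero,
        smul_zero, add_zero, smul_zero, exp_zero] at h1
      exact (FunctionField.mem_iff_adicValuation_le_one _).mpr h1
    have hu := fun e : Fin 2 => P.regular_of_mem_rr (P.reg k₀ S.u S.mem S.integral (Nd.comp s e))
    rw [S.rd_mul_pow (hW _), S.rd_mul_pow (hW _), Nd.val_mul (hr 0) (pow_mem (hu 0) m),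
      Nd.val_mul (hr 1) (pow_mem (hu 1) m), Nd.val_pow (hu 0), Nd.val_pow (hu 1), S.val_eq s] at h
    exact mul_right_cancel₀ (pow_ne_zero _ (S.val_ne s 1)) h

/-- The divisor of the shifted pole data. -/
theorem shift_H : (P.shift S).H = k₀ • P.H + S.Du := rfl

/-- The reduced divisor of the shifted pole data. -/
theorem shift_HY (i : ι) : (P.shift S).HY i = k₀ • P.HY i + S.Dr i := rfl

/-- The dimension count survives the shift. -/
theorem shift_count {f : F} {n : ℕ} [NeZero n] (hk₀ : k₀ ≠ 0) (hc : P.Count f n) :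
    (P.shift S).Count f n := by
  obtain ⟨m₀, hm₀⟩ := hc
  refine ⟨m₀, fun m hm => ?_⟩
  obtain ⟨hfin, hrest⟩ :=
    hm₀ (m * k₀) (hm.trans (Nat.le_mul_of_pos_right m (Nat.pos_of_ne_zero hk₀)))
  let TF : F →ₗ[K] F := LinearMap.mulRight K (S.u ^ m)
  have hTF : Function.Injective TF := mul_left_injective₀ (pow_ne_zero m S.ne_zero)
  let TG : (ι → G) →ₗ[k] (ι → G) := LinearMap.mulRight k (fun i => M.rd i S.u ^ m)
  have hTG : Function.Injective TG := fun a b h => funext fun i =>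
    mul_left_injective₀ (pow_ne_zero m (S.rd_ne i)) (congrFun h i)
  have hsec : ((P.shift S).sections f n m).map TF = P.sections f n (m * k₀) := by
    have key : ∀ φ : F, φ ∈ (P.shift S).sections f n m ↔ φ * S.u ^ m ∈ P.sections f n (m * k₀) := by
      intro φ
      show φ ∈ kummerSpace f n (m • (k₀ • P.H + S.Du)) ↔ _ ∈ kummerSpace f n ((m * k₀) • P.H)
      rw [mem_kummerSpace, mem_kummerSpace, ← mul_nsmul', ← mul_nsmul', S.mem_sections_iff,
        mul_pow, ← pow_mul, mul_right_comm (φ ^ n), mul_comm m n, mul_assoc n]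
    ext φ
    constructor
    · rintro ⟨ψ, hψ, rfl⟩
      exact (key ψ).mp hψ
    · intro hφ
      refine ⟨φ * (S.u ^ m)⁻¹, (key _).mpr ?_, ?_⟩
      · rwa [inv_mul_cancel_right₀ (pow_ne_zero m S.ne_zero)]
      · show φ * (S.u ^ m)⁻¹ * S.u ^ m = φ
        rw [inv_mul_cancel_right₀ (pow_ne_zero m S.ne_zero)]
  have hu := fun s (e : Fin 2) => P.regular_of_mem_rr (P.reg k₀ S.u S.mem S.integral (Nd.comp s e))
  have hglue : ∀ ζ : N → k, ((P.shift S).glued ζ m).map TG = P.glued ζ (m * k₀) := by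
    intro ζ
    have key : ∀ ψ : ι → G, ψ ∈ (P.shift S).glued ζ m ↔ TG ψ ∈ P.glued ζ (m * k₀) := by
      intro ψ
      have hiff : (∀ i, ψ i ∈ riemannRochSpace (m • (P.shift S).HY i)) ↔
          ∀ i, TG ψ i ∈ riemannRochSpace ((m * k₀) • P.HY i) :=
        forall_congr' fun i => S.mem_HY_iff
      rw [PoleData.mem_glued, PoleData.mem_glued, hiff]
      refine and_congr_right fun h => forall_congr' fun s => ?_
      have hr : ∀ e : Fin 2, ψ (Nd.comp s e) ∈ (Nd.place s e).toValuationSubring := fun e =>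
        (P.shift S).regular_of_mem_rr (hiff.mpr h (Nd.comp s e))
      show _ ↔ Nd.val s 1 (ψ (Nd.comp s 1) * M.rd (Nd.comp s 1) S.u ^ m) =
        ζ s * Nd.val s 0 (ψ (Nd.comp s 0) * M.rd (Nd.comp s 0) S.u ^ m)
      rw [Nd.val_mul (hr 0) (pow_mem (hu s 0) m), Nd.val_mul (hr 1) (pow_mem (hu s 1) m),
        Nd.val_pow (hu s 0), Nd.val_pow (hu s 1), S.val_eq s, ← mul_assoc]
      exact (mul_left_injective₀ (pow_ne_zero m (S.val_ne s 1))).eq_iff.symm
    ext ψ
    constructor
    · rintro ⟨χ, hχ, rfl⟩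
      exact (key χ).mp hχ
    · intro hψ
      have h : TG (fun i => ψ i * (M.rd i S.u ^ m)⁻¹) = ψ := funext fun i => by
        show ψ i * (M.rd i S.u ^ m)⁻¹ * M.rd i S.u ^ m = ψ i
        rw [inv_mul_cancel_right₀ (pow_ne_zero m (S.rd_ne i))]
      exact ⟨_, (key _).mpr (h.symm ▸ hψ), h⟩
  refine ⟨Module.Finite.equiv ((Submodule.equivMapOfInjective TF hTF _).trans
      (LinearEquiv.ofEq _ _ hsec)).symm, fun ζ => ?_⟩
  obtain ⟨hfg, hdim, hwit⟩ := hrest ζ
  refine ⟨Module.Finite.equiv ((Submodule.equivMapOfInjective TG hTG _).trans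
      (LinearEquiv.ofEq _ _ (hglue ζ))).symm, ?_, fun s => ?_⟩
  · rw [(Submodule.equivMapOfInjective TF hTF _).finrank_eq, hsec,
      (Submodule.equivMapOfInjective TG hTG _).finrank_eq, hglue]
    exact hdim
  · obtain ⟨ψ, hψ, hne⟩ := hwit s
    rw [← hglue ζ] at hψ
    obtain ⟨χ, hχ, rfl⟩ := hψ
    refine ⟨χ, hχ, fun h0 => hne ?_⟩
    show Nd.val s 0 (χ (Nd.comp s 0) * M.rd (Nd.comp s 0) S.u ^ m) = 0
    rw [Nd.val_mul ((P.shift S).regular_of_mem_rr (hχ.1 _)) (pow_mem (hu s 0) m), h0, zero_mul]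

end PoleData

end Fermat.Agent.KummerReduction
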