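import Fermat.Agent.KummerReduction.Root
import Mathlib.FieldTheory.IsAlgClosed.Basic

/-!
# Twisting a Kummer class by symmetries of the model

If a symmetry `σ` moves the reductions of `f` only by `n`-th powers, then `σ f * f ^ (n - 1)`
carries a Kummer datum; a second symmetry `τ` acting on `μ_n` by `c ↦ c ^ (-e)` then makes
`τ g * g ^ e` an `n`-th power.
-/

set_option autoImplicit false

noncomputable section

open AlgebraicCurve

namespace Fermat.Agent.KummerReduction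

variable {K F k G ι N : Type} [Field K] [Field F] [Field k] [Field G] [Algebra K F] [Algebra k G]
variable {M : Model K F k G ι} {Nd : Nodes k G ι N}

namespace Model

variable (M) in
/-- Every nonzero function can be rescaled to a unit on each component. -/
def HasContent : Prop :=
  ∀ f : F, f ≠ 0 → ∀ i, ∃ c : K, f * algebraMap K F c ∈ M.W i ∧
    M.rd i (f * algebraMap K F c) ≠ 0

end Model

namespace Symm

/-- Reductions move only by `n`-th powers, so the twisted function carries a datum. -/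
theorem exists_datum_twist [IsAlgClosed K] (S : Symm M Nd) (hcont : M.HasContent) {n : ℕ}
    (hn : n ≠ 0) {f : F} (hf : f ≠ 0)
    (h : ∀ i (c : K), f * algebraMap K F c ∈ M.W i → M.rd i (f * algebraMap K F c) ≠ 0 →
      ∃ a : G, S.φG (M.rd i (f * algebraMap K F c)) *
        M.rd i (f * algebraMap K F c) ^ (n - 1) = a ^ n) :
    ∃ x : Datum M n, x.f = S.σF f * f ^ (n - 1) := by
  choose c hc hne using hcont f hf
  choose a ha using fun i => h i (c i) (hc i) (hne i)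
  choose γ hγ using fun i =>
    IsAlgClosed.exists_pow_nat_eq (S.σK (c i) * c i ^ (n - 1)) (Nat.pos_of_ne_zero hn)
  have hmem : ∀ i, S.σF f * f ^ (n - 1) * algebraMap K F (γ i) ^ n =
      S.σF (f * algebraMap K F (c i)) * (f * algebraMap K F (c i)) ^ (n - 1) := fun i => by
    rw [← map_pow, hγ i, map_mul, map_pow, map_mul, ← S.commF]
    ring
  have hrd : ∀ i, M.rd i (S.σF f * f ^ (n - 1) * algebraMap K F (γ i) ^ n) = a i ^ n := fun i => by
    rw [hmem, M.rd_mul (S.mem_W i _ (hc i)) (pow_mem (hc i) _), S.rd_comm i _ (hc i),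
      M.rd_pow (hc i), ha i]
  have hane : ∀ i, a i ≠ 0 := fun i h0 => by
    have h' := ha i
    rw [h0, zero_pow hn] at h'
    exact mul_ne_zero ((map_ne_zero _).mpr (hne i)) (pow_ne_zero _ (hne i)) h'
  refine ⟨⟨_, γ, fun i h0 => pow_ne_zero n (hane i) ?_, a, hane, fun i => ?_, hrd⟩, rfl⟩
  · rw [← hrd i, h0, map_zero, zero_pow hn, mul_zero, M.rd_zero]
  · rw [hmem]
    exact mul_mem (S.mem_W i _ (hc i)) (pow_mem (hc i) _)

end Symm

variable [IsAlgClosed K] [Fintype ι] [Nonempty ι] {n : ℕ} [NeZero n]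

omit [IsAlgClosed K] [Nonempty ι] in
theorem isGlue_twist (horth : M.HasOrth) {P : PoleData M Nd} (T : Symm M Nd) (hT : T.Fixes P)
    {e : ℕ} (he : ∀ c : k, c ^ n = 1 → T.φk c * c ^ e = 1) (x : Datum M n)
    (hcx : P.Count x.f n) (hcc : P.Count (T.σF x.f) n) (hpow : ∀ l : ℕ, P.Count (x.f ^ l) n)
    {θ : N → k} (hθ : P.IsGlue (Datum.mul (T.conj x) (x.npow e)) θ) (s : N) : θ s = 1 := by
  have hce : P.Count (x.npow e).f n := by rw [Datum.npow_f]; exact hpow e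
  have hcc' : P.Count (T.conj x).f n := hcc
  obtain ⟨ζ, hζ, -⟩ := P.exists_isGlue horth x hcx
  obtain ⟨η, hη, -⟩ := P.exists_isGlue horth (T.conj x) hcc'
  obtain ⟨ξ, hξ, -⟩ := P.exists_isGlue horth (x.npow e) hce
  rw [PoleData.IsGlue.mul horth hcc' hce hη hξ hθ, Pi.mul_apply,
    PoleData.IsGlue.npow horth hpow hζ e hξ, Pi.pow_apply, T.isGlue_conj horth hT hcx hζ hη s]
  exact he _ (PoleData.IsGlue.pow_eq_one horth hcx hζ s)

theorem Datum.exists_root_twist (horth : M.HasOrth) (hdesc : M.HasDescent) (hn : (n : k) ≠ 0)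
    {P P' Q : PoleData M Nd} (hP : P.H ≤ Q.H) (hP' : P'.H ≤ Q.H) (hnn : ∀ i, 0 ≤ P.HY i)
    (hnn' : ∀ i, 0 ≤ P'.HY i) (hdisj : ∀ i v, P.HY i v = 0 ∨ P'.HY i v = 0)
    (hle : ∀ i, Q.HY i ≤ P.HY i + P'.HY i)
    (hcount : ∀ g : F, g ≠ 0 → (∀ v : Place K F, (n : ℤ) ∣ v.ord g) →
      P.Count g n ∧ P'.Count g n)
    (T : Symm M Nd) (hT : T.Fixes P)
    (hTord : ∀ g : F, (∀ v : Place K F, (n : ℤ) ∣ v.ord g) →
      ∀ v : Place K F, (n : ℤ) ∣ v.ord (T.σF g))
    {e : ℕ} (he : ∀ c : k, c ^ n = 1 → T.φk c * c ^ e = 1)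
    (x : Datum M n) (hx : x.f ≠ 0) (hord : ∀ v : Place K F, (n : ℤ) ∣ v.ord x.f) :
    ∃ s : F, s ^ n * (T.σF x.f * x.f ^ e) = 1 := by
  have hone : ∀ v : Place K F, (n : ℤ) ∣ v.ord (1 : F) := fun v => by simp
  have hpow : ∀ l : ℕ, ∀ v : Place K F, (n : ℤ) ∣ v.ord (x.f ^ l) := fun l v => by
    rw [← zpow_natCast x.f l, v.ord_zpow]
    exact dvd_mul_of_dvd_right (hord v) _
  have hconj := hTord x.f hord
  have hz : ∀ v : Place K F, (n : ℤ) ∣ v.ord (T.σF x.f * x.f ^ e) := fun v => by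
    rw [v.ord_mul (by simpa using hx) (pow_ne_zero _ hx)]
    exact dvd_add (hconj v) (hpow e v)
  have hzf : (Datum.mul (T.conj x) (x.npow e)).f = T.σF x.f * x.f ^ e := by
    show (T.conj x).f * (x.npow e).f = _
    rw [Datum.npow_f]; rfl
  have hconj0 : T.σF x.f ≠ 0 := by simpa using hx
  have hcz := hcount _ (mul_ne_zero hconj0 (pow_ne_zero e hx)) hz
  rw [← hzf] at hcz
  have hex := PoleData.exists_isGlue (P := P) horth _ hcz.1
  obtain ⟨θ, hθ, -⟩ := hex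
  have hθ1 : θ = fun _ => 1 := funext fun s => isGlue_twist horth T hT he x
    (hcount x.f hx hord).1 (hcount _ hconj0 hconj).1
    (fun l => (hcount _ (pow_ne_zero l hx) (hpow l)).1) hθ s
  obtain ⟨s, hs⟩ := Datum.exists_root (Datum.mul (T.conj x) (x.npow e)) horth hdesc hn hP hP' hnn
    hnn' hdisj hle hcz.1 hcz.2 (hcount _ one_ne_zero hone).1 (hθ1 ▸ hθ)
  exact ⟨s, hzf ▸ hs⟩

/-- The double twist: `σ` moves reductions by `n`-th powers and `τ` acts on `μ_n` by `-e`. -/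
theorem exists_root_double_twist (horth : M.HasOrth) (hcont : M.HasContent)
    (hdesc : M.HasDescent) (hn : (n : k) ≠ 0) {P P' Q : PoleData M Nd} (hP : P.H ≤ Q.H)
    (hP' : P'.H ≤ Q.H) (hnn : ∀ i, 0 ≤ P.HY i) (hnn' : ∀ i, 0 ≤ P'.HY i)
    (hdisj : ∀ i v, P.HY i v = 0 ∨ P'.HY i v = 0) (hle : ∀ i, Q.HY i ≤ P.HY i + P'.HY i)
    (hcount : ∀ g : F, g ≠ 0 → (∀ v : Place K F, (n : ℤ) ∣ v.ord g) →
      P.Count g n ∧ P'.Count g n)
    (S T : Symm M Nd) (hT : T.Fixes P)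
    (hSord : ∀ g : F, (∀ v : Place K F, (n : ℤ) ∣ v.ord g) →
      ∀ v : Place K F, (n : ℤ) ∣ v.ord (S.σF g))
    (hTord : ∀ g : F, (∀ v : Place K F, (n : ℤ) ∣ v.ord g) →
      ∀ v : Place K F, (n : ℤ) ∣ v.ord (T.σF g))
    {e : ℕ} (he : ∀ c : k, c ^ n = 1 → T.φk c * c ^ e = 1)
    {f : F} (hf : f ≠ 0) (hord : ∀ v : Place K F, (n : ℤ) ∣ v.ord f)
    (h : ∀ i (c : K), f * algebraMap K F c ∈ M.W i → M.rd i (f * algebraMap K F c) ≠ 0 →
      ∃ a : G, S.φG (M.rd i (f * algebraMap K F c)) *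
        M.rd i (f * algebraMap K F c) ^ (n - 1) = a ^ n) :
    ∃ s : F, s ^ n *
      (T.σF (S.σF f * f ^ (n - 1)) * (S.σF f * f ^ (n - 1)) ^ e) = 1 := by
  obtain ⟨x, hx⟩ := S.exists_datum_twist hcont (NeZero.ne n) hf h
  have hf' : S.σF f ≠ 0 := by simpa using hf
  obtain ⟨s, hs⟩ := x.exists_root_twist horth hdesc hn hP hP' hnn hnn' hdisj hle hcount T hT hTord
    he (by rw [hx]; exact mul_ne_zero hf' (pow_ne_zero _ hf)) (fun v => by
      rw [hx, v.ord_mul hf' (pow_ne_zero _ hf), ← zpow_natCast f (n - 1), v.ord_zpow]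
      exact dvd_add (hSord f hord v) (dvd_mul_of_dvd_right (hord v) _))
  exact ⟨s, hx ▸ hs⟩

end Fermat.Agent.KummerReduction
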