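import Fermat.Agent.KummerReduction.Root

/-!
# Symmetries exchanging the branches at each node

A semilinear symmetry which permutes the components and exchanges the two branches at every node
inverts the gluing invariant. So if it acts on `μ_n` by `c ↦ c ^ e`, then `σ f * f ^ e` is an
`n`-th power for every Kummer datum with function `f`.
-/

set_option autoImplicit false

noncomputable section

open AlgebraicCurve

namespace Fermat.Agent.KummerReduction

variable {K F k G ι N : Type} [Field K] [Field F] [Field k] [Field G] [Algebra K F] [Algebra k G]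
variable {M : Model K F k G ι} {Nd : Nodes k G ι N}

/-- A semilinear symmetry exchanging the branches at each node. -/
structure SwapSymm (M : Model K F k G ι) (Nd : Nodes k G ι N) where
  σK : K ≃+* K
  σF : F ≃+* F
  φk : k →+* k
  φG : G →+* G
  p : ι → ι
  commF : ∀ c, σF (algebraMap K F c) = algebraMap K F (σK c)
  mem_W : ∀ i φ, φ ∈ M.W (p i) → σF φ ∈ M.W i
  rd_comm : ∀ i φ, φ ∈ M.W (p i) → M.rd i (σF φ) = φG (M.rd (p i) φ)
  comp_p : ∀ s e, p (Nd.comp s e) = Nd.comp s (Fin.rev e)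
  node_val : ∀ s e ψ, ψ ∈ (Nd.place s (Fin.rev e)).toValuationSubring →
    Nd.val s e (φG ψ) = φk (Nd.val s (Fin.rev e) ψ)

namespace SwapSymm

variable (S : SwapSymm M Nd) {n : ℕ}

/-- Poles bounded by `m • H` are carried to poles bounded by `(d * m) • H`. -/
def Scales (P : PoleData M Nd) (d : ℕ) : Prop :=
  ∀ (m : ℕ) (φ : F), φ ∈ riemannRochSpace (m • P.H) → S.σF φ ∈ riemannRochSpace ((d * m) • P.H)

/-- The conjugate datum. -/
def conj (x : Datum M n) : Datum M n where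
  f := S.σF x.f
  γ i := S.σK (x.γ (S.p i))
  γ_ne i := by simpa using x.γ_ne (S.p i)
  a i := S.φG (x.a (S.p i))
  a_ne i := by simpa using x.a_ne (S.p i)
  mem i := by
    rw [← S.commF, ← map_pow, ← map_mul]
    exact S.mem_W i _ (x.mem (S.p i))
  red_eq i := by
    rw [← S.commF, ← map_pow, ← map_mul, S.rd_comm i _ (x.mem (S.p i)), x.red_eq, map_pow]

theorem isGlue_conj [NeZero n] [Finite ι] (horth : M.HasOrth) {P : PoleData M Nd} {d : ℕ}
    (hP : S.Scales P d) {x : Datum M n} (hc : P.Count x.f n) {ζ η : N → k}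
    (hζ : P.IsGlue x ζ) (hη : P.IsGlue (S.conj x) η) (s : N) : η s * S.φk (ζ s) = 1 := by
  obtain ⟨η₁, hη₁, m₁, hm₁⟩ := P.exists_isGlue horth x hc
  obtain rfl := PoleData.IsGlue.eq horth hc hη₁ hζ
  obtain ⟨ψ, hψ, hne⟩ := (hm₁ m₁ le_rfl).2 s
  rw [← (hm₁ m₁ le_rfl).1] at hψ
  have hr := fun (e : Fin 2) => P.regular_of_mem_rr ((P.val_img x hψ).1 (Nd.comp s e))
  have hu := (hζ m₁ hψ).2 s
  obtain ⟨φ, hφ, rfl⟩ := hψ
  have hsc : ∀ i, (S.conj x).scaled i (S.σF φ) = S.σF (x.scaled (S.p i) φ) := fun i => by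
    simp only [Datum.scaled, conj, map_mul, map_inv₀, S.commF]
  have hlat : (S.conj x).InLattice (P.sections (S.conj x).f n (d * m₁)) (S.σF φ) := by
    refine ⟨?_, fun i => ?_⟩
    · show S.σF φ ^ n * S.σF x.f ∈ riemannRochSpace (n • (d * m₁) • P.H)
      rw [← map_pow, ← map_mul, ← mul_nsmul', mul_left_comm n d]
      exact hP _ _ (by rw [mul_nsmul']; exact hφ.1)
    · rw [hsc]
      exact S.mem_W i _ (hφ.2 (S.p i))
  have hpsi : ∀ i, (S.conj x).psi (S.σF φ) i = S.φG (x.psi φ (S.p i)) := fun i => by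
    show M.rd i ((S.conj x).scaled i (S.σF φ)) * S.φG (x.a (S.p i)) = _
    rw [hsc, S.rd_comm i _ (hφ.2 (S.p i)), ← map_mul]
    rfl
  have hval : ∀ e, Nd.val s e ((S.conj x).psi (S.σF φ) (Nd.comp s e)) =
      S.φk (Nd.val s (Fin.rev e) (x.psi φ (Nd.comp s (Fin.rev e)))) := fun e => by
    rw [hpsi, S.comp_p, S.node_val s e _ (hr _)]
  have h := (hη (d * m₁) ⟨_, hlat, rfl⟩).2 s
  rw [hval, hval, show Fin.rev (1 : Fin 2) = 0 from rfl, show Fin.rev (0 : Fin 2) = 1 from rfl,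
    hu, map_mul, ← mul_assoc] at h
  exact mul_right_cancel₀ (b := S.φk (Nd.val s 0 (x.psi φ (Nd.comp s 0)))) (by simpa using hne)
    (by rw [one_mul]; exact h.symm)

end SwapSymm

variable [IsAlgClosed K] [Fintype ι] [Nonempty ι] {n : ℕ} [NeZero n]

/-- A symmetry exchanging the branches and acting on `μ_n` by `e` makes `σ f * f ^ e` a power. -/
theorem Datum.exists_root_swap (horth : M.HasOrth) (hdesc : M.HasDescent) (hn : (n : k) ≠ 0)
    {P P' Q : PoleData M Nd} (hP : P.H ≤ Q.H) (hP' : P'.H ≤ Q.H) (hnn : ∀ i, 0 ≤ P.HY i)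
    (hnn' : ∀ i, 0 ≤ P'.HY i) (hdisj : ∀ i v, P.HY i v = 0 ∨ P'.HY i v = 0)
    (hle : ∀ i, Q.HY i ≤ P.HY i + P'.HY i)
    (hcount : ∀ g : F, g ≠ 0 → (∀ v : Place K F, (n : ℤ) ∣ v.ord g) →
      P.Count g n ∧ P'.Count g n)
    (S : SwapSymm M Nd) {d : ℕ} (hS : S.Scales P d)
    (hSord : ∀ g : F, (∀ v : Place K F, (n : ℤ) ∣ v.ord g) →
      ∀ v : Place K F, (n : ℤ) ∣ v.ord (S.σF g))
    {e : ℕ} (he : ∀ c : k, c ^ n = 1 → S.φk c = c ^ e)
    (x : Datum M n) (hx : x.f ≠ 0) (hord : ∀ v : Place K F, (n : ℤ) ∣ v.ord x.f) :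
    ∃ s : F, s ^ n * (S.σF x.f * x.f ^ e) = 1 := by
  have hpow : ∀ l : ℕ, ∀ v : Place K F, (n : ℤ) ∣ v.ord (x.f ^ l) := fun l v => by
    rw [← zpow_natCast x.f l, v.ord_zpow]
    exact dvd_mul_of_dvd_right (hord v) _
  have hone : ∀ v : Place K F, (n : ℤ) ∣ v.ord (1 : F) := fun v => by simp
  have hconj := hSord x.f hord
  have hconj0 : S.σF x.f ≠ 0 := by simpa using hx
  have hzf : (Datum.mul (S.conj x) (x.npow e)).f = S.σF x.f * x.f ^ e := by
    show (S.conj x).f * (x.npow e).f = _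
    rw [Datum.npow_f]; rfl
  have hcz := hcount _ (mul_ne_zero hconj0 (pow_ne_zero e hx)) fun v => by
    rw [v.ord_mul hconj0 (pow_ne_zero _ hx)]
    exact dvd_add (hconj v) (hpow e v)
  rw [← hzf] at hcz
  have hcx : P.Count x.f n := (hcount x.f hx hord).1
  have hce : P.Count (x.npow e).f n := by
    rw [Datum.npow_f]; exact (hcount _ (pow_ne_zero e hx) (hpow e)).1
  have hcc : P.Count (S.conj x).f n := (hcount _ hconj0 hconj).1
  obtain ⟨θ, hθ, -⟩ := PoleData.exists_isGlue (P := P) horth _ hcz.1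
  obtain ⟨ζ, hζ, -⟩ := P.exists_isGlue horth x hcx
  obtain ⟨η, hη, -⟩ := P.exists_isGlue horth (S.conj x) hcc
  obtain ⟨ξ, hξ, -⟩ := P.exists_isGlue horth (x.npow e) hce
  have hθ1 : θ = fun _ => 1 := funext fun s => by
    rw [PoleData.IsGlue.mul horth hcc hce hη hξ hθ, Pi.mul_apply,
      PoleData.IsGlue.npow horth (fun l => (hcount _ (pow_ne_zero l hx) (hpow l)).1) hζ e hξ,
      Pi.pow_apply, ← he _ (PoleData.IsGlue.pow_eq_one horth hcx hζ s)]
    exact S.isGlue_conj horth hS hcx hζ hη s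
  obtain ⟨s, hs⟩ := Datum.exists_root (Datum.mul (S.conj x) (x.npow e)) horth hdesc hn hP hP' hnn
    hnn' hdisj hle hcz.1 hcz.2 (hcount _ one_ne_zero hone).1 (hθ1 ▸ hθ)
  exact ⟨s, hzf ▸ hs⟩

end Fermat.Agent.KummerReduction
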