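import Fermat.Agent.KummerReduction.Model
import Mathlib.LinearAlgebra.Dimension.Constructions

/-!
# Kummer data and their lattices

A datum is a function `f` with, on every component of the model, an `n`-th root of its normalised
reduction. It reduces the lattice of a finite dimensional space of functions onto a space of
functions on the special fibre of the same dimension.
-/

set_option autoImplicit false

noncomputable section

open AlgebraicCurve

namespace Fermat.Agent.KummerReduction

variable {K F k G ι : Type} [Field K] [Field F] [Field k] [Field G] [Algebra K F] [Algebra k G]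

/-- `f` together with, on every component, an `n`-th root of its normalised reduction. -/
structure Datum (M : Model K F k G ι) (n : ℕ) where
  f : F
  γ : ι → K
  γ_ne : ∀ i, γ i ≠ 0
  a : ι → G
  a_ne : ∀ i, a i ≠ 0
  mem : ∀ i, f * algebraMap K F (γ i) ^ n ∈ M.W i
  red_eq : ∀ i, M.rd i (f * algebraMap K F (γ i) ^ n) = a i ^ n

namespace Datum

variable {M : Model K F k G ι} {n : ℕ} (x : Datum M n)

/-- `φ` scaled for the component `i`. -/
def scaled (i : ι) (φ : F) : F := φ * (algebraMap K F (x.γ i))⁻¹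

/-- The reduction of `φ`, as a function on the special fibre. -/
def psi (φ : F) : ι → G := fun i => M.rd i (x.scaled i φ) * x.a i

/-- The lattice of elements of `V` integral on every component. -/
def InLattice (V : Submodule K F) (φ : F) : Prop := φ ∈ V ∧ ∀ i, x.scaled i φ ∈ M.W i

/-- Scaling is additive. -/
theorem scaled_add (i : ι) (φ ψ : F) : x.scaled i (φ + ψ) = x.scaled i φ + x.scaled i ψ :=
  add_mul _ _ _

/-- Scaling is linear. -/
theorem scaled_smul (i : ι) (c : K) (φ : F) : x.scaled i (c • φ) = c • x.scaled i φ :=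
  smul_mul_assoc _ _ _

theorem psi_add {V : Submodule K F} {φ ψ : F} (hφ : x.InLattice V φ) (hψ : x.InLattice V ψ) :
    x.psi (φ + ψ) = x.psi φ + x.psi ψ := by
  ext i
  simp only [psi, Pi.add_apply, scaled_add, M.rd_add (hφ.2 i) (hψ.2 i), add_mul]

theorem psi_smul {V : Submodule K F} {φ : F} (c : M.A) (hφ : x.InLattice V φ) :
    x.psi ((c : K) • φ) = M.π c • x.psi φ := by
  ext i
  simp only [psi, Pi.smul_apply, scaled_smul, M.rd_smul c (hφ.2 i), smul_mul_assoc]

theorem inLattice_zero (V : Submodule K F) : x.InLattice V 0 :=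
  ⟨zero_mem V, fun i => by simp [scaled]⟩

theorem psi_zero : x.psi 0 = 0 := by
  ext i
  simp [psi, scaled, M.rd_zero]

/-- The lattice is closed under addition. -/
theorem InLattice.add {x : Datum M n} {V : Submodule K F} {φ ψ : F} (hφ : x.InLattice V φ)
    (hψ : x.InLattice V ψ) : x.InLattice V (φ + ψ) :=
  ⟨add_mem hφ.1 hψ.1, fun i => by rw [scaled_add]; exact add_mem (hφ.2 i) (hψ.2 i)⟩

/-- The lattice is stable under integral scalars. -/
theorem InLattice.smul {x : Datum M n} {V : Submodule K F} {φ : F} (c : M.A)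
    (hφ : x.InLattice V φ) : x.InLattice V ((c : K) • φ) :=
  ⟨Submodule.smul_mem _ _ hφ.1, fun i => by rw [scaled_smul]; exact M.smul_mem_W c.2 (hφ.2 i)⟩

/-- The lattice is monotone in the space. -/
theorem InLattice.mono {x : Datum M n} {V V' : Submodule K F} (h : V ≤ V') {φ : F}
    (hφ : x.InLattice V φ) : x.InLattice V' φ :=
  ⟨h hφ.1, hφ.2⟩

/-- The reduction of the lattice of `V`. -/
def img (V : Submodule K F) : Submodule k (ι → G) where
  carrier := {v | ∃ φ, x.InLattice V φ ∧ x.psi φ = v}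
  zero_mem' := ⟨0, x.inLattice_zero V, x.psi_zero⟩
  add_mem' := by
    rintro _ _ ⟨φ, hφ, rfl⟩ ⟨ψ, hψ, rfl⟩
    exact ⟨φ + ψ, hφ.add hψ, x.psi_add hφ hψ⟩
  smul_mem' := by
    rintro r _ ⟨φ, hφ, rfl⟩
    obtain ⟨c, rfl⟩ := M.π_surjective r
    exact ⟨(c : K) • φ, hφ.smul c, x.psi_smul c hφ⟩

/-- Membership in the reduced lattice. -/
theorem mem_img {V : Submodule K F} {v : ι → G} :
    v ∈ x.img V ↔ ∃ φ, x.InLattice V φ ∧ x.psi φ = v := Iff.rfl

/-- The reduced lattice is monotone. -/
theorem img_mono {V V' : Submodule K F} (h : V ≤ V') : x.img V ≤ x.img V' := by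
  rintro _ ⟨φ, hφ, rfl⟩
  exact ⟨φ, hφ.mono h, rfl⟩

theorem scaled_pow_mul (i : ι) (φ : F) :
    φ ^ n * x.f = x.scaled i φ ^ n * (x.f * algebraMap K F (x.γ i) ^ n) := by
  have h : algebraMap K F (x.γ i) ≠ 0 := by simpa using x.γ_ne i
  rw [scaled, mul_pow, inv_pow]
  field_simp

/-- `φ^n f` is integral for `φ` in the lattice. -/
theorem pow_mul_mem_W {V : Submodule K F} {φ : F} (hφ : x.InLattice V φ) (i : ι) :
    φ ^ n * x.f ∈ M.W i := by
  rw [x.scaled_pow_mul i φ]
  exact mul_mem (pow_mem (hφ.2 i) n) (x.mem i)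

/-- `φ^n f` reduces to the `n`-th power of the reduction of `φ`. -/
theorem psi_pow {V : Submodule K F} {φ : F} (hφ : x.InLattice V φ) (i : ι) :
    M.rd i (φ ^ n * x.f) = x.psi φ i ^ n := by
  rw [x.scaled_pow_mul i φ, M.rd_mul (pow_mem (hφ.2 i) n) (x.mem i), x.red_eq,
    M.rd_pow (hφ.2 i), psi, mul_pow]

/-- A basis of the lattice with independent reductions. -/
theorem orth_basis [Finite ι] (horth : M.HasOrth) (V : Submodule K F) [Module.Finite K V] :
    ∃ (d : ℕ) (b : Module.Basis (Fin d) K V),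
      (∀ l, x.InLattice V (b l : F)) ∧
      LinearIndependent k (fun l => x.psi (b l : F)) := by
  obtain ⟨d, b, hb, hli⟩ := horth V inferInstance x.γ x.γ_ne
  refine ⟨d, b, fun l => ⟨(b l).2, hb l⟩, ?_⟩
  let T : (ι → G) →ₗ[k] (ι → G) :=
    { toFun := fun v i => v i * x.a i
      map_add' := fun u v => by ext i; simp [add_mul]
      map_smul' := fun c v => by ext i; simp }
  have hT : LinearMap.ker T = ⊥ := by
    refine LinearMap.ker_eq_bot'.mpr fun v hv => funext fun i => ?_
    exact (mul_eq_zero.mp (congrFun hv i)).resolve_right (x.a_ne i)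
  exact hli.map' T hT

/-- Coordinates of lattice elements in a reduction basis are integral. -/
theorem coord_mem {V : Submodule K F} {d : ℕ} (b : Module.Basis (Fin d) K V)
    (hb : ∀ l, x.InLattice V (b l : F)) (hli : LinearIndependent k fun l => x.psi (b l : F))
    {φ : F} (hφ : x.InLattice V φ) (l : Fin d) : b.repr ⟨φ, hφ.1⟩ l ∈ M.A := by
  set c := fun l => b.repr ⟨φ, hφ.1⟩ l with hc
  by_contra hl
  obtain ⟨l₀, -, hmax⟩ := Finset.exists_max_image Finset.univ
    (fun l => M.A.valuation (c l)) ⟨l, Finset.mem_univ l⟩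
  have h0 : ¬ c l₀ ∈ M.A := fun h => hl ((M.A.valuation_le_one_iff _).mp
    ((hmax l (Finset.mem_univ l)).trans ((M.A.valuation_le_one_iff _).mpr h)))
  have hne : c l₀ ≠ 0 := fun h => h0 (h ▸ zero_mem M.A)
  have hmem : ∀ l, c l * (c l₀)⁻¹ ∈ M.A := by
    intro l
    rw [← M.A.valuation_le_one_iff, map_mul, map_inv₀]
    exact mul_inv_le_one_of_le₀ (hmax l (Finset.mem_univ l)) zero_le
  have hsmall : (c l₀)⁻¹ ∈ M.A.nonunits :=
    (M.A.inv_mem_nonunits_iff).mpr (Or.inr h0)
  have hsum : (c l₀)⁻¹ • φ = ∑ l, (c l * (c l₀)⁻¹) • (b l : F) := by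
    have h := congrArg (Subtype.val) (b.sum_repr ⟨φ, hφ.1⟩)
    simp only [Submodule.coe_sum, Submodule.coe_smul] at h
    conv_lhs => rw [← h, Finset.smul_sum]
    exact Finset.sum_congr rfl fun l _ => by rw [smul_smul, mul_comm]
  have hπ : M.π ⟨(c l₀)⁻¹, M.A.nonunits_le hsmall⟩ = 0 := (M.π_eq_zero _).mpr hsmall
  have hzero : ∑ l, M.π ⟨_, hmem l⟩ • x.psi (b l : F) = 0 := by
    ext i
    have h1 : M.rd i (x.scaled i ((c l₀)⁻¹ • φ)) = 0 := by
      rw [scaled_smul, M.rd_smul ⟨_, M.A.nonunits_le hsmall⟩ (hφ.2 i), hπ, zero_smul]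
    have h2 : x.scaled i ((c l₀)⁻¹ • φ) = ∑ l, (c l * (c l₀)⁻¹) • x.scaled i (b l : F) := by
      rw [hsum, scaled, Finset.sum_mul]
      exact Finset.sum_congr rfl fun l _ => x.scaled_smul i _ _
    rw [h2, M.rd_sum _ fun l _ => M.smul_mem_W (hmem l) ((hb l).2 i)] at h1
    simp only [Finset.sum_apply, Pi.smul_apply, psi, Pi.zero_apply]
    rw [← zero_mul (x.a i), ← h1, Finset.sum_mul]
    exact Finset.sum_congr rfl fun l _ => by
      rw [M.rd_smul ⟨_, hmem l⟩ ((hb l).2 i), smul_mul_assoc]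
  have h := Fintype.linearIndependent_iff.mp hli _ hzero l₀
  have h1 : (⟨_, hmem l₀⟩ : M.A) = 1 := Subtype.ext (mul_inv_cancel₀ hne)
  rw [h1, map_one] at h
  exact one_ne_zero h

theorem img_eq_span {V : Submodule K F} {d : ℕ} (b : Module.Basis (Fin d) K V)
    (hb : ∀ l, x.InLattice V (b l : F)) (hli : LinearIndependent k fun l => x.psi (b l : F)) :
    x.img V = Submodule.span k (Set.range fun l => x.psi (b l : F)) := by
  refine le_antisymm ?_ (Submodule.span_le.mpr ?_)
  · rintro _ ⟨φ, hφ, rfl⟩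
    have hc := x.coord_mem b hb hli hφ
    have hexp : x.psi φ = ∑ l, M.π ⟨_, hc l⟩ • x.psi (b l : F) := by
      ext i
      have h := congrArg (Subtype.val) (b.sum_repr ⟨φ, hφ.1⟩)
      simp only [Submodule.coe_sum, Submodule.coe_smul] at h
      have h2 : x.scaled i φ = ∑ l, b.repr ⟨φ, hφ.1⟩ l • x.scaled i (b l : F) := by
        conv_lhs => rw [← h, scaled, Finset.sum_mul]
        exact Finset.sum_congr rfl fun l _ => x.scaled_smul i _ _
      simp only [psi, Finset.sum_apply, Pi.smul_apply]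
      rw [h2, M.rd_sum _ fun l _ => M.smul_mem_W (hc l) ((hb l).2 i), Finset.sum_mul]
      exact Finset.sum_congr rfl fun l _ => by
        rw [M.rd_smul ⟨_, hc l⟩ ((hb l).2 i), smul_mul_assoc]
    rw [hexp]
    exact Submodule.sum_mem _ fun l _ =>
      Submodule.smul_mem _ _ (Submodule.subset_span ⟨l, rfl⟩)
  · rintro _ ⟨l, rfl⟩
    exact ⟨_, hb l, rfl⟩

/-- Reduction preserves the dimension of a finite dimensional space. -/
theorem finrank_img [Finite ι] (horth : M.HasOrth) (V : Submodule K F) [Module.Finite K V] :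
    Module.finrank k (x.img V) = Module.finrank K V ∧ Module.Finite k (x.img V) := by
  obtain ⟨d, b, hb, hli⟩ := x.orth_basis horth V
  rw [x.img_eq_span b hb hli]
  refine ⟨?_, Module.Finite.span_of_finite k (Set.finite_range _)⟩
  rw [finrank_span_eq_card hli, Module.finrank_eq_card_basis b]

end Datum

end Fermat.Agent.KummerReduction
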