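import Fermat.Agent.KummerReduction.GaussSeries
import Fermat.Agent.KummerReduction.Twist

/-!
# The model given by Gauss valuations of embeddings into Laurent series

Each component is an embedding of `F` into `LaurentSeries K` under which every element is a
quotient of bounded series over a subfield with discrete valuation.
-/

set_option autoImplicit false

noncomputable section

open ModularCurve

namespace Fermat.Agent.KummerReduction

variable {K F k G ι : Type} [Field K] [Field F] [Field k] [Field G] [Algebra K F] [Algebra k G]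

namespace ResidueData

variable (R : ResidueData K k)

/-- Series over `L` made integral by a power of `ϖ`. -/
def boundedOver (L : Subfield K) (ϖ : K) (hϖ : ϖ ∈ R.A) : Subring (LaurentSeries K) where
  carrier := {x | x ∈ overSubfield L ∧ ∃ j : ℕ, HahnSeries.C (ϖ ^ j) * x ∈ R.intSeries}
  zero_mem' := ⟨zero_mem _, 0, by simp⟩
  one_mem' := ⟨one_mem _, 0, by simp⟩
  neg_mem' := by
    rintro x ⟨hx, j, hj⟩
    exact ⟨neg_mem hx, j, by rw [mul_neg]; exact neg_mem hj⟩
  add_mem' := by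
    rintro x y ⟨hx, i, hi⟩ ⟨hy, j, hj⟩
    refine ⟨add_mem hx hy, i + j, ?_⟩
    rw [mul_add, pow_add, map_mul]
    refine add_mem ?_ ?_
    · rw [mul_comm (HahnSeries.C (ϖ ^ i)), mul_assoc]
      exact mul_mem (R.C_mem_intSeries (pow_mem hϖ j)) hi
    · rw [mul_assoc]
      exact mul_mem (R.C_mem_intSeries (pow_mem hϖ i)) hj
  mul_mem' := by
    rintro x y ⟨hx, i, hi⟩ ⟨hy, j, hj⟩
    refine ⟨mul_mem hx hy, i + j, ?_⟩
    rw [pow_add, map_mul, mul_mul_mul_comm]
    exact mul_mem hi hj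

/-- Quotients of bounded series over `L`. -/
def fracOver (L : Subfield K) (ϖ : K) (hϖ : ϖ ∈ R.A) : Subfield (LaurentSeries K) :=
  Subfield.closure (R.boundedOver L ϖ hϖ : Set (LaurentSeries K))

variable {R}

/-- An element of `fracOver` is a quotient of two bounded series. -/
theorem exists_frac {L : Subfield K} {ϖ : K} {hϖ : ϖ ∈ R.A} {x : LaurentSeries K}
    (hx : x ∈ R.fracOver L ϖ hϖ) :
    ∃ a ∈ R.boundedOver L ϖ hϖ, ∃ b ∈ R.boundedOver L ϖ hϖ, b ≠ 0 ∧ x * b = a := by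
  rw [fracOver, Subfield.mem_closure_iff] at hx
  obtain ⟨a, ha, b, hb, rfl⟩ := hx
  rw [Subring.closure_eq] at ha hb
  rcases eq_or_ne b 0 with rfl | hb0
  · exact ⟨0, zero_mem _, 1, one_mem _, one_ne_zero, by simp⟩
  · exact ⟨a, ha, b, hb, hb0, div_mul_cancel₀ a hb0⟩

/-- Normal form of a nonzero quotient. -/
theorem Discrete.exists_normal_form {L : Subfield K} {ϖ : K} (hd : R.Discrete L ϖ)
    {x : LaurentSeries K} (hx0 : x ≠ 0) (hx : x ∈ R.fracOver L ϖ (R.A.nonunits_le hd.nonunit)) :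
    ∃ (z : ℤ) (a b : LaurentSeries K), R.IsUnitSeries a ∧ R.IsUnitSeries b ∧
      a ∈ overSubfield L ∧ b ∈ overSubfield L ∧ x * b = HahnSeries.C (ϖ ^ z) * a := by
  obtain ⟨a, ⟨haL, i, hi⟩, b, ⟨hbL, j, hj⟩, hb0, heq⟩ := exists_frac hx
  have ha0 : a ≠ 0 := heq ▸ mul_ne_zero hx0 hb0
  obtain ⟨za, hza⟩ := hd.exists_content ha0 haL (pow_ne_zero i hd.ne_zero) hi
  obtain ⟨zb, hzb⟩ := hd.exists_content hb0 hbL (pow_ne_zero j hd.ne_zero) hj
  have hC : ∀ z : ℤ, HahnSeries.C (ϖ ^ z) ∈ overSubfield L := fun z =>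
    mem_overSubfield.mpr fun n => by
      by_cases hn : n = 0
      · subst hn; simpa [HahnSeries.C_apply, -map_zpow₀] using hd.zpow_mem z
      · simp [HahnSeries.C_apply, HahnSeries.coeff_single_of_ne hn, -map_zpow₀]
  refine ⟨zb - za, _, _, hza, hzb, mul_mem (hC za) haL, mul_mem (hC zb) hbL, ?_⟩
  rw [mul_left_comm, heq, ← mul_assoc, ← map_mul, ← zpow_add₀ hd.ne_zero, sub_add_cancel]

end ResidueData

variable (K F k G ι) in
/-- Components given by embeddings into Laurent series. -/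
structure GaussData where
  R : ResidueData K k
  ρ : G →+* LaurentSeries k
  ρ_algebraMap : ∀ c, ρ (algebraMap k G c) = HahnSeries.C c
  emb : ι → F →+* LaurentSeries K
  emb_algebraMap : ∀ i c, emb i (algebraMap K F c) = HahnSeries.C c
  bounded : ∀ S : Finset F, ∃ (L : Subfield K) (ϖ : K) (hd : R.Discrete L ϖ),
    ∀ φ ∈ S, ∀ i, emb i φ ∈ R.fracOver L ϖ (R.A.nonunits_le hd.nonunit)
  red_range : ∀ i φ (a b : R.intSeries), R.redSeries b ≠ 0 → emb i φ * b = a →
    R.redSeries a / R.redSeries b ∈ ρ.range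

namespace GaussData

variable (D : GaussData K F k G ι)

/-- Every nonzero function has a normal form on each component. -/
theorem exists_normal_form (φ : F) (hφ : φ ≠ 0) (i : ι) :
    ∃ (L : Subfield K) (ϖ : K) (_ : D.R.Discrete L ϖ) (z : ℤ) (a b : LaurentSeries K),
      D.R.IsUnitSeries a ∧ D.R.IsUnitSeries b ∧ D.emb i φ * b = HahnSeries.C (ϖ ^ z) * a := by
  obtain ⟨L, ϖ, hd, h⟩ := D.bounded {φ}
  obtain ⟨z, a, b, ha, hb, -, -, heq⟩ := hd.exists_normal_form
    (by simpa using hφ) (h φ (Finset.mem_singleton_self φ) i)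
  exact ⟨L, ϖ, hd, z, a, b, ha, hb, heq⟩

/-- `φ` is a quotient of an integral series by a unit series. -/
def IsInt (i : ι) (φ : F) : Prop :=
  ∃ a b : D.R.intSeries, D.R.redSeries b ≠ 0 ∧ D.emb i φ * b = a

/-- A quotient `ϖ^z a / b` with `z ≥ 0` is integral. -/
theorem isInt_of_zpow {L : Subfield K} {ϖ : K} (hd : D.R.Discrete L ϖ) {i : ι} {φ : F} {z : ℤ}
    {a b : LaurentSeries K} (hz : 0 ≤ z) (ha : a ∈ D.R.intSeries) (hb : D.R.IsUnitSeries b)
    (heq : D.emb i φ * b = HahnSeries.C (ϖ ^ z) * a) : D.IsInt i φ := by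
  have hc : ϖ ^ z ∈ D.R.A := by
    rw [← Int.toNat_of_nonneg hz, zpow_natCast]
    exact pow_mem (show ϖ ∈ D.R.A from D.R.A.nonunits_le hd.nonunit) _
  exact ⟨⟨_, mul_mem (D.R.C_mem_intSeries hc) ha⟩, ⟨b, hb.mem⟩, hb.2, heq⟩

/-- The valuation ring of a component. -/
def valRing (i : ι) : ValuationSubring F where
  carrier := {φ | D.IsInt i φ}
  zero_mem' := ⟨0, 1, by simp, by simp⟩
  one_mem' := ⟨1, 1, by simp, by simp⟩
  neg_mem' := by
    rintro φ ⟨a, b, hb, h⟩
    exact ⟨-a, b, hb, by rw [map_neg, neg_mul, h]; rfl⟩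
  add_mem' := by
    rintro φ ψ ⟨a, b, hb, h⟩ ⟨a', b', hb', h'⟩
    refine ⟨a * b' + a' * b, b * b', by rw [map_mul]; exact mul_ne_zero hb hb', ?_⟩
    push_cast
    rw [map_add, ← h, ← h']
    ring
  mul_mem' := by
    rintro φ ψ ⟨a, b, hb, h⟩ ⟨a', b', hb', h'⟩
    refine ⟨a * a', b * b', by rw [map_mul]; exact mul_ne_zero hb hb', ?_⟩
    push_cast
    rw [map_mul, ← h, ← h']
    ring
  mem_or_inv_mem' := by
    intro φ
    rcases eq_or_ne φ 0 with rfl | hφ
    · exact Or.inl ⟨0, 1, by simp, by simp⟩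
    obtain ⟨L, ϖ, hd, z, a, b, ha, hb, heq⟩ := D.exists_normal_form φ hφ i
    rcases le_total 0 z with hz | hz
    · exact Or.inl (D.isInt_of_zpow hd hz ha.mem hb heq)
    · refine Or.inr (D.isInt_of_zpow (z := -z) hd (by omega) hb.mem ha ?_)
      have h0 : D.emb i φ ≠ 0 := by simpa using hφ
      rw [map_inv₀, inv_mul_eq_iff_eq_mul₀ h0, ← mul_assoc, mul_comm (D.emb i φ), mul_assoc, heq,
        ← mul_assoc, ← map_mul, ← zpow_add₀ hd.ne_zero, neg_add_cancel, zpow_zero, map_one,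
        one_mul]

/-- The residue of an integral element. -/
def redVal (i : ι) (φ : D.valRing i) : G :=
  (D.red_range i φ φ.2.choose φ.2.choose_spec.choose φ.2.choose_spec.choose_spec.1
    φ.2.choose_spec.choose_spec.2).choose

theorem ρ_redVal {i : ι} (φ : D.valRing i) {a b : D.R.intSeries} (hb : D.R.redSeries b ≠ 0)
    (h : D.emb i φ * b = a) : D.ρ (D.redVal i φ) = D.R.redSeries a / D.R.redSeries b := by
  rw [redVal, (D.red_range i φ φ.2.choose φ.2.choose_spec.choose φ.2.choose_spec.choose_spec.1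
    φ.2.choose_spec.choose_spec.2).choose_spec,
    div_eq_div_iff φ.2.choose_spec.choose_spec.1 hb, ← map_mul, ← map_mul]
  congr 1
  apply Subtype.ext
  push_cast
  linear_combination (φ.2.choose_spec.choose : LaurentSeries K) * h -
    (b : LaurentSeries K) * φ.2.choose_spec.choose_spec.2

/-- The residue map of a component. -/
def redHom (i : ι) : D.valRing i →+* G where
  toFun := D.redVal i
  map_one' := D.ρ.injective <| by
    rw [D.ρ_redVal 1 (a := 1) (b := 1) (by simp) (by simp)]; simp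
  map_zero' := D.ρ.injective <| by
    rw [D.ρ_redVal 0 (a := 0) (b := 1) (by simp) (by simp)]; simp
  map_mul' φ ψ := by
    obtain ⟨a, b, hb, h⟩ := φ.2
    obtain ⟨a', b', hb', h'⟩ := ψ.2
    refine D.ρ.injective ?_
    rw [map_mul, D.ρ_redVal φ hb h, D.ρ_redVal ψ hb' h',
      D.ρ_redVal (φ * ψ) (a := a * a') (b := b * b') (by rw [map_mul]; exact mul_ne_zero hb hb')
        (by push_cast; rw [map_mul, ← h, ← h']; ring), map_mul, map_mul, div_mul_div_comm]
  map_add' φ ψ := by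
    obtain ⟨a, b, hb, h⟩ := φ.2
    obtain ⟨a', b', hb', h'⟩ := ψ.2
    refine D.ρ.injective ?_
    rw [map_add, D.ρ_redVal φ hb h, D.ρ_redVal ψ hb' h',
      D.ρ_redVal (φ + ψ) (a := a * b' + a' * b) (b := b * b')
        (by rw [map_mul]; exact mul_ne_zero hb hb')
        (by push_cast; rw [map_add, ← h, ← h']; ring), div_add_div _ _ hb hb', map_add,
      map_mul, map_mul, map_mul]
    ring

theorem redVal_eq_zero_iff {i : ι} (φ : D.valRing i) :
    D.redVal i φ = 0 ↔ (φ : F) ∈ (D.valRing i).nonunits := by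
  rw [ValuationSubring.mem_nonunits_iff_or]
  constructor
  · intro h
    by_contra hc
    push Not at hc
    have h1 := map_mul (D.redHom i) φ ⟨_, hc.2⟩
    rw [show φ * ⟨_, hc.2⟩ = 1 from Subtype.ext (mul_inv_cancel₀ hc.1), map_one] at h1
    have h2 : D.redHom i φ = 0 := h
    rw [h2, zero_mul] at h1
    exact one_ne_zero h1
  · rintro (h | h)
    · rw [show φ = 0 from Subtype.ext h]; exact map_zero (D.redHom i)
    obtain ⟨a, b, hb, heq⟩ := φ.2
    by_contra hne
    refine h ⟨b, a, fun ha => hne (D.ρ.injective ?_), ?_⟩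
    · rw [D.ρ_redVal φ hb heq, ha, zero_div, map_zero]
    · have hφ0 : (φ : F) ≠ 0 := fun h0 => hne (by
        rw [show φ = 0 from Subtype.ext h0]; exact map_zero (D.redHom i))
      rw [← heq, map_inv₀, inv_mul_cancel_left₀ (by simpa using hφ0)]

theorem algebraMap_mem_valRing {i : ι} {c : K} (hc : c ∈ D.R.A) :
    algebraMap K F c ∈ D.valRing i :=
  ⟨⟨_, D.R.C_mem_intSeries hc⟩, 1, by simp, by simp [D.emb_algebraMap]⟩

theorem redVal_algebraMap (i : ι) (c : D.R.A) (h : algebraMap K F (c : K) ∈ D.valRing i) :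
    D.redVal i ⟨_, h⟩ = algebraMap k G (D.R.π c) := by
  refine D.ρ.injective ?_
  rw [D.ρ_redVal ⟨_, h⟩ (a := ⟨_, D.R.C_mem_intSeries c.2⟩) (b := 1) (by simp)
    (by simp [D.emb_algebraMap]), map_one, div_one, D.ρ_algebraMap, D.R.redSeries_C]

theorem comap_valRing (i : ι) : (D.valRing i).comap (algebraMap K F) = D.R.A := by
  ext c
  rw [ValuationSubring.mem_comap]
  refine ⟨fun h => ?_, D.algebraMap_mem_valRing⟩
  by_contra hc
  have hinv : c⁻¹ ∈ D.R.A := (D.R.A.mem_or_inv_mem c).resolve_left hc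
  have hπ : D.R.π ⟨_, hinv⟩ = 0 :=
    (D.R.π_eq_zero _).mpr (D.R.A.inv_mem_nonunits_iff.mpr (Or.inr hc))
  have hc0 : c ≠ 0 := fun h0 => hc (h0 ▸ zero_mem _)
  have h1 := map_mul (D.redHom i) ⟨_, D.algebraMap_mem_valRing hinv⟩ ⟨_, h⟩
  rw [show (⟨_, D.algebraMap_mem_valRing hinv⟩ : D.valRing i) * ⟨_, h⟩ = 1 from
    Subtype.ext (by show algebraMap K F c⁻¹ * algebraMap K F c = 1
                    rw [← map_mul, inv_mul_cancel₀ hc0, map_one]), map_one] at h1
  have h2 : D.redHom i ⟨_, D.algebraMap_mem_valRing (c := c⁻¹) hinv⟩ = 0 := by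
    refine (D.redVal_algebraMap i ⟨c⁻¹, hinv⟩ _).trans ?_
    rw [hπ, map_zero]
  rw [h2, zero_mul] at h1
  exact one_ne_zero h1

/-- The model. -/
def model : Model K F k G ι where
  A := D.R.A
  π := D.R.π
  π_surjective := D.R.π_surjective
  π_eq_zero := D.R.π_eq_zero
  W := D.valRing
  comap := D.comap_valRing
  red := D.redHom
  red_eq_zero _ φ := D.redVal_eq_zero_iff φ
  red_algebraMap i c h := D.redVal_algebraMap i c h

/-- The residue of `a / b` is the quotient of the reductions. -/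
theorem ρ_rd {i : ι} {φ : F} (h : φ ∈ D.valRing i) {a b : D.R.intSeries}
    (hb : D.R.redSeries b ≠ 0) (heq : D.emb i φ * b = a) :
    D.ρ (D.model.rd i φ) = D.R.redSeries a / D.R.redSeries b := by
  rw [D.model.rd_of_mem h]
  exact D.ρ_redVal ⟨φ, h⟩ hb heq

/-- Every nonzero function has a content on every component of the Gauss model. -/
theorem hasContent : D.model.HasContent := by
  intro f hf i
  obtain ⟨L, ϖ, hd, z, a, b, ha, hb, heq⟩ := D.exists_normal_form f hf i
  have heq' : D.emb i (f * algebraMap K F (ϖ ^ (-z))) * b = a := by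
    rw [map_mul, D.emb_algebraMap, mul_right_comm, heq, mul_comm, ← mul_assoc, ← map_mul,
      ← zpow_add₀ hd.ne_zero, neg_add_cancel, zpow_zero, map_one, one_mul]
  refine ⟨ϖ ^ (-z), ⟨⟨a, ha.mem⟩, ⟨b, hb.mem⟩, hb.2, heq'⟩, fun h => ?_⟩
  have hρ := D.ρ_rd (i := i) (φ := f * algebraMap K F (ϖ ^ (-z)))
    ⟨⟨a, ha.mem⟩, ⟨b, hb.mem⟩, hb.2, heq'⟩ (a := ⟨a, ha.mem⟩) (b := ⟨b, hb.mem⟩) hb.2 heq'
  rw [h, map_zero] at hρ
  exact div_ne_zero ha.2 hb.2 hρ.symm

end GaussData

end Fermat.Agent.KummerReduction
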