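import Fermat.Agent.KummerReduction.Datum

/-!
# The gluing invariant of a Kummer datum

A node is a pair of branches; the reductions of the lattice of sections take values at each node
in a line `v = ζ u` with `ζ ^ n = 1`, and a dimension count makes this the only constraint.
-/

set_option autoImplicit false

noncomputable section

open AlgebraicCurve

namespace Fermat.Agent.KummerReduction

variable {K F k G ι N : Type} [Field K] [Field F] [Field k] [Field G] [Algebra K F] [Algebra k G]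

variable (k G ι N) in
/-- Two branches at each node, with their evaluation maps. -/
structure Nodes where
  comp : N → Fin 2 → ι
  place : N → Fin 2 → Place k G
  ev : ∀ s e, (place s e).toValuationSubring →+* k
  ev_algebraMap : ∀ s e (c : k), ev s e (algebraMap k (place s e).toValuationSubring c) = c

namespace Nodes

variable (Nd : Nodes k G ι N)

open Classical in
/-- Evaluation at a branch, extended by zero. -/
def val (s : N) (e : Fin 2) (ψ : G) : k :=
  if h : ψ ∈ (Nd.place s e).toValuationSubring then Nd.ev s e ⟨ψ, h⟩ else 0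

/-- The value at a branch of a regular function. -/
theorem val_of_mem {s : N} {e : Fin 2} {ψ : G} (h : ψ ∈ (Nd.place s e).toValuationSubring) :
    Nd.val s e ψ = Nd.ev s e ⟨ψ, h⟩ := dif_pos h

/-- Values at a branch are additive. -/
theorem val_add {s : N} {e : Fin 2} {ψ χ : G} (h : ψ ∈ (Nd.place s e).toValuationSubring)
    (h' : χ ∈ (Nd.place s e).toValuationSubring) :
    Nd.val s e (ψ + χ) = Nd.val s e ψ + Nd.val s e χ := by
  rw [Nd.val_of_mem h, Nd.val_of_mem h', Nd.val_of_mem (add_mem h h')]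
  exact map_add (Nd.ev s e) ⟨ψ, h⟩ ⟨χ, h'⟩

/-- Values at a branch are multiplicative. -/
theorem val_mul {s : N} {e : Fin 2} {ψ χ : G} (h : ψ ∈ (Nd.place s e).toValuationSubring)
    (h' : χ ∈ (Nd.place s e).toValuationSubring) :
    Nd.val s e (ψ * χ) = Nd.val s e ψ * Nd.val s e χ := by
  rw [Nd.val_of_mem h, Nd.val_of_mem h', Nd.val_of_mem (mul_mem h h')]
  exact map_mul (Nd.ev s e) ⟨ψ, h⟩ ⟨χ, h'⟩

theorem val_algebraMap (s : N) (e : Fin 2) (c : k) : Nd.val s e (algebraMap k G c) = c := by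
  rw [Nd.val_of_mem ((Nd.place s e).algebraMap_mem' c)]
  exact Nd.ev_algebraMap s e c

/-- The value of `1` is `1`. -/
theorem val_one (s : N) (e : Fin 2) : Nd.val s e (1 : G) = 1 := by
  rw [← map_one (algebraMap k G), Nd.val_algebraMap]

/-- The value of `0` is `0`. -/
theorem val_zero (s : N) (e : Fin 2) : Nd.val s e (0 : G) = 0 := by
  rw [← map_zero (algebraMap k G), Nd.val_algebraMap]

/-- Values at a branch are linear. -/
theorem val_smul {s : N} {e : Fin 2} (c : k) {ψ : G}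
    (h : ψ ∈ (Nd.place s e).toValuationSubring) : Nd.val s e (c • ψ) = c * Nd.val s e ψ := by
  rw [Algebra.smul_def, Nd.val_mul ((Nd.place s e).algebraMap_mem' c) h, Nd.val_algebraMap]

/-- Values at a branch respect powers. -/
theorem val_pow {s : N} {e : Fin 2} {ψ : G} (h : ψ ∈ (Nd.place s e).toValuationSubring) (n : ℕ) :
    Nd.val s e (ψ ^ n) = Nd.val s e ψ ^ n := by
  induction n with
  | zero => rw [pow_zero, pow_zero, Nd.val_one]
  | succ n ih => rw [pow_succ, pow_succ, Nd.val_mul (pow_mem h n) h, ih]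

end Nodes

/-- A divisor of poles on `F` with the pole bound and node regularity of its reductions. -/
structure PoleData (M : Model K F k G ι) (Nd : Nodes k G ι N) where
  H : Divisor K F
  HY : ι → Divisor k G
  H_nonneg : 0 ≤ H
  HY_node : ∀ s e, HY (Nd.comp s e) (Nd.place s e) = 0
  reg : ∀ (m : ℕ) (φ : F), φ ∈ riemannRochSpace (m • H) → (∀ i, φ ∈ M.W i) →
    ∀ i, M.rd i φ ∈ riemannRochSpace (m • HY i)
  glue : ∀ (m : ℕ) (φ : F), φ ∈ riemannRochSpace (m • H) → (∀ i, φ ∈ M.W i) → ∀ s,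
    Nd.val s 0 (M.rd (Nd.comp s 0) φ) = Nd.val s 1 (M.rd (Nd.comp s 1) φ)

variable {M : Model K F k G ι} {Nd : Nodes k G ι N}

namespace PoleData

variable (P : PoleData M Nd)

/-- Sections bounded by `H` are regular at the nodes. -/
theorem regular_of_mem_rr {m : ℕ} {s : N} {e : Fin 2} {ψ : G}
    (h : ψ ∈ riemannRochSpace (m • P.HY (Nd.comp s e))) :
    ψ ∈ (Nd.place s e).toValuationSubring := by
  have h' := h (Nd.place s e)
  rw [Finsupp.smul_apply, P.HY_node, smul_zero, WithZero.exp_zero] at h'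
  rcases eq_or_ne ψ 0 with rfl | hψ
  · exact zero_mem _
  · obtain ⟨π, hπ⟩ := IsDiscreteValuationRing.exists_irreducible (Nd.place s e).toValuationSubring
    obtain ⟨u, hu⟩ := (Nd.place s e).exists_unit_mul_zpow hψ hπ
    have hord : 0 ≤ (Nd.place s e).ord ψ :=
      (((Nd.place s e).adicValuation_le_one_iff).mp h').resolve_left hψ
    rw [hu, ← Int.toNat_of_nonneg hord, zpow_natCast]
    exact mul_mem (u : (Nd.place s e).toValuationSubring).2 (pow_mem π.2 _)

/-- The glued functions of pole order at most `m`. -/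
def glued (ζ : N → k) (m : ℕ) : Submodule k (ι → G) where
  carrier := {ψ | (∀ i, ψ i ∈ riemannRochSpace (m • P.HY i)) ∧
    ∀ s, Nd.val s 1 (ψ (Nd.comp s 1)) = ζ s * Nd.val s 0 (ψ (Nd.comp s 0))}
  zero_mem' := ⟨fun i => zero_mem _, fun s => by simp [Nd.val_zero]⟩
  add_mem' := by
    intro ψ χ hψ hχ
    refine ⟨fun i => add_mem (hψ.1 i) (hχ.1 i), fun s => ?_⟩
    simp only [Pi.add_apply]
    rw [Nd.val_add (P.regular_of_mem_rr (hψ.1 _)) (P.regular_of_mem_rr (hχ.1 _)),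
      Nd.val_add (P.regular_of_mem_rr (hψ.1 _)) (P.regular_of_mem_rr (hχ.1 _)),
      hψ.2 s, hχ.2 s, mul_add]
  smul_mem' := by
    intro c ψ hψ
    refine ⟨fun i => Submodule.smul_mem _ c (hψ.1 i), fun s => ?_⟩
    simp only [Pi.smul_apply]
    rw [Nd.val_smul c (P.regular_of_mem_rr (hψ.1 _)), Nd.val_smul c (P.regular_of_mem_rr (hψ.1 _)),
      hψ.2 s, mul_left_comm]

/-- Membership in the glued functions. -/
theorem mem_glued {ζ : N → k} {m : ℕ} {ψ : ι → G} :
    ψ ∈ P.glued ζ m ↔ (∀ i, ψ i ∈ riemannRochSpace (m • P.HY i)) ∧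
      ∀ s, Nd.val s 1 (ψ (Nd.comp s 1)) = ζ s * Nd.val s 0 (ψ (Nd.comp s 0)) := Iff.rfl

variable {n : ℕ} [NeZero n]

/-- The sections of the Kummer datum with poles bounded by `m • H`. -/
abbrev sections (f : F) (n : ℕ) [NeZero n] (m : ℕ) : Submodule K F :=
  kummerSpace f n (m • P.H)

theorem sections_mono {f : F} {m m' : ℕ} (h : m ≤ m') :
    P.sections f n m ≤ P.sections f n m' :=
  kummerSpace_mono (nsmul_le_nsmul_left P.H_nonneg h)

/-- Reduced sections have poles bounded by `m • H`. -/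
theorem psi_mem_rr (x : Datum M n) {m : ℕ} {φ : F} (hφ : x.InLattice (P.sections x.f n m) φ)
    (i : ι) : x.psi φ i ∈ riemannRochSpace (m • P.HY i) := by
  have h := P.reg (n * m) (φ ^ n * x.f)
    (by rw [mul_nsmul']; exact hφ.1) (x.pow_mul_mem_W hφ) i
  rw [x.psi_pow hφ, mul_nsmul'] at h
  exact mem_rr_of_pow_mem h

theorem val_pow_eq (x : Datum M n) {m : ℕ} {φ : F} (hφ : x.InLattice (P.sections x.f n m) φ)
    (s : N) : Nd.val s 0 (x.psi φ (Nd.comp s 0)) ^ n = Nd.val s 1 (x.psi φ (Nd.comp s 1)) ^ n := by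
  have h := P.glue (n * m) (φ ^ n * x.f)
    (by rw [mul_nsmul']; exact hφ.1) (x.pow_mul_mem_W hφ) s
  rw [x.psi_pow hφ, x.psi_pow hφ, Nd.val_pow (P.regular_of_mem_rr (P.psi_mem_rr x hφ _)),
    Nd.val_pow (P.regular_of_mem_rr (P.psi_mem_rr x hφ _))] at h
  exact h

/-- Reduced sections have values with equal `n`-th powers at each node. -/
theorem val_img (x : Datum M n) {m : ℕ} {ψ : ι → G} (hψ : ψ ∈ x.img (P.sections x.f n m)) :
    (∀ i, ψ i ∈ riemannRochSpace (m • P.HY i)) ∧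
      ∀ s, Nd.val s 0 (ψ (Nd.comp s 0)) ^ n = Nd.val s 1 (ψ (Nd.comp s 1)) ^ n := by
  obtain ⟨φ, hφ, rfl⟩ := hψ
  exact ⟨P.psi_mem_rr x hφ, P.val_pow_eq x hφ⟩

/-- The values at a node of the reduced sections lie on a line: two of them are proportional. -/
theorem val_cross (x : Datum M n) {m : ℕ} {ψ χ : ι → G} (hψ : ψ ∈ x.img (P.sections x.f n m))
    (hχ : χ ∈ x.img (P.sections x.f n m)) (s : N) :
    Nd.val s 0 (ψ (Nd.comp s 0)) * Nd.val s 1 (χ (Nd.comp s 1)) =
      Nd.val s 1 (ψ (Nd.comp s 1)) * Nd.val s 0 (χ (Nd.comp s 0)) := by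
  set u := Nd.val s 0 (ψ (Nd.comp s 0))
  set u' := Nd.val s 0 (χ (Nd.comp s 0))
  have hω : u • χ - u' • ψ ∈ x.img (P.sections x.f n m) :=
    Submodule.sub_mem _ (Submodule.smul_mem _ u hχ) (Submodule.smul_mem _ u' hψ)
  have hr := fun (e : Fin 2) (η : ι → G) (hη : η ∈ x.img (P.sections x.f n m)) =>
    P.regular_of_mem_rr ((P.val_img x hη).1 (Nd.comp s e))
  have hval : ∀ e : Fin 2, Nd.val s e ((u • χ - u' • ψ) (Nd.comp s e)) =
      u * Nd.val s e (χ (Nd.comp s e)) - u' * Nd.val s e (ψ (Nd.comp s e)) := by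
    intro e
    have h := Nd.val_add (hr e _ hω) (hr e _ (Submodule.smul_mem _ u' hψ))
    simp only [Pi.sub_apply, sub_add_cancel, Pi.smul_apply] at h ⊢
    rw [Nd.val_smul u (hr e χ hχ), Nd.val_smul u' (hr e ψ hψ)] at h
    exact eq_sub_of_add_eq h.symm
  have h := (P.val_img x hω).2 s
  rw [hval 0, hval 1, mul_comm u u', sub_self, zero_pow (NeZero.ne n)] at h
  have h' := pow_eq_zero_iff (NeZero.ne n) |>.mp h.symm
  rw [sub_eq_zero] at h'
  rw [h', mul_comm]

/-- The reduced sections are glued by some constants at the nodes. -/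
theorem exists_glued (x : Datum M n) (m : ℕ) :
    ∃ ζ : N → k, x.img (P.sections x.f n m) ≤ P.glued ζ m := by
  classical
  refine ⟨fun s => if h : ∃ χ ∈ x.img (P.sections x.f n m), Nd.val s 0 (χ (Nd.comp s 0)) ≠ 0
    then Nd.val s 1 (h.choose (Nd.comp s 1)) / Nd.val s 0 (h.choose (Nd.comp s 0)) else 0,
    fun ψ hψ => ⟨(P.val_img x hψ).1, fun s => ?_⟩⟩
  dsimp only
  split_ifs with h
  · obtain ⟨hχ, hne⟩ := h.choose_spec
    rw [div_mul_eq_mul_div, eq_div_iff hne, ← P.val_cross x hψ hχ s, mul_comm]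
  · rw [zero_mul]
    push Not at h
    have h0 := (P.val_img x hψ).2 s
    rw [h ψ hψ, zero_pow (NeZero.ne n)] at h0
    exact pow_eq_zero_iff (NeZero.ne n) |>.mp h0.symm

/-- The dimension count for `f`. -/
def Count (f : F) (n : ℕ) [NeZero n] : Prop :=
  ∃ m₀ : ℕ, ∀ m, m₀ ≤ m → Module.Finite K (P.sections f n m) ∧ ∀ ζ : N → k,
    Module.Finite k (P.glued ζ m) ∧
      Module.finrank K (P.sections f n m) = Module.finrank k (P.glued ζ m) ∧
      ∀ s, ∃ ψ ∈ P.glued ζ m, Nd.val s 0 (ψ (Nd.comp s 0)) ≠ 0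

/-- `ζ` is the gluing invariant of `x` along `P`. -/
def IsGlue (x : Datum M n) (ζ : N → k) : Prop :=
  ∀ m, x.img (P.sections x.f n m) ≤ P.glued ζ m

/-- A datum satisfying the dimension count has a gluing invariant. -/
theorem exists_isGlue [Finite ι] (horth : M.HasOrth) (x : Datum M n) (hc : P.Count x.f n) :
    ∃ ζ, P.IsGlue x ζ ∧ ∃ m₀, ∀ m, m₀ ≤ m →
      x.img (P.sections x.f n m) = P.glued ζ m ∧
      ∀ s, ∃ ψ ∈ P.glued ζ m, Nd.val s 0 (ψ (Nd.comp s 0)) ≠ 0 := by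
  obtain ⟨m₀, hm₀⟩ := hc
  choose Z hZ using fun m => P.exists_glued x m
  have heq : ∀ m, m₀ ≤ m → x.img (P.sections x.f n m) = P.glued (Z m) m := by
    intro m hm
    obtain ⟨hfin, hζ⟩ := hm₀ m hm
    obtain ⟨hfin', hdim, -⟩ := hζ (Z m)
    exact Submodule.eq_of_le_of_finrank_eq (hZ m)
      ((x.finrank_img horth _).1.trans hdim)
  have hconst : ∀ m, m₀ ≤ m → Z m = Z m₀ := by
    intro m hm
    funext s
    obtain ⟨ψ, hψ, hne⟩ := ((hm₀ m₀ le_rfl).2 (Z m₀)).2.2 s
    have hψ' := hψ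
    rw [← heq m₀ le_rfl] at hψ'
    have h := (hZ m (x.img_mono (P.sections_mono hm) hψ')).2 s
    rw [hψ.2 s] at h
    exact (mul_right_cancel₀ hne h).symm
  refine ⟨Z m₀, fun m ψ hψ => ?_, m₀, fun m hm => ?_⟩
  · refine ⟨(P.val_img x hψ).1, ?_⟩
    have h := (hZ (max m m₀) (x.img_mono (P.sections_mono (le_max_left m m₀)) hψ)).2
    rwa [hconst _ (le_max_right m m₀)] at h
  · rw [← hconst m hm]
    exact ⟨heq m hm, ((hm₀ m hm).2 (Z m)).2.2⟩

/-- The gluing invariant is unique. -/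
theorem IsGlue.eq [Finite ι] (horth : M.HasOrth) {P : PoleData M Nd} {x : Datum M n}
    (hc : P.Count x.f n) {ζ ξ : N → k} (hζ : P.IsGlue x ζ) (hξ : P.IsGlue x ξ) : ζ = ξ := by
  obtain ⟨η, -, m₀, hm⟩ := P.exists_isGlue horth x hc
  funext s
  obtain ⟨ψ, hψ, hne⟩ := (hm m₀ le_rfl).2 s
  rw [← (hm m₀ le_rfl).1] at hψ
  exact mul_right_cancel₀ hne (((hζ m₀ hψ).2 s).symm.trans ((hξ m₀ hψ).2 s))

/-- The gluing invariant is an `n`-th root of unity. -/
theorem IsGlue.pow_eq_one [Finite ι] (horth : M.HasOrth) {P : PoleData M Nd} {x : Datum M n}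
    (hc : P.Count x.f n) {ζ : N → k} (hζ : P.IsGlue x ζ) (s : N) : ζ s ^ n = 1 := by
  obtain ⟨η, -, m₀, hm⟩ := P.exists_isGlue horth x hc
  obtain ⟨ψ, hψ, hne⟩ := (hm m₀ le_rfl).2 s
  rw [← (hm m₀ le_rfl).1] at hψ
  have h := (P.val_img x hψ).2 s
  rw [(hζ m₀ hψ).2 s, mul_pow] at h
  exact mul_right_cancel₀ (pow_ne_zero n hne) (by rw [one_mul]; exact h.symm)

/-- The invariant does not depend on the divisor of poles. -/
theorem IsGlue.eq_of_le [Finite ι] (horth : M.HasOrth) {P P' Q : PoleData M Nd}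
    (hP : P.H ≤ Q.H) (hP' : P'.H ≤ Q.H) {x : Datum M n} (hc : P.Count x.f n)
    (hc' : P'.Count x.f n) {ζ ξ : N → k} (hζ : P.IsGlue x ζ) (hξ : P'.IsGlue x ξ) : ζ = ξ := by
  obtain ⟨η₁, -, m₁, hm₁⟩ := P.exists_isGlue horth x hc
  obtain ⟨η₂, -, m₂, hm₂⟩ := P'.exists_isGlue horth x hc'
  funext s
  obtain ⟨ψ, hψ, hne⟩ := (hm₁ (max m₁ m₂) (le_max_left _ _)).2 s
  obtain ⟨χ, hχ, hne'⟩ := (hm₂ (max m₁ m₂) (le_max_right _ _)).2 s
  rw [← (hm₁ (max m₁ m₂) (le_max_left _ _)).1] at hψ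
  rw [← (hm₂ (max m₁ m₂) (le_max_right _ _)).1] at hχ
  have h := Q.val_cross x
    (x.img_mono (kummerSpace_mono (nsmul_le_nsmul_right hP _)) hψ)
    (x.img_mono (kummerSpace_mono (nsmul_le_nsmul_right hP' _)) hχ) s
  rw [(hζ _ hψ).2 s, (hξ _ hχ).2 s] at h
  exact (mul_right_cancel₀ (mul_ne_zero hne hne') (by linear_combination -h))

end PoleData

end Fermat.Agent.KummerReduction
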