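import Fermat.Agent.KummerReduction.Spaces

/-!
# Reduction of a function field at a place of the base field

`Model A π ι G` records finitely many extensions of the valuation ring `A` to `F` (the components
of the special fibre), each with a residue map to a fixed field `G`, such that every finite
dimensional subspace of `F` has a reduction basis.
-/

set_option autoImplicit false

noncomputable section

open AlgebraicCurve

namespace Fermat.Agent.KummerReduction

variable {K F k G ι : Type} [Field K] [Field F] [Field k] [Field G] [Algebra K F] [Algebra k G]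

variable (K F k G ι) in
/-- Residue maps on `F` above a valuation ring of `K`. -/
structure Model where
  A : ValuationSubring K
  π : A →+* k
  π_surjective : Function.Surjective π
  π_eq_zero : ∀ c : A, π c = 0 ↔ (c : K) ∈ A.nonunits
  W : ι → ValuationSubring F
  comap : ∀ i, (W i).comap (algebraMap K F) = A
  red : ∀ i, W i →+* G
  red_eq_zero : ∀ (i : ι) (x : W i), red i x = 0 ↔ (x : F) ∈ (W i).nonunits
  red_algebraMap : ∀ (i : ι) (c : A) (h : algebraMap K F c ∈ W i),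
    red i ⟨algebraMap K F c, h⟩ = algebraMap k G (π c)

namespace Model

variable (M : Model K F k G ι)

open Classical in
/-- The residue map, extended by zero. -/
def rd (i : ι) (φ : F) : G := if h : φ ∈ M.W i then M.red i ⟨φ, h⟩ else 0

/-- The residue of an integral element. -/
theorem rd_of_mem {i : ι} {φ : F} (h : φ ∈ M.W i) : M.rd i φ = M.red i ⟨φ, h⟩ := dif_pos h

/-- The residue of `0`. -/
theorem rd_zero (i : ι) : M.rd i 0 = 0 := by
  rw [M.rd_of_mem (zero_mem (M.W i))]; exact map_zero (M.red i)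

/-- The residue of `1`. -/
theorem rd_one (i : ι) : M.rd i 1 = 1 := by
  rw [M.rd_of_mem (one_mem (M.W i))]; exact map_one (M.red i)

/-- Residues are additive. -/
theorem rd_add {i : ι} {φ ψ : F} (hφ : φ ∈ M.W i) (hψ : ψ ∈ M.W i) :
    M.rd i (φ + ψ) = M.rd i φ + M.rd i ψ := by
  rw [M.rd_of_mem hφ, M.rd_of_mem hψ, M.rd_of_mem (add_mem hφ hψ)]
  exact map_add (M.red i) ⟨φ, hφ⟩ ⟨ψ, hψ⟩

/-- Residues respect subtraction. -/
theorem rd_sub {i : ι} {φ ψ : F} (hφ : φ ∈ M.W i) (hψ : ψ ∈ M.W i) :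
    M.rd i (φ - ψ) = M.rd i φ - M.rd i ψ := by
  rw [M.rd_of_mem hφ, M.rd_of_mem hψ, M.rd_of_mem (sub_mem hφ hψ)]
  exact map_sub (M.red i) ⟨φ, hφ⟩ ⟨ψ, hψ⟩

/-- Residues are multiplicative. -/
theorem rd_mul {i : ι} {φ ψ : F} (hφ : φ ∈ M.W i) (hψ : ψ ∈ M.W i) :
    M.rd i (φ * ψ) = M.rd i φ * M.rd i ψ := by
  rw [M.rd_of_mem hφ, M.rd_of_mem hψ, M.rd_of_mem (mul_mem hφ hψ)]
  exact map_mul (M.red i) ⟨φ, hφ⟩ ⟨ψ, hψ⟩

/-- Residues respect powers. -/
theorem rd_pow {i : ι} {φ : F} (hφ : φ ∈ M.W i) (n : ℕ) : M.rd i (φ ^ n) = M.rd i φ ^ n := by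
  induction n with
  | zero => rw [pow_zero, pow_zero, M.rd_one]
  | succ n ih => rw [pow_succ, pow_succ, M.rd_mul (pow_mem hφ n) hφ, ih]

/-- Residues respect sums. -/
theorem rd_sum {i : ι} {α : Type*} (s : Finset α) {φ : α → F} (h : ∀ a ∈ s, φ a ∈ M.W i) :
    M.rd i (∑ a ∈ s, φ a) = ∑ a ∈ s, M.rd i (φ a) := by
  classical
  induction s using Finset.induction_on with
  | empty => simp [M.rd_zero]
  | insert a s ha ih =>
    rw [Finset.sum_insert ha, Finset.sum_insert ha,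
      M.rd_add (h a (Finset.mem_insert_self a s))
        (Subring.sum_mem (M.W i).toSubring fun b hb => h b (Finset.mem_insert_of_mem hb)),
      ih fun b hb => h b (Finset.mem_insert_of_mem hb)]

/-- The nonunits are the elements with residue `0`. -/
theorem mem_nonunits_iff_rd {i : ι} {φ : F} (hφ : φ ∈ M.W i) :
    φ ∈ (M.W i).nonunits ↔ M.rd i φ = 0 := by
  rw [M.rd_of_mem hφ, M.red_eq_zero]

/-- A nonunit has residue `0`. -/
theorem rd_eq_zero_of_nonunit {i : ι} {φ : F} (h : φ ∈ (M.W i).nonunits) : M.rd i φ = 0 :=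
  (M.mem_nonunits_iff_rd ((M.W i).nonunits_le h)).mp h

/-- A constant is integral on a component exactly when it lies in `A`. -/
theorem mem_W_algebraMap {i : ι} {c : K} : algebraMap K F c ∈ M.W i ↔ c ∈ M.A := by
  conv_rhs => rw [← M.comap i, ValuationSubring.mem_comap]

/-- The residue of a constant. -/
theorem rd_algebraMap (i : ι) (c : M.A) : M.rd i (algebraMap K F c) = algebraMap k G (M.π c) := by
  rw [M.rd_of_mem (M.mem_W_algebraMap.mpr c.2)]
  exact M.red_algebraMap i c _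

/-- Residues are linear over `A`. -/
theorem rd_smul {i : ι} (c : M.A) {φ : F} (hφ : φ ∈ M.W i) :
    M.rd i ((c : K) • φ) = M.π c • M.rd i φ := by
  rw [Algebra.smul_def, Algebra.smul_def, M.rd_mul (M.mem_W_algebraMap.mpr c.2) hφ,
    M.rd_algebraMap]

/-- Integral scalars preserve the component rings. -/
theorem smul_mem_W {i : ι} {c : K} (hc : c ∈ M.A) {φ : F} (hφ : φ ∈ M.W i) :
    c • φ ∈ M.W i := by
  rw [Algebra.smul_def]; exact mul_mem (M.mem_W_algebraMap.mpr hc) hφ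

/-- An element with nonzero residue has integral inverse. -/
theorem rd_ne_zero_inv {i : ι} {φ : F} (hφ : φ ∈ M.W i) (h : M.rd i φ ≠ 0) :
    φ⁻¹ ∈ M.W i ∧ M.rd i φ⁻¹ = (M.rd i φ)⁻¹ := by
  have hnu : φ ∉ (M.W i).nonunits := fun hn => h (M.rd_eq_zero_of_nonunit hn)
  have hne : φ ≠ 0 := fun h0 => h (h0 ▸ M.rd_zero i)
  have hinv : φ⁻¹ ∈ M.W i := by
    by_contra hc
    exact hnu ((M.W i).mem_nonunits_iff_or.mpr (Or.inr hc))
  refine ⟨hinv, eq_inv_of_mul_eq_one_right ?_⟩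
  rw [← M.rd_mul hφ hinv, mul_inv_cancel₀ hne, M.rd_one]

/-- Each finite dimensional subspace has, for each choice of scalars, a basis of vectors whose
reductions are linearly independent. -/
def HasOrth : Prop :=
  ∀ (V : Submodule K F), Module.Finite K V → ∀ γ : ι → K, (∀ i, γ i ≠ 0) →
    ∃ (d : ℕ) (b : Module.Basis (Fin d) K V),
      (∀ l i, (b l : F) * (algebraMap K F (γ i))⁻¹ ∈ M.W i) ∧
      LinearIndependent k (fun l i => M.rd i ((b l : F) * (algebraMap K F (γ i))⁻¹))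

/-- Everything in sight is defined over a subfield on which the valuations are discrete. -/
def HasDescent : Prop :=
  ∀ S : Finset F, ∃ (F₀ : Subfield F) (ϖ : K), ϖ ≠ 0 ∧ ϖ ∈ M.A.nonunits ∧
    algebraMap K F ϖ ∈ F₀ ∧ ↑S ⊆ (F₀ : Set F) ∧ (∀ c : K, ∃ j : ℕ, c * ϖ ^ j ∈ M.A) ∧
    (∀ i, ∀ φ ∈ F₀, φ ∈ (M.W i).nonunits → φ * (algebraMap K F ϖ)⁻¹ ∈ M.W i) ∧
    ∀ B : Finset F, ↑B ⊆ (F₀ : Set F) → ∀ γ : ι → K, (∀ i, γ i ≠ 0) →
      (∀ i, algebraMap K F (γ i) ∈ F₀) → ∀ φ ∈ Submodule.span K (B : Set F),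
      (∀ i, φ * (algebraMap K F (γ i))⁻¹ ∈ M.W i) →
      ∀ e : ι → F, (∀ i, e i ∈ F₀ ∧ e i ∈ M.W i ∧
        M.rd i (φ * (algebraMap K F (γ i))⁻¹) = M.rd i (e i)) →
      ∃ φ₀ ∈ Submodule.span K (B : Set F), φ₀ ∈ F₀ ∧ ∀ i,
        φ₀ * (algebraMap K F (γ i))⁻¹ ∈ M.W i ∧
        M.rd i (φ₀ * (algebraMap K F (γ i))⁻¹) = M.rd i (e i)

end Model

end Fermat.Agent.KummerReduction
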