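import Fermat.Agent.KummerReduction.Operations
import Mathlib.RingTheory.Nullstellensatz

/-!
# A Kummer datum with trivial gluing comes from an `n`-th power

Successive approximation of an `n`-th root inside a fixed finite dimensional space of sections,
followed by the Nullstellensatz.
-/

set_option autoImplicit false

noncomputable section

open AlgebraicCurve WithZero

namespace Fermat.Agent.KummerReduction

section Algebra

variable {σ K F : Type} [Field K] [Field F] [Algebra K F]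

/-- Apply a linear form to the coefficients of a polynomial. -/
def coeffForm (L : F →ₗ[K] K) (p : MvPolynomial σ F) : MvPolynomial σ K :=
  ∑ μ ∈ p.support, MvPolynomial.monomial μ (L (p.coeff μ))

theorem eval_coeffForm (L : F →ₗ[K] K) (p : MvPolynomial σ F) (x : σ → K) :
    MvPolynomial.eval x (coeffForm L p) =
      L (MvPolynomial.eval (fun l => algebraMap K F (x l)) p) := by
  rw [coeffForm, map_sum]
  simp only [MvPolynomial.eval_monomial]
  rw [MvPolynomial.eval_eq, map_sum]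
  refine Finset.sum_congr rfl fun μ _ => ?_
  rw [Finsupp.prod, mul_comm (p.coeff μ)]
  have h : ∏ l ∈ μ.support, algebraMap K F (x l) ^ μ l =
      algebraMap K F (∏ l ∈ μ.support, x l ^ μ l) := by simp
  rw [h, ← Algebra.smul_def, map_smul, smul_eq_mul, mul_comm]

/-- Finitely many scalars have a common nonzero integral denominator. -/
theorem exists_mul_mem (A : ValuationSubring K) (T : Finset K) :
    ∃ c : K, c ≠ 0 ∧ c ∈ A ∧ ∀ a ∈ T, c * a ∈ A := by
  classical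
  induction T using Finset.induction_on with
  | empty => exact ⟨1, one_ne_zero, one_mem A, by simp⟩
  | insert a T _ ih =>
    obtain ⟨c, hc, hcA, hcT⟩ := ih
    by_cases ha : a ∈ A
    · exact ⟨c, hc, hcA, Finset.forall_mem_insert _ _ _ |>.mpr ⟨mul_mem hcA ha, hcT⟩⟩
    · have ha0 : a ≠ 0 := fun h => ha (h ▸ zero_mem A)
      have hinv : a⁻¹ ∈ A := (A.mem_or_inv_mem a).resolve_left ha
      refine ⟨c * a⁻¹, mul_ne_zero hc (inv_ne_zero ha0), mul_mem hcA hinv,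
        Finset.forall_mem_insert _ _ _ |>.mpr ⟨by rwa [mul_assoc, inv_mul_cancel₀ ha0, mul_one],
          fun b hb => ?_⟩⟩
      rw [mul_right_comm]
      exact mul_mem (hcT b hb) hinv

theorem exists_one_add_pow {W : ValuationSubring F} {t : F} (ht : t ∈ W) (n : ℕ) :
    ∃ Z ∈ W, (1 + t) ^ n = 1 + (n : F) * t + t ^ 2 * Z := by
  induction n with
  | zero => exact ⟨0, zero_mem W, by simp⟩
  | succ n ih =>
    obtain ⟨Z, hZ, h⟩ := ih
    refine ⟨Z * (1 + t) + n, add_mem (mul_mem hZ (add_mem (one_mem W) ht)) (natCast_mem W n), ?_⟩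
    rw [pow_succ, h]
    push_cast
    ring

end Algebra

variable {K F k G ι N : Type} [Field K] [Field F] [Field k] [Field G] [Algebra K F] [Algebra k G]
variable {M : Model K F k G ι} {Nd : Nodes k G ι N}

namespace Model

theorem pow_nonunit {ϖ : K} (hϖ : ϖ ∈ M.A.nonunits) {j : ℕ} (hj : j ≠ 0) (i : ι) :
    algebraMap K F ϖ ^ j ∈ M.W i ∧ M.rd i (algebraMap K F ϖ ^ j) = 0 := by
  have hA := M.A.nonunits_le hϖ
  have hmem : algebraMap K F ϖ ∈ M.W i := M.mem_W_algebraMap.mpr hA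
  refine ⟨pow_mem hmem j, ?_⟩
  rw [M.rd_pow hmem, M.rd_algebraMap i ⟨ϖ, hA⟩, (M.π_eq_zero _).mpr hϖ, map_zero, zero_pow hj]

theorem natCast_unit {n : ℕ} (hn : (n : k) ≠ 0) (i : ι) :
    (n : F) ∈ M.W i ∧ M.rd i (n : F) = n ∧ (n : F)⁻¹ ∈ M.W i ∧
      M.rd i (n : F)⁻¹ = (n : G)⁻¹ := by
  have hmem : (n : F) ∈ M.W i := natCast_mem _ n
  have hrd : M.rd i (n : F) = (n : G) := by
    rw [M.rd_of_mem hmem]
    exact map_natCast (M.red i) n
  have hne : M.rd i (n : F) ≠ 0 := by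
    rw [hrd, ← map_natCast (algebraMap k G)]
    exact fun h => hn ((map_eq_zero _).mp h)
  exact ⟨hmem, hrd, (M.rd_ne_zero_inv hmem hne).1, by rw [(M.rd_ne_zero_inv hmem hne).2, hrd]⟩

end Model

/-- Polynomials over an algebraically closed field with integral zeros modulo every power of a
nonunit `ϖ` have a common zero, when powers of `ϖ` absorb every scalar. -/
theorem exists_zero_of_approx [IsAlgClosed K] {d r : ℕ} (eqs : Fin r → MvPolynomial (Fin d) K)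
    (A : ValuationSubring K) {ϖ : K} (hϖ : ϖ ∈ A.nonunits)
    (harch : ∀ c : K, ∃ j : ℕ, c * ϖ ^ j ∈ A)
    (happrox : ∀ j : ℕ, ∃ y : Fin d → K, (∀ i, y i ∈ A) ∧
      ∀ l, ∃ a ∈ A, MvPolynomial.eval y (eqs l) = ϖ ^ (j + 1) * a) :
    ∃ y : Fin d → K, ∀ l, MvPolynomial.eval y (eqs l) = 0 := by
  classical
  by_contra hno
  have hzl : MvPolynomial.zeroLocus K (Ideal.span (Set.range eqs)) = ∅ := by
    refine Set.eq_empty_iff_forall_notMem.mpr fun y hy => hno ⟨y, fun l => ?_⟩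
    rw [MvPolynomial.mem_zeroLocus_iff] at hy
    rw [← MvPolynomial.aeval_eq_eval]
    exact hy (eqs l) (Ideal.subset_span ⟨l, rfl⟩)
  have htop : (Ideal.span (Set.range eqs)).radical = ⊤ := by
    rw [← MvPolynomial.vanishingIdeal_zeroLocus_eq_radical (K := K), hzl]
    exact MvPolynomial.vanishingIdeal_empty
  obtain ⟨g, hg⟩ := (Ideal.mem_span_range_iff_exists_fun).mp
    ((Ideal.eq_top_iff_one _).mp (Ideal.radical_eq_top.mp htop))
  obtain ⟨c₀, hc₀, -, hc₀T⟩ := exists_mul_mem A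
    (Finset.univ.biUnion fun l => (g l).support.image fun μ => (g l).coeff μ)
  obtain ⟨j₀, hj₀⟩ := harch c₀⁻¹
  obtain ⟨y, hyA, hvals⟩ := happrox j₀
  set z := ϖ ^ (j₀ + 1) with hz
  have hgA : ∀ l, c₀ * MvPolynomial.eval y (g l) ∈ A := by
    intro l
    rw [MvPolynomial.eval_eq, Finset.mul_sum]
    refine Subring.sum_mem A.toSubring fun μ hμ => ?_
    rw [← mul_assoc]
    exact mul_mem (hc₀T _ (Finset.mem_biUnion.mpr
      ⟨l, Finset.mem_univ l, Finset.mem_image_of_mem _ hμ⟩))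
      (prod_mem fun i _ => pow_mem (hyA i) _)
  choose a ha hav using hvals
  have h1 : c₀ = z * ∑ l, (c₀ * MvPolynomial.eval y (g l)) * a l := by
    have h := congrArg (MvPolynomial.eval y) hg
    simp only [map_sum, map_mul, map_one] at h
    conv_lhs => rw [← mul_one c₀, ← h, Finset.mul_sum]
    rw [Finset.mul_sum]
    exact Finset.sum_congr rfl fun l _ => by rw [hav l]; ring
  set T := ∑ l, (c₀ * MvPolynomial.eval y (g l)) * a l with hT
  have hTA : T ∈ A := Subring.sum_mem A.toSubring fun l _ => mul_mem (hgA l) (ha l)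
  have hone' : (1 : K) = ϖ * ((c₀⁻¹ * ϖ ^ j₀) * T) := by
    calc (1 : K) = c₀⁻¹ * c₀ := (inv_mul_cancel₀ hc₀).symm
      _ = c₀⁻¹ * (z * T) := by rw [← h1]
      _ = _ := by rw [hz, pow_succ]; ring
  have hnu : (1 : K) ∈ A.nonunits := by
    rw [hone', A.mem_nonunits_iff, map_mul]
    exact mul_lt_one_of_lt_of_le ((A.mem_nonunits_iff).mp hϖ)
      ((A.valuation_le_one_iff _).mpr (mul_mem hj₀ hTA))
  rw [A.mem_nonunits_iff, map_one] at hnu
  exact lt_irrefl _ hnu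

variable {n : ℕ} [NeZero n]

namespace Datum

variable (x : Datum M n)

/-- `s` is a section with reduction `1` and `n`-th power `1 / f` up to `ϖ ^ j`, defined over `F₀`. -/
structure IsApprox (P : PoleData M Nd) (m : ℕ) (F₀ : Subfield F) (ϖ : K) (j : ℕ) (s : F) :
    Prop where
  lattice : x.InLattice (P.sections x.f n m) s
  psi_eq : x.psi s = 1
  mem : s ∈ F₀
  err : ∀ i, (1 - s ^ n * x.f) * (algebraMap K F ϖ ^ j)⁻¹ ∈ M.W i

omit [NeZero n] in
theorem ne_zero_of_psi {s : F} {i : ι} (h : x.psi s i = 1) :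
    M.rd i (x.scaled i s) ≠ 0 ∧ s ≠ 0 := by
  have h' : M.rd i (x.scaled i s) ≠ 0 := left_ne_zero_of_mul_eq_one h
  exact ⟨h', fun h0 => h' (by simp [scaled, h0, M.rd_zero])⟩

/-- `sⁿ f` reduces to `1` at an approximation `s`. -/
theorem IsApprox.pow_mul_eq {P : PoleData M Nd} {m : ℕ} {F₀ : Subfield F} {ϖ : K} {j : ℕ} {s : F}
    (hs : x.IsApprox P m F₀ ϖ j s) (i : ι) :
    s ^ n * x.f ∈ M.W i ∧ M.rd i (s ^ n * x.f) = 1 := by
  refine ⟨x.pow_mul_mem_W hs.lattice i, ?_⟩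
  rw [x.psi_pow hs.lattice, hs.psi_eq]
  simp

/-- Two approximations differ by `ϖ ^ j`, with reduction the difference of their errors over `n`. -/
theorem rd_div_sub_one {P P' : PoleData M Nd} {m : ℕ} {F₀ : Subfield F} {ϖ : K} (hϖ0 : ϖ ≠ 0)
    (hn : (n : k) ≠ 0) {j : ℕ} {s u : F}
    (hs : x.IsApprox P m F₀ ϖ j s) (hu : x.IsApprox P' m F₀ ϖ j u) (i : ι) :
    (u * s⁻¹ - 1) * (algebraMap K F ϖ ^ j)⁻¹ ∈ M.W i ∧
      (n : G) * M.rd i ((u * s⁻¹ - 1) * (algebraMap K F ϖ ^ j)⁻¹) =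
        M.rd i ((1 - s ^ n * x.f) * (algebraMap K F ϖ ^ j)⁻¹) -
        M.rd i ((1 - u ^ n * x.f) * (algebraMap K F ϖ ^ j)⁻¹) := by
  set w := algebraMap K F ϖ ^ j with hwdef
  have hw : w ≠ 0 := pow_ne_zero _ (by simpa using hϖ0)
  set e := (1 - s ^ n * x.f) * w⁻¹ with he
  set e' := (1 - u ^ n * x.f) * w⁻¹ with he'
  have hsi := x.ne_zero_of_psi (congrFun hs.psi_eq i)
  have hs0 : s ≠ 0 := hsi.2
  have hγ0 : ∀ i, algebraMap K F (x.γ i) ≠ 0 := fun i => by simpa using x.γ_ne i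
  set q := u * s⁻¹ with hq
  have hqs : q = x.scaled i u * (x.scaled i s)⁻¹ := by
    have := hγ0 i
    rw [hq, scaled, scaled, mul_inv, inv_inv]
    field_simp
  obtain ⟨hinv, hinvr⟩ := M.rd_ne_zero_inv (hs.lattice.2 i) hsi.1
  have hqW : q ∈ M.W i := hqs ▸ mul_mem (hu.lattice.2 i) hinv
  have hq1 : M.rd i q = 1 := by
    have h1 : M.rd i (x.scaled i u) * x.a i = M.rd i (x.scaled i s) * x.a i :=
      (congrFun hu.psi_eq i).trans (congrFun hs.psi_eq i).symm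
    rw [hqs, M.rd_mul (hu.lattice.2 i) hinv, hinvr, mul_right_cancel₀ (x.a_ne i) h1,
      mul_inv_cancel₀ hsi.1]
  set σ := (∑ l ∈ Finset.range n, q ^ l) * (s ^ n * x.f) with hσdef
  have hsf := IsApprox.pow_mul_eq x hs i
  have hsumW : (∑ l ∈ Finset.range n, q ^ l) ∈ M.W i :=
    Subring.sum_mem (M.W i).toSubring fun l _ => pow_mem hqW l
  have hσW : σ ∈ M.W i := mul_mem hsumW hsf.1
  have hσr : M.rd i σ = (n : G) := by
    rw [hσdef, M.rd_mul hsumW hsf.1, hsf.2, mul_one,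
      M.rd_sum _ fun l _ => pow_mem hqW l]
    simp [M.rd_pow hqW, hq1]
  have hn' : (n : G) ≠ 0 := by
    rw [← map_natCast (algebraMap k G)]; exact fun h => hn ((map_eq_zero _).mp h)
  obtain ⟨hσinv, hσinvr⟩ := M.rd_ne_zero_inv hσW (hσr ▸ hn')
  have hσ0 : σ ≠ 0 := fun h => hn' (by rw [← hσr, h, M.rd_zero])
  have key : (q - 1) * σ = (e - e') * w := by
    rw [hσdef, ← mul_assoc, mul_comm (q - 1), geom_sum_mul,
      hq, mul_pow, inv_pow, he, he']
    field_simp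
    ring
  have heq : (q - 1) * w⁻¹ = (e - e') * σ⁻¹ := by
    field_simp
    linear_combination key
  refine ⟨heq ▸ mul_mem (sub_mem (hs.err i) (hu.err i)) hσinv, ?_⟩
  rw [heq, M.rd_mul (sub_mem (hs.err i) (hu.err i)) hσinv, M.rd_sub (hs.err i) (hu.err i),
    hσinvr, hσr, mul_comm, mul_assoc, inv_mul_cancel₀ hn', mul_one]

/-- The error of a section lies in the Riemann–Roch space of `n m • H`. -/
theorem err_mem_rr {m : ℕ} (R : PoleData M Nd) {t : F}
    (ht : x.InLattice (R.sections x.f n m) t) (ϖ : K) (j : ℕ) :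
    (1 - t ^ n * x.f) * (algebraMap K F ϖ ^ j)⁻¹ ∈ riemannRochSpace ((n * m) • R.H) := by
  have h : (1 - t ^ n * x.f) * (algebraMap K F ϖ ^ j)⁻¹ = (ϖ ^ j)⁻¹ • (1 - t ^ n * x.f) := by
    rw [Algebra.smul_def, map_inv₀, map_pow, mul_comm]
  rw [h]
  refine Submodule.smul_mem _ _ (sub_mem (one_mem_rr (nsmul_nonneg R.H_nonneg _)) ?_)
  rw [mul_nsmul']
  exact ht.1

/-- Where the polar divisors of two pole data are disjoint, a second approximation bounds the poles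
of the reduction of the error by `m • H`. -/
theorem rd_err_mem {P P' Q : PoleData M Nd} (hP : P.H ≤ Q.H) (hP' : P'.H ≤ Q.H)
    (hnn : ∀ i, 0 ≤ P.HY i) (hdisj : ∀ i v, P.HY i v = 0 ∨ P'.HY i v = 0)
    (hle : ∀ i, Q.HY i ≤ P.HY i + P'.HY i) (hn : (n : k) ≠ 0) {m : ℕ} {F₀ : Subfield F} {ϖ : K}
    (hϖ0 : ϖ ≠ 0) {j : ℕ} {s u : F}
    (hs : x.IsApprox P m F₀ ϖ j s) (hu : x.IsApprox P' m F₀ ϖ j u) (i : ι) :
    M.rd i ((1 - s ^ n * x.f) * (algebraMap K F ϖ ^ j)⁻¹) ∈ riemannRochSpace (m • P.HY i) := by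
  set w := algebraMap K F ϖ ^ j with hwdef
  have hw : w ≠ 0 := pow_ne_zero _ (by simpa using hϖ0)
  set e := (1 - s ^ n * x.f) * w⁻¹ with he
  set e' := (1 - u ^ n * x.f) * w⁻¹ with he'
  have hp := x.rd_div_sub_one hϖ0 hn hs hu
  have hγ0 : ∀ i, algebraMap K F (x.γ i) ≠ 0 := fun i => by simpa using x.γ_ne i
  have hs0 : s ≠ 0 := (x.ne_zero_of_psi (congrFun hs.psi_eq i)).2
  set Δ := (ϖ ^ j)⁻¹ • (u - s) with hΔdef
  have hΔ : x.InLattice (Q.sections x.f n m) Δ ∧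
      ∀ i, x.psi Δ i = M.rd i ((u * s⁻¹ - 1) * w⁻¹) := by
    have hsc : ∀ i, x.scaled i Δ = (u * s⁻¹ - 1) * w⁻¹ * x.scaled i s := by
      intro i
      have := hγ0 i
      simp only [scaled, hΔdef, Algebra.smul_def, map_inv₀, map_pow]
      rw [← hwdef]
      field_simp
    refine ⟨⟨Submodule.smul_mem _ _ (sub_mem
      (kummerSpace_mono (nsmul_le_nsmul_right hP' m) hu.lattice.1)
      (kummerSpace_mono (nsmul_le_nsmul_right hP m) hs.lattice.1)), fun i =>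
        hsc i ▸ mul_mem (hp i).1 (hs.lattice.2 i)⟩, fun i => ?_⟩
    have h1 : M.rd i (x.scaled i s) * x.a i = 1 := congrFun hs.psi_eq i
    rw [psi, hsc, M.rd_mul (hp i).1 (hs.lattice.2 i), mul_assoc, h1, mul_one]
  intro v
  rcases hdisj i v with h0 | h0
  · have h := P.reg (n * m) e (x.err_mem_rr P hs.lattice ϖ j) hs.err i v
    rw [Finsupp.smul_apply, h0, smul_zero] at h ⊢
    exact h
  · have hv : (0 : ℤ) ≤ P.HY i v := Finsupp.le_def.mp (hnn i) v
    have h2 : v.adicValuation (M.rd i e') ≤ exp ((m • P.HY i) v) := by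
      refine (P'.reg (n * m) e' (x.err_mem_rr P' hu.lattice ϖ j) hu.err i v).trans (exp_le_exp.mpr ?_)
      rw [Finsupp.smul_apply, Finsupp.smul_apply, h0, smul_zero]
      exact nsmul_nonneg hv m
    have h3 : v.adicValuation ((n : G) * M.rd i ((u * s⁻¹ - 1) * w⁻¹)) ≤
        exp ((m • P.HY i) v) := by
      rw [map_mul, ← map_natCast (algebraMap k G)]
      refine (mul_le_of_le_one_left' (v.adicValuation_algebraMap_le_one _)).trans ?_
      rw [← hΔ.2 i]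
      refine (Q.psi_mem_rr x hΔ.1 i v).trans (exp_le_exp.mpr ?_)
      rw [Finsupp.smul_apply, Finsupp.smul_apply]
      refine nsmul_le_nsmul_right ?_ m
      simpa [h0] using Finsupp.le_def.mp (hle i) v
    have hdec : M.rd i e = M.rd i e' + (n : G) * M.rd i ((u * s⁻¹ - 1) * w⁻¹) := by
      rw [(hp i).2]; ring
    rw [hdec]
    exact (Valuation.map_add _ _ _).trans (max_le h2 h3)

/-- Adding `ϖ ^ j φ` improves an approximation when `n φ / s` reduces to the error. -/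
theorem IsApprox.add {P : PoleData M Nd} (hn : (n : k) ≠ 0) {m : ℕ} {F₀ : Subfield F} {ϖ : K}
    (hϖ0 : ϖ ≠ 0) (hϖ : ϖ ∈ M.A.nonunits) (hϖF : algebraMap K F ϖ ∈ F₀) (hf : x.f ∈ F₀)
    (hdiv : ∀ i, ∀ φ ∈ F₀, φ ∈ (M.W i).nonunits → φ * (algebraMap K F ϖ)⁻¹ ∈ M.W i)
    {j : ℕ} (hj : j ≠ 0) {s φ₀ : F} (hs : x.IsApprox P m F₀ ϖ j s)
    (hφ₀P : φ₀ ∈ P.sections x.f n m) (hφ₀F : φ₀ ∈ F₀) (hφ₀ : ∀ i, x.scaled i φ₀ ∈ M.W i ∧
      M.rd i (x.scaled i φ₀) = M.rd i ((n : F)⁻¹ * ((1 - s ^ n * x.f) * (algebraMap K F ϖ ^ j)⁻¹) * x.scaled i s)) :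
    x.IsApprox P m F₀ ϖ (j + 1) (s + ϖ ^ j • φ₀) := by
  set w := algebraMap K F ϖ ^ j with hwdef
  have hw : w ≠ 0 := pow_ne_zero _ (by simpa using hϖ0)
  have hwW : ∀ i, w ∈ M.W i ∧ M.rd i w = 0 := fun i => Model.pow_nonunit (M := M) hϖ hj i
  set e := (1 - s ^ n * x.f) * w⁻¹ with he
  have hγ0 : ∀ i, algebraMap K F (x.γ i) ≠ 0 := fun i => by simpa using x.γ_ne i
  have hsi := fun i => x.ne_zero_of_psi (congrFun hs.psi_eq i)
  have hsc : ∀ i, x.scaled i (s + ϖ ^ j • φ₀) = x.scaled i s + w * x.scaled i φ₀ := fun i => by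
    rw [scaled_add, scaled_smul, Algebra.smul_def, map_pow]
  refine ⟨⟨add_mem hs.lattice.1 (Submodule.smul_mem _ _ hφ₀P), fun i => ?_⟩, ?_, ?_, fun i => ?_⟩
  · rw [hsc]
    exact add_mem (hs.lattice.2 i) (mul_mem (hwW i).1 (hφ₀ i).1)
  · funext i
    rw [psi, hsc, M.rd_add (hs.lattice.2 i) (mul_mem (hwW i).1 (hφ₀ i).1),
      M.rd_mul (hwW i).1 (hφ₀ i).1, (hwW i).2, zero_mul, add_zero]
    exact congrFun hs.psi_eq i
  · rw [Algebra.smul_def, map_pow]
    exact add_mem hs.mem (mul_mem (pow_mem hϖF j) hφ₀F)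
  · obtain ⟨hinv, hinvr⟩ := M.rd_ne_zero_inv (hs.lattice.2 i) (hsi i).1
    have hs0 : s ≠ 0 := (hsi i).2
    have hE : (1 - e * w) ∈ M.W i ∧ M.rd i (1 - e * w) = 1 := by
      rw [show 1 - e * w = s ^ n * x.f by rw [he, mul_assoc, inv_mul_cancel₀ hw, mul_one]; ring]
      exact IsApprox.pow_mul_eq x hs i
    set τ := x.scaled i φ₀ * (x.scaled i s)⁻¹ with hτdef
    have hτW : τ ∈ M.W i := mul_mem (hφ₀ i).1 hinv
    have hτr : (n : G) * M.rd i τ = M.rd i e := by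
      obtain ⟨-, -, hi, hr⟩ := Model.natCast_unit (M := M) hn i
      have hn' : (n : G) ≠ 0 := by
        rw [← map_natCast (algebraMap k G)]; exact fun h => hn ((map_eq_zero _).mp h)
      have h2 : M.rd i (x.scaled i φ₀) =
          (n : G)⁻¹ * M.rd i e * M.rd i (x.scaled i s) := by
        refine ((hφ₀ i).2).trans ?_
        rw [M.rd_mul (mul_mem hi (hs.err i)) (hs.lattice.2 i), M.rd_mul hi (hs.err i), hr]
      have := (hsi i).1
      rw [hτdef, M.rd_mul (hφ₀ i).1 hinv, h2, hinvr]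
      field_simp
    obtain ⟨Z, hZ, hbin⟩ := exists_one_add_pow (mul_mem (hwW i).1 hτW) n
    have hs' : s + ϖ ^ j • φ₀ = s * (1 + w * τ) := by
      have := hγ0 i
      rw [Algebra.smul_def, map_pow, hτdef, scaled, scaled, ← hwdef]
      field_simp
    set e₁ := e - (1 - e * w) * ((n : F) * τ + w * (τ ^ 2 * Z)) with he₁
    have hsn : s ^ n * x.f = 1 - e * w := by
      rw [he, mul_assoc, inv_mul_cancel₀ hw, mul_one]; ring
    have herr₁ : 1 - (s + ϖ ^ j • φ₀) ^ n * x.f = e₁ * w := by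
      rw [hs', mul_pow, hbin, mul_right_comm, hsn, he₁]
      ring
    have hinner : (n : F) * τ + w * (τ ^ 2 * Z) ∈ M.W i :=
      add_mem (mul_mem (natCast_mem _ n) hτW) (mul_mem (hwW i).1 (mul_mem (pow_mem hτW 2) hZ))
    have he₁W : e₁ ∈ M.W i := sub_mem (hs.err i) (mul_mem hE.1 hinner)
    have he₁r : M.rd i e₁ = 0 := by
      rw [he₁, M.rd_sub (hs.err i) (mul_mem hE.1 hinner), M.rd_mul hE.1 hinner, hE.2,
        M.rd_add (mul_mem (natCast_mem _ n) hτW) (mul_mem (hwW i).1 (mul_mem (pow_mem hτW 2) hZ)),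
        M.rd_mul (natCast_mem _ n) hτW, M.rd_mul (hwW i).1 (mul_mem (pow_mem hτW 2) hZ),
        (hwW i).2, (Model.natCast_unit (M := M) hn i).2.1, hτr]
      ring
    have he₁F : e₁ ∈ F₀ := by
      have h : e₁ = (1 - (s + ϖ ^ j • φ₀) ^ n * x.f) * w⁻¹ := by
        rw [herr₁, mul_assoc, mul_inv_cancel₀ hw, mul_one]
      rw [h, Algebra.smul_def, map_pow]
      exact mul_mem (sub_mem (one_mem F₀)
        (mul_mem (pow_mem (add_mem hs.mem (mul_mem (pow_mem hϖF j) hφ₀F)) n) hf))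
        (inv_mem (pow_mem hϖF j))
    have hfin := hdiv i e₁ he₁F ((M.mem_nonunits_iff_rd he₁W).mpr he₁r)
    rw [herr₁, pow_succ, ← hwdef, mul_inv, ← mul_assoc, mul_assoc e₁, mul_inv_cancel₀ hw, mul_one]
    exact hfin

/-- One step of the successive approximation of an `n`-th root of `1 / f`. -/
theorem step {P P' Q : PoleData M Nd} (hP : P.H ≤ Q.H) (hP' : P'.H ≤ Q.H)
    (hnn : ∀ i, 0 ≤ P.HY i) (hdisj : ∀ i v, P.HY i v = 0 ∨ P'.HY i v = 0)
    (hle : ∀ i, Q.HY i ≤ P.HY i + P'.HY i) (hn : (n : k) ≠ 0) {m : ℕ}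
    (himg : P.glued (fun _ => 1) m ≤ x.img (P.sections x.f n m))
    {F₀ : Subfield F} {ϖ : K} (hϖ0 : ϖ ≠ 0) (hϖ : ϖ ∈ M.A.nonunits)
    (hϖF : algebraMap K F ϖ ∈ F₀) (hf : x.f ∈ F₀) (hγ : ∀ i, algebraMap K F (x.γ i) ∈ F₀)
    (hdiv : ∀ i, ∀ φ ∈ F₀, φ ∈ (M.W i).nonunits → φ * (algebraMap K F ϖ)⁻¹ ∈ M.W i)
    {B : Finset F} (hB : Submodule.span K (B : Set F) = P.sections x.f n m)
    (hlift : ∀ φ ∈ Submodule.span K (B : Set F),
      (∀ i, φ * (algebraMap K F (x.γ i))⁻¹ ∈ M.W i) →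
      ∀ e : ι → F, (∀ i, e i ∈ F₀ ∧ e i ∈ M.W i ∧
        M.rd i (φ * (algebraMap K F (x.γ i))⁻¹) = M.rd i (e i)) →
      ∃ φ₀ ∈ Submodule.span K (B : Set F), φ₀ ∈ F₀ ∧ ∀ i,
        φ₀ * (algebraMap K F (x.γ i))⁻¹ ∈ M.W i ∧
        M.rd i (φ₀ * (algebraMap K F (x.γ i))⁻¹) = M.rd i (e i))
    {j : ℕ} (hj : j ≠ 0) {s u : F} (hs : x.IsApprox P m F₀ ϖ j s)
    (hu : x.IsApprox P' m F₀ ϖ j u) :
    ∃ s', x.IsApprox P m F₀ ϖ (j + 1) s' := by
  set e := (1 - s ^ n * x.f) * (algebraMap K F ϖ ^ j)⁻¹ with he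
  have hbound := x.rd_err_mem hP hP' hnn hdisj hle hn hϖ0 hs hu
  have hglue := P.glue (n * m) e (x.err_mem_rr P hs.lattice ϖ j) hs.err
  -- the correction and its lift
  set t : ι → G := (n : k)⁻¹ • fun i => M.rd i e with htdef
  have ht : t ∈ P.glued (fun _ => 1) m := by
    refine Submodule.smul_mem _ _ ⟨hbound, fun r => ?_⟩
    rw [one_mul]
    exact (hglue r).symm
  obtain ⟨φ, hφ, hψ⟩ := himg ht
  have hEmem : ∀ i, (n : F)⁻¹ * e * x.scaled i s ∈ F₀ := fun i =>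
    mul_mem (mul_mem (inv_mem (natCast_mem F₀ n))
      (mul_mem (sub_mem (one_mem F₀) (mul_mem (pow_mem hs.mem n) hf))
        (inv_mem (pow_mem hϖF j)))) (mul_mem hs.mem (inv_mem (hγ i)))
  have hErd : ∀ i, M.rd i ((n : F)⁻¹ * e * x.scaled i s) * x.a i = t i := fun i => by
    obtain ⟨-, -, hi, hr⟩ := Model.natCast_unit (M := M) hn i
    have h1 : M.rd i (x.scaled i s) * x.a i = 1 := congrFun hs.psi_eq i
    rw [M.rd_mul (mul_mem hi (hs.err i)) (hs.lattice.2 i), M.rd_mul hi (hs.err i), mul_assoc, h1,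
      mul_one, hr, htdef, Pi.smul_apply, Algebra.smul_def, map_inv₀, map_natCast]
  obtain ⟨φ₀, hφ₀B, hφ₀F, hφ₀'⟩ := hlift φ (hB ▸ hφ.1) hφ.2
    (fun i => (n : F)⁻¹ * e * x.scaled i s) (fun i => ⟨hEmem i,
      mul_mem (mul_mem (Model.natCast_unit (M := M) hn i).2.2.1 (hs.err i)) (hs.lattice.2 i),
      mul_right_cancel₀ (x.a_ne i) ((congrFun hψ i).trans (hErd i).symm)⟩)
  exact ⟨_, IsApprox.add x hn hϖ0 hϖ hϖF hf hdiv hj hs (hB ▸ hφ₀B) hφ₀F hφ₀'⟩

/-- Approximate `n`-th roots of `1 / f` of all orders in a finite dimensional space of sections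
give an `n`-th root. -/
theorem exists_root_of_approx [IsAlgClosed K] [Finite ι] (horth : M.HasOrth) {P : PoleData M Nd}
    {m : ℕ} [Module.Finite K (P.sections x.f n m)] [Module.Finite K (P.sections (1 : F) n (n * m))]
    {F₀ : Subfield F} {ϖ : K} (hϖ0 : ϖ ≠ 0) (hϖ : ϖ ∈ M.A.nonunits)
    (harch : ∀ c : K, ∃ j : ℕ, c * ϖ ^ j ∈ M.A)
    (happrox : ∀ j : ℕ, ∃ s, x.IsApprox P m F₀ ϖ (j + 1) s) :
    ∃ s : F, s ^ n * x.f = 1 := by
  obtain ⟨d, b, hb, hbli⟩ := x.orth_basis horth (P.sections x.f n m)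
  set L := P.sections (1 : F) n (n * m) with hL
  obtain ⟨r, c, hcb, hcli⟩ := (Datum.one M n).orth_basis horth L
  have herrL : ∀ t ∈ P.sections x.f n m, 1 - t ^ n * x.f ∈ L := by
    intro t ht
    rw [hL, PoleData.sections, kummerSpace_one]
    refine sub_mem (one_mem_rr (nsmul_nonneg P.H_nonneg _)) ?_
    rw [mul_nsmul']
    exact ht
  choose ext hext using fun l : Fin r => LinearMap.exists_extend (c.coord l)
  set S : MvPolynomial (Fin d) F := ∑ l, MvPolynomial.X l * MvPolynomial.C (b l : F) with hSdef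
  set eqs : Fin r → MvPolynomial (Fin d) K := fun l =>
    coeffForm (ext l) (1 - S ^ n * MvPolynomial.C x.f) with heqs
  have heval : ∀ (y : Fin d → K) (l : Fin r), MvPolynomial.eval y (eqs l) =
      ext l (1 - (∑ i, y i • (b i : F)) ^ n * x.f) := by
    intro y l
    simp only [heqs, eval_coeffForm, map_sub, map_one, map_mul, map_pow, hSdef, map_sum,
      MvPolynomial.eval_X, MvPolynomial.eval_C, Algebra.smul_def]
  obtain ⟨y, hy⟩ := exists_zero_of_approx eqs M.A hϖ harch fun j => by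
    obtain ⟨s, hs⟩ := happrox j
    refine ⟨fun i => b.repr ⟨s, hs.lattice.1⟩ i,
      fun i => x.coord_mem b hb hbli hs.lattice i, fun l => ?_⟩
    have hsum : ∑ i, b.repr ⟨s, hs.lattice.1⟩ i • (b i : F) = s := by
      have h := congrArg Subtype.val (b.sum_repr ⟨s, hs.lattice.1⟩)
      simp only [Submodule.coe_sum, Submodule.coe_smul] at h
      exact h
    have hz0 : ϖ ^ (j + 1) ≠ 0 := pow_ne_zero _ hϖ0
    have hL2 : (Datum.one M n).InLattice L ((ϖ ^ (j + 1))⁻¹ • (1 - s ^ n * x.f)) := by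
      refine ⟨Submodule.smul_mem _ _ (herrL s hs.lattice.1), fun i => ?_⟩
      have h := hs.err i
      simp only [Datum.scaled, Datum.one, map_one, inv_one, mul_one, Algebra.smul_def, map_inv₀,
        map_pow]
      rwa [mul_comm]
    refine ⟨_, (Datum.one M n).coord_mem c hcb hcli hL2 l, ?_⟩
    rw [heval, hsum, ← Module.Basis.coord_apply, ← hext l, LinearMap.comp_apply,
      Submodule.subtype_apply, map_smul, smul_eq_mul, ← mul_assoc, mul_inv_cancel₀ hz0, one_mul]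
  set t : P.sections x.f n m := ∑ i, y i • b i with ht
  refine ⟨(t : F), ?_⟩
  have h0 : (⟨_, herrL _ t.2⟩ : L) = 0 := by
    refine c.ext_elem fun l => ?_
    have h := hy l
    rw [heval] at h
    rw [map_zero, Finsupp.coe_zero, Pi.zero_apply, ← Module.Basis.coord_apply,
      ← hext l, LinearMap.comp_apply, Submodule.subtype_apply]
    simpa [ht, Submodule.coe_sum] using h
  have := congrArg Subtype.val h0
  exact (sub_eq_zero.mp this).symm

/-- An element of the lattice over `F₀` with reduction `1` is an approximation of order one. -/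
theorem isApprox_one {F₀ : Subfield F} {ϖ : K} (hfF : x.f ∈ F₀)
    (hdiv : ∀ i, ∀ φ ∈ F₀, φ ∈ (M.W i).nonunits → φ * (algebraMap K F ϖ)⁻¹ ∈ M.W i)
    {m : ℕ} (R : PoleData M Nd) {s : F} (hl : x.InLattice (R.sections x.f n m) s)
    (hψ : x.psi s = 1) (hF : s ∈ F₀) : x.IsApprox R m F₀ ϖ 1 s := by
  refine ⟨hl, hψ, hF, fun i => ?_⟩
  have hw1 : (1 : F) - s ^ n * x.f ∈ M.W i := sub_mem (one_mem _) (x.pow_mul_mem_W hl i)
  rw [pow_one]
  refine hdiv i _ (sub_mem (one_mem F₀) (mul_mem (pow_mem hF n) hfF))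
    ((M.mem_nonunits_iff_rd hw1).mpr ?_)
  rw [M.rd_sub (one_mem _) (x.pow_mul_mem_W hl i), M.rd_one, x.psi_pow hl, hψ]
  simp

/-- A Kummer datum with trivial gluing comes from an `n`-th power. -/
theorem exists_root [IsAlgClosed K] [Fintype ι] [Nonempty ι] (horth : M.HasOrth)
    (hdesc : M.HasDescent) (hn : (n : k) ≠ 0) {P P' Q : PoleData M Nd} (hP : P.H ≤ Q.H)
    (hP' : P'.H ≤ Q.H) (hnn : ∀ i, 0 ≤ P.HY i) (hnn' : ∀ i, 0 ≤ P'.HY i)
    (hdisj : ∀ i v, P.HY i v = 0 ∨ P'.HY i v = 0) (hle : ∀ i, Q.HY i ≤ P.HY i + P'.HY i)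
    (hc : P.Count x.f n) (hc' : P'.Count x.f n) (hc1 : P.Count (1 : F) n)
    (htriv : P.IsGlue x fun _ => 1) :
    ∃ s : F, s ^ n * x.f = 1 := by
  classical
  obtain ⟨m₂, hm₂⟩ := hc1
  obtain ⟨ζ, hζ, m₀, hm₀⟩ := P.exists_isGlue horth x hc
  obtain rfl := PoleData.IsGlue.eq horth hc hζ htriv
  obtain ⟨ξ, hξ, m₁, hm₁⟩ := P'.exists_isGlue horth x hc'
  obtain rfl := PoleData.IsGlue.eq_of_le horth hP hP' hc hc' hζ hξ
  obtain ⟨a₀, ha₀⟩ := hc
  obtain ⟨a₁, ha₁⟩ := hc'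
  set m := max (max m₀ m₁) (max m₂ (max a₀ a₁)) with hm
  have : Module.Finite K (P.sections x.f n m) := (ha₀ m (by omega)).1
  have : Module.Finite K (P'.sections x.f n m) := (ha₁ m (by omega)).1
  have hn1 : m ≤ n * m := Nat.le_mul_of_pos_left m (NeZero.pos n)
  have : Module.Finite K (P.sections (1 : F) n (n * m)) := (hm₂ (n * m) (by omega)).1
  have hone : ∀ R : PoleData M Nd, (∀ i, 0 ≤ R.HY i) →
      (1 : ι → G) ∈ R.glued (fun _ => 1) m := fun R hR =>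
    ⟨fun i => one_mem_rr (nsmul_nonneg (hR i) m), fun r => by simp [Nd.val_one]⟩
  obtain ⟨s₀, hs₀, hψ₀⟩ : (1 : ι → G) ∈ x.img (P.sections x.f n m) := by
    rw [(hm₀ m (by omega)).1]; exact hone P hnn
  obtain ⟨u₀, hu₀, hψu⟩ : (1 : ι → G) ∈ x.img (P'.sections x.f n m) := by
    rw [(hm₁ m (by omega)).1]; exact hone P' hnn'
  obtain ⟨B, hB⟩ := (Module.Finite.iff_fg.mp ‹Module.Finite K (P.sections x.f n m)›)
  obtain ⟨B', hB'⟩ := (Module.Finite.iff_fg.mp ‹Module.Finite K (P'.sections x.f n m)›)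
  obtain ⟨F₀, ϖ, hϖ0, hϖ, hϖF, hS, harch, hdiv, hlift⟩ :=
    hdesc (B ∪ B' ∪ {s₀, u₀, x.f} ∪ Finset.univ.image fun i => algebraMap K F (x.γ i))
  simp only [Finset.coe_union, Set.union_subset_iff, Finset.coe_insert, Finset.coe_singleton,
    Finset.coe_image, Finset.coe_univ, Set.image_univ, Set.insert_subset_iff,
    Set.singleton_subset_iff] at hS
  obtain ⟨⟨⟨hBF, hB'F⟩, hs₀F, hu₀F, hfF⟩, hγF⟩ := hS
  have hγ' : ∀ i, algebraMap K F (x.γ i) ∈ F₀ := fun i => hγF ⟨i, rfl⟩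
  have hdisj' : ∀ i v, P'.HY i v = 0 ∨ P.HY i v = 0 := fun i v => (hdisj i v).symm
  have hle' : ∀ i, Q.HY i ≤ P'.HY i + P.HY i := fun i => by rw [add_comm]; exact hle i
  have happrox : ∀ j : ℕ, ∃ s u, x.IsApprox P m F₀ ϖ (j + 1) s ∧
      x.IsApprox P' m F₀ ϖ (j + 1) u := by
    intro j
    induction j with
    | zero => exact ⟨s₀, u₀, x.isApprox_one hfF hdiv P hs₀ hψ₀ hs₀F, x.isApprox_one hfF hdiv P' hu₀ hψu hu₀F⟩
    | succ j ih =>
      obtain ⟨s, u, hs, hu⟩ := ih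
      obtain ⟨s', hs'⟩ := x.step hP hP' hnn hdisj hle hn (hm₀ m (by omega)).1.ge hϖ0 hϖ hϖF hfF
        hγ' hdiv hB (hlift B hBF x.γ x.γ_ne hγ') j.succ_ne_zero hs hu
      obtain ⟨u', hu'⟩ := x.step hP' hP hnn' hdisj' hle' hn (hm₁ m (by omega)).1.ge hϖ0 hϖ hϖF hfF
        hγ' hdiv hB' (hlift B' hB'F x.γ x.γ_ne hγ') j.succ_ne_zero hu hs
      exact ⟨s', u', hs', hu'⟩
  exact x.exists_root_of_approx horth hϖ0 hϖ harch fun j =>
    (happrox j).imp fun s ⟨_, hs, _⟩ => hs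

end Datum

end Fermat.Agent.KummerReduction
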