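import Fermat.Prelude.Def_AlgebraicCurve_Repartitions

/-!
# Riemann–Roch spaces twisted by an `n`-th root

For `f` and `n ≠ 0`, `kummerSpace f n E` is the space of `φ` with `φ ^ n * f ∈ L(n • E)`, that is,
`L(E + D)` when `div f = n • D`, written without mentioning `D`.
-/

set_option autoImplicit false

noncomputable section

open AlgebraicCurve WithZero

namespace Fermat.Agent.KummerReduction

variable {K F : Type} [Field K] [Field F] [Algebra K F]

theorem adicValuation_exp_nsmul (E : Divisor K F) (n : ℕ) (v : Place K F) :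
    exp ((n • E) v) = (exp (E v) : ℤᵐ⁰) ^ n := by
  rw [← exp_nsmul]; rfl

theorem mem_rr_iff {E : Divisor K F} {φ : F} :
    φ ∈ riemannRochSpace E ↔ ∀ v : Place K F, v.adicValuation φ ≤ exp (E v) := Iff.rfl

/-- `φ ^ n * f ∈ L(n • E)`, as a subspace. -/
def kummerSpace (f : F) (n : ℕ) [NeZero n] (E : Divisor K F) : Submodule K F where
  carrier := {φ | φ ^ n * f ∈ riemannRochSpace (n • E)}
  zero_mem' := by simp [NeZero.ne n]
  add_mem' := by
    intro φ ψ hφ hψ
    rw [Set.mem_ofPred_eq, mem_rr_iff] at hφ hψ ⊢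
    intro v
    rw [map_mul, map_pow]
    rcases le_max_iff.mp (Valuation.map_add v.adicValuation φ ψ) with h | h
    · refine le_trans (mul_le_mul_left ?_ _) (by simpa [map_mul, map_pow] using hφ v)
      exact pow_le_pow_left₀ zero_le h n
    · refine le_trans (mul_le_mul_left ?_ _) (by simpa [map_mul, map_pow] using hψ v)
      exact pow_le_pow_left₀ zero_le h n
  smul_mem' := by
    intro c φ hφ
    show (c • φ) ^ n * f ∈ riemannRochSpace (n • E)
    rw [smul_pow, smul_mul_assoc]
    exact Submodule.smul_mem _ _ hφ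

variable {n : ℕ} [NeZero n]

/-- Membership in a Kummer space. -/
theorem mem_kummerSpace {f φ : F} {E : Divisor K F} :
    φ ∈ kummerSpace f n E ↔ φ ^ n * f ∈ riemannRochSpace (n • E) := Iff.rfl

/-- Riemann–Roch spaces are monotone. -/
theorem rr_mono {E E' : Divisor K F} (h : E ≤ E') :
    riemannRochSpace E ≤ riemannRochSpace E' := fun _ hφ v =>
  (hφ v).trans (exp_le_exp.mpr (Finsupp.le_def.mp h v))

/-- Products in Riemann–Roch spaces. -/
theorem mul_mem_rr {E E' : Divisor K F} {φ ψ : F} (hφ : φ ∈ riemannRochSpace E)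
    (hψ : ψ ∈ riemannRochSpace E') : φ * ψ ∈ riemannRochSpace (E + E') := by
  intro v
  rw [map_mul, Finsupp.add_apply, exp_add]
  exact mul_le_mul' (hφ v) (hψ v)

/-- Constants lie in effective Riemann–Roch spaces. -/
theorem one_mem_rr {E : Divisor K F} (hE : 0 ≤ E) : (1 : F) ∈ riemannRochSpace E := by
  intro v
  rw [map_one, ← exp_zero, exp_le_exp]
  exact Finsupp.le_def.mp hE v

/-- An `n`-th root of a section of `n • E` is a section of `E`. -/
theorem mem_rr_of_pow_mem {E : Divisor K F} {φ : F} (h : φ ^ n ∈ riemannRochSpace (n • E)) :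
    φ ∈ riemannRochSpace E := by
  intro v
  have h' := h v
  rw [map_pow, adicValuation_exp_nsmul] at h'
  exact (pow_le_pow_iff_left₀ zero_le zero_le (NeZero.ne n)).mp h'

/-- For `f = 1` the Kummer space is the Riemann–Roch space. -/
theorem kummerSpace_one (E : Divisor K F) : kummerSpace (1 : F) n E = riemannRochSpace E := by
  ext φ
  rw [mem_kummerSpace, mul_one]
  refine ⟨mem_rr_of_pow_mem, fun h v => ?_⟩
  rw [map_pow, adicValuation_exp_nsmul]
  exact pow_le_pow_left₀ zero_le (h v) n

/-- Kummer spaces are monotone. -/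
theorem kummerSpace_mono {f : F} {E E' : Divisor K F} (h : E ≤ E') :
    kummerSpace f n E ≤ kummerSpace f n E' := fun _ hφ =>
  rr_mono (nsmul_le_nsmul_right h n) hφ

/-- Products in Kummer spaces. -/
theorem mul_mem_kummerSpace {f g φ ψ : F} {E E' : Divisor K F}
    (hφ : φ ∈ kummerSpace f n E) (hψ : ψ ∈ kummerSpace g n E') :
    φ * ψ ∈ kummerSpace (f * g) n (E + E') := by
  rw [mem_kummerSpace] at hφ hψ ⊢
  rw [mul_pow, mul_mul_mul_comm, nsmul_add]
  exact mul_mem_rr hφ hψ

/-- `1` lies in the effective Kummer spaces of `1`. -/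
theorem one_mem_kummerSpace {E : Divisor K F} (hE : 0 ≤ E) :
    (1 : F) ∈ kummerSpace (1 : F) n E := by
  rw [kummerSpace_one]
  exact one_mem_rr hE

end Fermat.Agent.KummerReduction
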